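import Mathlib

/-!
# Absolute values and heights on `ℚ̄`

`absQb p` extends the standard absolute value at a place `p` of `ℚ` to `ℚ̄`; `ht v` is the absolute
logarithmic height of a vector, the sum over the places of the average over the embeddings of
`logMax`.  It is invariant under scaling (`ht_smul`, by the product formula) and under Galois
(`ht_galois`); relations between heights follow from bounds at each place (`abs_sum_ht_le`); vectors
with a coordinate `1` and bounded height over a number field are finitely many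
(`finite_setOf_ht_le`, Northcott, bounding the coefficients of `∏ (X - φ x)` over embeddings `φ`).
-/

set_option autoImplicit false

noncomputable section

namespace FLTAgent.MW

local notation "Qb" => AlgebraicClosure ℚ
local notation "Γℚ" => (AlgebraicClosure ℚ ≃ₐ[ℚ] AlgebraicClosure ℚ)

theorem isAlgebraic_qbar : Algebra.IsAlgebraic ℚ Qb := AlgebraicClosure.isAlgebraic ℚ

attribute [local instance] isAlgebraic_qbar

theorem normal_qbar : Normal ℚ Qb :=
  haveI : IsAlgClosure ℚ Qb := ⟨inferInstance, isAlgebraic_qbar⟩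
  IsAlgClosure.normal ℚ Qb

attribute [local instance] normal_qbar

/-- A place of `ℚ`: a prime or infinity. -/
abbrev RatPl : Type := Option Nat.Primes

/-- A chosen extension to `ℚ̄` of the standard absolute value at a place of `ℚ`. -/
def absQb : RatPl → AbsoluteValue Qb ℝ
  | none => (NormedField.toAbsoluteValue ℂ).comp
      (f := ((IsAlgClosed.lift : Qb →ₐ[ℚ] ℂ) : Qb →+* ℂ)) (RingHom.injective _)
  | some p =>
    haveI : Fact (p : ℕ).Prime := ⟨p.2⟩
    (NormedField.toAbsoluteValue (PadicAlgCl p)).comp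
      (f := ((IsAlgClosed.lift : Qb →ₐ[ℚ] PadicAlgCl p) : Qb →+* PadicAlgCl p))
      (RingHom.injective _)

/-- Its translate by an automorphism. -/
def absAt (p : RatPl) (σ : Γℚ) : AbsoluteValue Qb ℝ :=
  (absQb p).comp (f := (σ : Qb →+* Qb)) σ.injective

theorem absAt_apply (p : RatPl) (σ : Γℚ) (x : Qb) : absAt p σ x = absQb p (σ x) := rfl

/-- The logarithm of the largest absolute value of a coordinate. -/
def logMax (a : AbsoluteValue Qb ℝ) {ι : Type*} [Fintype ι] (v : ι → Qb) : ℝ :=
  Real.log (⨆ i, a (v i))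

/-! ### Values on the rationals -/

theorem absQb_none_rat (q : ℚ) : absQb none (q : Qb) = |(q : ℝ)| := by
  show ‖((IsAlgClosed.lift : Qb →ₐ[ℚ] ℂ) : Qb →+* ℂ) (q : Qb)‖ = |(q : ℝ)|
  rw [map_ratCast, ← Complex.ofReal_ratCast, Complex.norm_real, Real.norm_eq_abs]

theorem absQb_some_rat (p : Nat.Primes) (q : ℚ) :
    absQb (some p) (q : Qb) = ((padicNorm p q : ℚ) : ℝ) := by
  have : Fact (p : ℕ).Prime := ⟨p.2⟩
  show ‖((IsAlgClosed.lift : Qb →ₐ[ℚ] PadicAlgCl p) : Qb →+* PadicAlgCl p) (q : Qb)‖ = _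
  rw [map_ratCast, ← map_ratCast (algebraMap ℚ_[(p : ℕ)] (PadicAlgCl p)),
    PadicAlgCl.norm_extends, Padic.eq_padicNorm]

/-- At the finite places the absolute values are nonarchimedean. -/
theorem isNonarchimedean_absAt (p : Nat.Primes) (σ : Γℚ) :
    IsNonarchimedean (absAt (some p) σ) := fun x y => by
  have : Fact (p : ℕ).Prime := ⟨p.2⟩
  show ‖((IsAlgClosed.lift : Qb →ₐ[ℚ] PadicAlgCl p) : Qb →+* PadicAlgCl p) (σ (x + y))‖ ≤ _
  rw [map_add, map_add]
  exact PadicAlgCl.isNonarchimedean p _ _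

theorem isNonarchimedean_absQb (p : Nat.Primes) : IsNonarchimedean (absQb (some p)) := fun x y =>
  isNonarchimedean_absAt p 1 x y

theorem absQb_some_natPrime {p : Nat.Primes} {l : ℕ} (hl : l.Prime) :
    absQb (some p) (l : Qb) = if (p : ℕ) = l then (l : ℝ)⁻¹ else 1 := by
  have : Fact (p : ℕ).Prime := ⟨p.2⟩
  have : Fact l.Prime := ⟨hl⟩
  rw [← Rat.cast_natCast, absQb_some_rat]
  split_ifs with h
  · subst h
    rw [padicNorm.padicNorm_p_of_prime]
    simp
  · rw [padicNorm.padicNorm_of_prime_of_ne h]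
    simp

theorem absQb_some_int_eq_one {p : Nat.Primes} {n : ℤ} (h : ¬ ((p : ℕ) : ℤ) ∣ n) :
    absQb (some p) (n : Qb) = 1 := by
  have : Fact (p : ℕ).Prime := ⟨p.2⟩
  rw [← Rat.cast_intCast, absQb_some_rat, (padicNorm.int_eq_one_iff n).mpr h]
  simp

theorem finite_primes_dvd {n : ℤ} (hn : n ≠ 0) :
    {p : Nat.Primes | ((p : ℕ) : ℤ) ∣ n}.Finite := by
  refine Set.Finite.of_finite_image (f := fun p : Nat.Primes => (p : ℕ))
    ((Set.finite_le_nat n.natAbs).subset ?_) Subtype.coe_injective.injOn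
  rintro _ ⟨p, hp, rfl⟩
  exact Nat.le_of_dvd (Int.natAbs_pos.mpr hn) (Int.natCast_dvd.mp hp)

theorem absQb_le_one_of_isIntegral (p : Nat.Primes) {x : Qb} (hx : IsIntegral ℤ x) :
    absQb (some p) x ≤ 1 := by
  obtain ⟨P, hP, hPx⟩ := hx
  by_contra hlt
  push Not at hlt
  rw [← Polynomial.aeval_def, hP.as_sum] at hPx
  simp only [map_add, map_pow, Polynomial.aeval_X, map_sum, map_mul, eq_intCast,
    map_intCast] at hPx
  have hna := isNonarchimedean_absQb p
  set d := P.natDegree with hd
  have hd0 : d ≠ 0 := by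
    intro h0
    rw [h0] at hPx
    simp at hPx
  have hs : absQb (some p) (∑ i ∈ Finset.range d, (P.coeff i : Qb) * x ^ i) < absQb (some p) x ^ d := by
    obtain ⟨i, hi, hle⟩ := hna.finset_image_add_of_nonempty
      (fun i => (P.coeff i : Qb) * x ^ i) (Finset.nonempty_range_iff.mpr hd0)
    refine lt_of_le_of_lt hle ?_
    rw [map_mul, map_pow]
    refine lt_of_le_of_lt (mul_le_of_le_one_left (by positivity) ?_)
      (pow_lt_pow_right₀ hlt (Finset.mem_range.mp hi))
    exact IsNonarchimedean.apply_intCast_le_one hna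
  rw [← map_pow, eq_neg_of_add_eq_zero_left hPx, map_neg_eq_map] at hs
  exact lt_irrefl _ hs

/-- Constants have finitely many values at each place. -/
theorem finite_range_absAt (p : RatPl) (c : Qb) :
    (Set.range fun σ => absAt p σ c).Finite := by
  refine (((minpoly ℚ c).rootSet_finite Qb).image (absQb p)).subset ?_
  rintro _ ⟨σ, rfl⟩
  refine ⟨σ c, ?_, rfl⟩
  rw [Polynomial.mem_rootSet]
  exact ⟨minpoly.ne_zero (Algebra.IsIntegral.isIntegral c), by
    rw [← AlgEquiv.coe_toAlgHom, Polynomial.aeval_algHom_apply, minpoly.aeval, map_zero]⟩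

/-- A nonzero constant is a unit at almost all places. -/
theorem finite_setOf_absAt_ne_one {c : Qb} (hc : c ≠ 0) :
    {p : RatPl | ∃ σ, absAt p σ c ≠ 1}.Finite := by
  have key : ∀ x : Qb, ∃ d : ℤ, d ≠ 0 ∧ IsIntegral ℤ ((d : Qb) * x) := fun x => by
    have h : IsAlgebraic ℤ x :=
      (IsFractionRing.isAlgebraic_iff ℤ ℚ Qb).mpr (Algebra.IsAlgebraic.isAlgebraic x)
    obtain ⟨d, hd, hi⟩ := h.exists_integral_multiple
    exact ⟨d, hd, by simpa [zsmul_eq_mul] using hi⟩
  obtain ⟨d, hd, hdc⟩ := key c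
  obtain ⟨e, he, hec⟩ := key c⁻¹
  refine (((finite_primes_dvd hd).union (finite_primes_dvd he)).image some |>.insert none).subset ?_
  rintro (_ | p) ⟨σ, hσ⟩
  · exact Set.mem_insert _ _
  refine Set.mem_insert_of_mem _ ⟨p, ?_, rfl⟩
  by_contra hp
  simp only [Set.mem_union, Set.mem_ofPred_eq, not_or] at hp
  refine hσ (le_antisymm ?_ ?_)
  · have h := absQb_le_one_of_isIntegral p (map_isIntegral_int (σ : Qb →+* Qb) hdc)
    simpa [absAt_apply, absQb_some_int_eq_one hp.1] using h
  · have h := absQb_le_one_of_isIntegral p (map_isIntegral_int (σ : Qb →+* Qb) hec)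
    have h' : (absQb (some p) (σ c))⁻¹ ≤ 1 := by simpa [absQb_some_int_eq_one hp.2] using h
    rw [absAt_apply]
    exact (inv_le_one₀ ((absQb (some p)).pos (by simpa using hc))).mp h'

theorem finite_absQb_ne_one {c : Qb} (hc : c ≠ 0) : {p : RatPl | absQb p c ≠ 1}.Finite :=
  (finite_setOf_absAt_ne_one hc).subset fun _ hp => ⟨1, hp⟩

theorem support_log_absQb_finite {c : Qb} (hc : c ≠ 0) :
    (Function.support fun p => Real.log (absQb p c)).Finite :=
  (finite_absQb_ne_one hc).subset fun p hp h1 => hp (by simp [h1])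

/-- The product formula over `ℚ`. -/
theorem finsum_log_absQb_rat {q : ℚ} (hq : q ≠ 0) :
    ∑ᶠ p : RatPl, Real.log (absQb p (q : Qb)) = 0 := by
  have hmul : ∀ a b : ℚ, a ≠ 0 → b ≠ 0 →
      ∑ᶠ p : RatPl, Real.log (absQb p ((a * b : ℚ) : Qb)) =
        ∑ᶠ p : RatPl, Real.log (absQb p (a : Qb)) + ∑ᶠ p : RatPl, Real.log (absQb p (b : Qb)) := by
    intro a b ha hb
    have ha' : (a : Qb) ≠ 0 := by exact_mod_cast ha
    have hb' : (b : Qb) ≠ 0 := by exact_mod_cast hb
    rw [← finsum_add_distrib (support_log_absQb_finite ha') (support_log_absQb_finite hb')]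
    refine finsum_congr fun p => ?_
    rw [Rat.cast_mul, map_mul, Real.log_mul ((absQb p).ne_zero ha') ((absQb p).ne_zero hb')]
  have hnat : ∀ n : ℕ, n ≠ 0 → ∑ᶠ p : RatPl, Real.log (absQb p ((n : ℚ) : Qb)) = 0 := by
    intro n
    induction n using Nat.recOnMul with
    | zero => intro h; exact absurd rfl h
    | one => intro _; simp
    | prime l hl =>
      intro _
      have hsub : (Function.support fun p : RatPl => Real.log (absQb p ((l : ℚ) : Qb))) ⊆
          (({none, some ⟨l, hl⟩} : Finset RatPl) : Set RatPl) := by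
        rintro (_ | p) hp
        · simp
        · simp only [Function.mem_support, Rat.cast_natCast, absQb_some_natPrime hl] at hp
          split_ifs at hp with h
          · simp [show p = ⟨l, hl⟩ from Subtype.ext h]
          · simp at hp
      rw [finsum_eq_sum_of_support_subset _ hsub, Finset.sum_pair (by simp), absQb_none_rat,
        Rat.cast_natCast, Rat.cast_natCast]
      erw [absQb_some_natPrime (p := (⟨l, hl⟩ : Nat.Primes)) hl]
      simp
    | mul a b iha ihb =>
      intro hab
      rw [Nat.mul_ne_zero_iff] at hab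
      rw [Nat.cast_mul, hmul _ _ (by exact_mod_cast hab.1) (by exact_mod_cast hab.2),
        iha hab.1, ihb hab.2, add_zero]
  have hd : ((q.den : ℚ)) ≠ 0 := by exact_mod_cast q.den_nz
  have h1 := hmul q q.den hq hd
  rw [Rat.mul_den_eq_num, hnat _ q.den_nz, add_zero] at h1
  rw [← h1]
  obtain ⟨n, hn | hn⟩ := Int.eq_nat_or_neg q.num
  · rw [hn, Int.cast_natCast]
    exact hnat n fun h => hq (Rat.num_eq_zero.mp (by simp [hn, h]))
  · rw [hn, Int.cast_neg, Int.cast_natCast]
    refine Eq.trans (finsum_congr fun p => ?_)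
      (hnat n fun h => hq (Rat.num_eq_zero.mp (by simp [hn, h])))
    rw [Rat.cast_neg, AbsoluteValue.map_neg]

/-! ### Averages over the embeddings -/

variable {ι κ : Type*} [Fintype ι] [Fintype κ]

/-- The average of `logMax` over the embeddings of a field containing the coordinates. -/
def meanOn (p : RatPl) (K : IntermediateField ℚ Qb) (v : ι → K) : ℝ :=
  (∑ᶠ φ : K →ₐ[ℚ] Qb, logMax (absQb p) (fun i => φ (v i))) / (Module.finrank ℚ K : ℝ)

/-- The field of the coordinates. -/
abbrev entField (v : ι → Qb) : IntermediateField ℚ Qb := IntermediateField.adjoin ℚ (Set.range v)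

theorem mem_entField (v : ι → Qb) (i : ι) : v i ∈ entField v :=
  IntermediateField.subset_adjoin ℚ _ ⟨i, rfl⟩

theorem finiteDimensional_adjoin_of_finite {S : Set Qb} (hS : S.Finite) :
    FiniteDimensional ℚ (IntermediateField.adjoin ℚ S) :=
  haveI := hS.to_subtype
  IntermediateField.finiteDimensional_adjoin fun x _ => Algebra.IsIntegral.isIntegral x

/-- The average of `logMax` over the conjugates at a place. -/
def htLoc (p : RatPl) (v : ι → Qb) : ℝ :=
  meanOn p (entField v) (fun i => ⟨v i, mem_entField v i⟩)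

/-- The absolute logarithmic height of a vector: sum over the places of `ℚ` of the average over
the conjugates of `logMax`. -/
def ht {ι : Type*} [Fintype ι] (v : ι → Qb) : ℝ := ∑ᶠ p : RatPl, htLoc p v

set_option backward.isDefEq.respectTransparency false in
theorem meanOn_inclusion (p : RatPl) {E K : IntermediateField ℚ Qb} [FiniteDimensional ℚ K]
    (h : E ≤ K) (v : ι → E) :
    meanOn p K (fun i => IntermediateField.inclusion h (v i)) = meanOn p E v := by
  classical
  let : Algebra E K := (IntermediateField.inclusion h).toRingHom.toAlgebra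
  have : IsScalarTower ℚ E K := IsScalarTower.of_algHom (IntermediateField.inclusion h)
  have : FiniteDimensional ℚ E :=
    FiniteDimensional.of_injective (IntermediateField.inclusion h).toLinearMap
      (IntermediateField.inclusion h).injective
  have : FiniteDimensional E K := FiniteDimensional.right ℚ E K
  have hfib : ∀ f : E →ₐ[ℚ] Qb,
      (Finset.univ.filter fun ψ : K →ₐ[ℚ] Qb =>
        ψ.comp (IntermediateField.inclusion h) = f).card = Module.finrank E K := by
    intro f
    let : Algebra E Qb := f.toRingHom.toAlgebra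
    rw [← Fintype.card_subtype, ← AlgHom.card E K Qb]
    refine Fintype.card_congr
      { toFun := fun ψ => { (ψ.1 : K →+* Qb) with commutes' := fun e => AlgHom.congr_fun ψ.2 e }
        invFun := fun g =>
          ⟨{ (g : K →+* Qb) with
              commutes' := fun r => by
                have := g.commutes (algebraMap ℚ E r)
                rw [← IsScalarTower.algebraMap_apply ℚ E K] at this
                exact this.trans (f.commutes r) }, AlgHom.ext fun e => g.commutes e⟩
        left_inv := fun ψ => rfl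
        right_inv := fun g => rfl }
  rw [meanOn, meanOn, finsum_eq_sum_of_fintype, finsum_eq_sum_of_fintype,
    ← Finset.sum_fiberwise Finset.univ (fun ψ : K →ₐ[ℚ] Qb =>
      ψ.comp (IntermediateField.inclusion h))]
  rw [Finset.sum_congr rfl fun f _ => Finset.sum_congr rfl
    (g := fun _ => logMax (absQb p) fun i => f (v i)) fun ψ hψ => by
      rw [← (Finset.mem_filter.mp hψ).2]; rfl]
  simp only [Finset.sum_const, nsmul_eq_mul]
  rw [Finset.sum_congr rfl fun f _ => congrArg (fun z : ℕ => (z : ℝ) *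
    logMax (absQb p) fun i => f (v i)) (hfib f)]
  rw [← Finset.mul_sum]
  have : Module.Free E K := Module.Free.of_divisionRing E K
  rw [← Module.finrank_mul_finrank ℚ E K, Nat.cast_mul, mul_comm (Module.finrank ℚ E : ℝ),
    mul_div_mul_left _ _ (Nat.cast_ne_zero.mpr Module.finrank_pos.ne')]

theorem htLoc_eq (p : RatPl) (v : ι → Qb) (K : IntermediateField ℚ Qb) [FiniteDimensional ℚ K]
    (h : ∀ i, v i ∈ K) : htLoc p v = meanOn p K fun i => ⟨v i, h i⟩ :=
  (meanOn_inclusion p (IntermediateField.adjoin_le_iff.mpr (by rintro _ ⟨i, rfl⟩; exact h i))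
    fun i => (⟨v i, mem_entField v i⟩ : entField v)).symm

theorem exists_galois_lift {K : IntermediateField ℚ Qb} (φ : K →ₐ[ℚ] Qb) :
    ∃ σ : Γℚ, ∀ x : K, φ x = σ (x : Qb) :=
  ⟨AlgEquiv.ofBijective (φ.liftNormal Qb)
      (Algebra.IsAlgebraic.algHom_bijective (φ.liftNormal Qb)),
    fun x => (φ.liftNormal_commutes Qb x).symm⟩

theorem logMax_zero (a : AbsoluteValue Qb ℝ) : logMax a (0 : ι → Qb) = 0 := by
  rcases isEmpty_or_nonempty ι <;> simp [logMax]

theorem iSup_abs_pos (a : AbsoluteValue Qb ℝ) {v : ι → Qb} (hv : v ≠ 0) : 0 < ⨆ i, a (v i) := by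
  obtain ⟨i, hi⟩ := Function.ne_iff.mp hv
  exact (a.pos hi).trans_le (le_ciSup (Finite.bddAbove_range fun j => a (v j)) i)

theorem logMax_smul (a : AbsoluteValue Qb ℝ) {c : Qb} (hc : c ≠ 0) {v : ι → Qb} (hv : v ≠ 0) :
    logMax a (c • v) = Real.log (a c) + logMax a v := by
  rw [logMax, logMax, ← Real.log_mul (a.ne_zero hc) (iSup_abs_pos a hv).ne',
    Real.mul_iSup_of_nonneg (a.nonneg c)]
  simp

theorem logMax_nonneg (a : AbsoluteValue Qb ℝ) {v : ι → Qb} {i₀ : ι} (h : v i₀ = 1) :
    0 ≤ logMax a v :=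
  Real.log_nonneg (le_trans (by rw [h, map_one])
    (le_ciSup (Finite.bddAbove_range fun j => a (v j)) i₀))

theorem htLoc_zero (p : RatPl) : htLoc p (0 : ι → Qb) = 0 := by
  show meanOn p (entField (0 : ι → Qb)) _ = 0
  have : FiniteDimensional ℚ (entField (0 : ι → Qb)) :=
    finiteDimensional_adjoin_of_finite (Set.finite_range _)
  have h0 : ∀ φ : entField (0 : ι → Qb) →ₐ[ℚ] Qb,
      (fun i => φ ⟨(0 : ι → Qb) i, mem_entField (0 : ι → Qb) i⟩) = (0 : ι → Qb) :=
    fun φ => funext fun i => map_zero φ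
  simp only [meanOn, h0, logMax_zero, finsum_zero, zero_div]

theorem ht_zero : ht (0 : ι → Qb) = 0 := by simp [ht, htLoc_zero]

theorem finite_support_htLoc (v : ι → Qb) : (Function.support fun p => htLoc p v).Finite := by
  rcases eq_or_ne v 0 with rfl | hv
  · simp [htLoc_zero]
  have := finiteDimensional_adjoin_of_finite (Set.finite_range v)
  refine (Set.Finite.biUnion (Set.finite_univ (α := ι) |>.subset (Set.subset_univ {i | v i ≠ 0}))
    fun i hi => finite_setOf_absAt_ne_one (c := v i) hi).subset fun p hp => ?_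
  by_contra hbad
  simp only [Set.mem_iUnion, Set.mem_ofPred_eq, not_exists, not_not] at hbad
  refine hp ?_
  show meanOn p (entField v) _ = 0
  rw [meanOn, finsum_eq_sum_of_fintype, Finset.sum_eq_zero, zero_div]
  intro φ _
  obtain ⟨σ, hσ⟩ := exists_galois_lift φ
  obtain ⟨i, hi⟩ := Function.ne_iff.mp hv
  have : Nonempty ι := ⟨i⟩
  have hval : ∀ j, absQb p (σ (v j)) ≤ 1 := fun j => by
    by_cases hj : v j = 0
    · simp [hj]
    · exact (hbad j hj σ).le
  have hs : ⨆ j, absQb p (φ ⟨v j, mem_entField v j⟩) = 1 := by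
    simp only [hσ]
    exact le_antisymm (ciSup_le hval) ((hbad i hi σ).ge.trans
      (le_ciSup (Finite.bddAbove_range fun j => absQb p (σ (v j))) i))
  simp [logMax, hs]

theorem log_norm_eq (p : RatPl) (K : IntermediateField ℚ Qb) [FiniteDimensional ℚ K]
    {c : K} (hc : c ≠ 0) :
    ∑ φ : K →ₐ[ℚ] Qb, Real.log (absQb p (φ c)) =
      Real.log (absQb p ((Algebra.norm ℚ c : ℚ) : Qb)) := by
  rw [← Real.log_prod fun φ _ => (absQb p).ne_zero ((map_ne_zero φ).mpr hc), ← map_prod,
    ← Algebra.norm_eq_prod_embeddings ℚ Qb c, eq_ratCast]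

theorem ht_smul {ι : Type*} [Fintype ι] (c : Qb) (hc : c ≠ 0) (v : ι → Qb) :
    ht (c • v) = ht v := by
  rcases eq_or_ne v 0 with rfl | hv
  · rw [smul_zero]
  let K := IntermediateField.adjoin ℚ (insert c (Set.range v))
  have : FiniteDimensional ℚ K :=
    finiteDimensional_adjoin_of_finite ((Set.finite_range v).insert c)
  have hK : ∀ i, v i ∈ K := fun i =>
    IntermediateField.subset_adjoin ℚ _ (Set.mem_insert_of_mem _ ⟨i, rfl⟩)
  have hcK : c ∈ K := IntermediateField.subset_adjoin ℚ _ (Set.mem_insert _ _)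
  have hcK' : (⟨c, hcK⟩ : K) ≠ 0 := fun h => hc (congrArg Subtype.val h)
  have key : ∀ p, htLoc p (c • v) = htLoc p v +
      (Module.finrank ℚ K : ℝ)⁻¹ *
        Real.log (absQb p ((Algebra.norm ℚ (⟨c, hcK⟩ : K) : ℚ) : Qb)) := by
    intro p
    rw [htLoc_eq p (c • v) K fun i => mul_mem hcK (hK i), htLoc_eq p v K hK, meanOn, meanOn,
      finsum_eq_sum_of_fintype, finsum_eq_sum_of_fintype, ← log_norm_eq p K hcK', inv_mul_eq_div,
      ← add_div, ← Finset.sum_add_distrib]
    refine congrArg (· / (Module.finrank ℚ K : ℝ)) (Finset.sum_congr rfl fun φ _ => ?_)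
    have hφv : (fun i => φ ⟨v i, hK i⟩) ≠ 0 := by
      obtain ⟨i, hi⟩ := Function.ne_iff.mp hv
      exact Function.ne_iff.mpr ⟨i, by simpa using fun h => hi (congrArg Subtype.val h)⟩
    rw [add_comm, ← logMax_smul (absQb p) ((map_ne_zero φ).mpr hcK') hφv]
    refine congrArg (logMax (absQb p)) (funext fun i => ?_)
    exact map_mul φ (⟨c, hcK⟩ : K) ⟨v i, hK i⟩
  have hN : Algebra.norm ℚ (⟨c, hcK⟩ : K) ≠ 0 := Algebra.norm_ne_zero_iff.mpr hcK'
  rw [ht, ht, finsum_congr key, finsum_add_distrib (finite_support_htLoc v)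
    ((support_log_absQb_finite (by exact_mod_cast hN)).subset (Function.support_mul_subset_right _ _)),
    ← mul_finsum,
    finsum_log_absQb_rat hN, mul_zero, add_zero]

theorem htLoc_nonneg (p : RatPl) {v : ι → Qb} {i₀ : ι} (h : v i₀ = 1) : 0 ≤ htLoc p v := by
  refine div_nonneg (finsum_nonneg fun φ => logMax_nonneg _ (i₀ := i₀) ?_) (Nat.cast_nonneg _)
  show φ ⟨v i₀, mem_entField v i₀⟩ = 1
  rw [show (⟨v i₀, mem_entField v i₀⟩ : entField v) = 1 from Subtype.ext h, map_one]

theorem ht_nonneg {ι : Type*} [Fintype ι] (v : ι → Qb) : 0 ≤ ht v := by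
  rcases eq_or_ne v 0 with rfl | hv
  · rw [ht_zero]
  obtain ⟨i, hi⟩ := Function.ne_iff.mp hv
  rw [← ht_smul (v i)⁻¹ (inv_ne_zero hi) v]
  exact finsum_nonneg fun p => htLoc_nonneg p (i₀ := i) (inv_mul_cancel₀ hi)

theorem ht_comp_equiv {ι κ : Type*} [Fintype ι] [Fintype κ] (e : κ ≃ ι) (v : ι → Qb) :
    ht (v ∘ e) = ht v := by
  have := finiteDimensional_adjoin_of_finite (Set.finite_range v)
  refine finsum_congr fun p => ?_
  rw [htLoc_eq p (v ∘ e) (entField v) fun i => mem_entField v (e i), htLoc, meanOn, meanOn]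
  refine congrArg (· / (Module.finrank ℚ (entField v) : ℝ)) (finsum_congr fun φ => ?_)
  exact congrArg Real.log (Equiv.iSup_comp e (g := fun i => absQb p (φ ⟨v i, mem_entField v i⟩)))

theorem ht_galois {ι : Type*} [Fintype ι] (τ : Γℚ) (v : ι → Qb) : ht (τ ∘ v) = ht v := by
  have := finiteDimensional_adjoin_of_finite (Set.finite_range v)
  let K' := (entField v).map (τ : Qb →ₐ[ℚ] Qb)
  let e : entField v ≃ₐ[ℚ] K' := IntermediateField.equivMap (entField v) (τ : Qb →ₐ[ℚ] Qb)
  have : FiniteDimensional ℚ K' := Module.Finite.equiv e.toLinearEquiv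
  refine finsum_congr fun p => ?_
  rw [htLoc_eq p (τ ∘ v) K' fun i => ⟨v i, mem_entField v i, rfl⟩, htLoc, meanOn, meanOn,
    ← e.toLinearEquiv.finrank_eq]
  refine congrArg (· / (Module.finrank ℚ (entField v) : ℝ)) ?_
  exact finsum_eq_of_bijective (fun φ => φ.comp (e : entField v →ₐ[ℚ] K'))
    (AlgEquiv.arrowCongr e.symm AlgEquiv.refl).bijective fun φ => rfl

theorem ht_single {ι : Type*} [Fintype ι] [Subsingleton ι] (v : ι → Qb) : ht v = 0 := by
  rcases eq_or_ne v 0 with rfl | hv
  · exact ht_zero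
  obtain ⟨i, hi⟩ := Function.ne_iff.mp hv
  have : Nonempty ι := ⟨i⟩
  rw [← ht_smul (v i)⁻¹ (inv_ne_zero hi) v]
  refine finsum_eq_zero_of_forall_eq_zero fun p => ?_
  have h1 : (v i)⁻¹ • v = 1 := funext fun j => by
    rw [Subsingleton.elim j i]; exact inv_mul_cancel₀ hi
  rw [h1, htLoc_eq p (1 : ι → Qb) ⊥ fun _ => one_mem _, meanOn]
  have h2 : ∀ φ : (⊥ : IntermediateField ℚ Qb) →ₐ[ℚ] Qb,
      logMax (absQb p) (fun _ : ι => φ ⟨1, one_mem _⟩) = 0 := fun φ => by
    simp [logMax, show (⟨1, one_mem _⟩ : (⊥ : IntermediateField ℚ Qb)) = 1 from rfl]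
  simp [h2]

/-- Linear combinations of heights are bounded by uniform local bounds. -/
theorem abs_sum_ht_le {α β : Type*} [Fintype α] [Fintype β] {ιL : α → Type*} {ιR : β → Type*}
    [∀ a, Fintype (ιL a)] [∀ b, Fintype (ιR b)] (L : ∀ a, ιL a → Qb) (R : ∀ b, ιR b → Qb)
    (hL : ∀ a, L a ≠ 0) (hR : ∀ b, R b ≠ 0) (C : RatPl → ℝ) (hC : (Function.support C).Finite)
    (h : ∀ p σ, |∑ a, logMax (absAt p σ) (L a) - ∑ b, logMax (absAt p σ) (R b)| ≤ C p) :
    |∑ a, ht (L a) - ∑ b, ht (R b)| ≤ ∑ᶠ p, C p := by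
  let K := IntermediateField.adjoin ℚ ((⋃ a, Set.range (L a)) ∪ ⋃ b, Set.range (R b))
  have : FiniteDimensional ℚ K := finiteDimensional_adjoin_of_finite
    ((Set.finite_iUnion fun a => Set.finite_range _).union
      (Set.finite_iUnion fun b => Set.finite_range _))
  have hLK : ∀ a i, L a i ∈ K := fun a i =>
    IntermediateField.subset_adjoin ℚ _ (Or.inl (Set.mem_iUnion.mpr ⟨a, i, rfl⟩))
  have hRK : ∀ b i, R b i ∈ K := fun b i =>
    IntermediateField.subset_adjoin ℚ _ (Or.inr (Set.mem_iUnion.mpr ⟨b, i, rfl⟩))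
  let D : RatPl → ℝ := fun p => ∑ a, htLoc p (L a) - ∑ b, htLoc p (R b)
  have hpt : ∀ p, |D p| ≤ C p := by
    intro p
    have hn : (0 : ℝ) < (Module.finrank ℚ K : ℝ) := Nat.cast_pos.mpr Module.finrank_pos
    simp only [D]
    simp only [fun a => htLoc_eq p (L a) K (hLK a), fun b => htLoc_eq p (R b) K (hRK b), meanOn,
      finsum_eq_sum_of_fintype]
    rw [← Finset.sum_div, ← Finset.sum_div, ← sub_div, abs_div, abs_of_pos hn, div_le_iff₀ hn,
      Finset.sum_comm, Finset.sum_comm (s := (Finset.univ : Finset β)), ← Finset.sum_sub_distrib]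
    refine (Finset.abs_sum_le_sum_abs _ _).trans
      ((Finset.sum_le_card_nsmul _ _ (C p) fun φ _ => ?_).trans_eq ?_)
    · obtain ⟨σ, hσ⟩ := exists_galois_lift φ
      have := h p σ
      simpa [logMax, hσ, absAt_apply] using this
    · rw [Finset.card_univ, AlgHom.card, nsmul_eq_mul, mul_comm]
  obtain ⟨s, hs⟩ := ((Set.finite_iUnion fun a => finite_support_htLoc (L a)).union
    ((Set.finite_iUnion fun b => finite_support_htLoc (R b)).union hC)).exists_finset_coe
  simp only [ht]
  rw [Finset.sum_congr rfl (g := fun a => ∑ p ∈ s, htLoc p (L a)) fun a _ =>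
      finsum_eq_sum_of_support_subset (fun p => htLoc p (L a))
        (fun p hp => (Set.ext_iff.mp hs p).mpr (Or.inl (Set.mem_iUnion.mpr ⟨a, hp⟩))),
    Finset.sum_congr rfl (g := fun b => ∑ p ∈ s, htLoc p (R b)) fun b _ =>
      finsum_eq_sum_of_support_subset (fun p => htLoc p (R b))
        (fun p hp => (Set.ext_iff.mp hs p).mpr (Or.inr (Or.inl (Set.mem_iUnion.mpr ⟨b, hp⟩)))),
    finsum_eq_sum_of_support_subset C
      (fun p hp => (Set.ext_iff.mp hs p).mpr (Or.inr (Or.inr hp))),
    Finset.sum_comm, Finset.sum_comm (s := (Finset.univ : Finset β)), ← Finset.sum_sub_distrib]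
  exact (Finset.abs_sum_le_sum_abs _ _).trans (Finset.sum_le_sum fun p _ => hpt p)

/-! ### Northcott -/

theorem abs_coeff_prod_le (a : AbsoluteValue Qb ℝ) {A : ℝ} (hA : 0 ≤ A)
    (ha : ∀ x y, a (x + y) ≤ A * max (a x) (a y)) (s : Multiset Qb) (k : ℕ) :
    a ((s.map fun y => Polynomial.X - Polynomial.C y).prod.coeff k) ≤
      (s.map fun y => A * max 1 (a y)).prod := by
  induction s using Multiset.induction generalizing k with
  | empty =>
    simp only [Multiset.map_zero, Multiset.prod_zero, Polynomial.coeff_one]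
    split_ifs <;> simp
  | cons y s ih =>
    simp only [Multiset.map_cons, Multiset.prod_cons]
    have hM : 0 ≤ (s.map fun y => A * max 1 (a y)).prod := (apply_nonneg a _).trans (ih 0)
    set P := (s.map fun y => Polynomial.X - Polynomial.C y).prod
    set M := (s.map fun y => A * max 1 (a y)).prod
    rw [sub_mul, Polynomial.coeff_sub, Polynomial.coeff_C_mul, sub_eq_add_neg]
    refine (ha _ _).trans ?_
    rw [mul_assoc]
    refine mul_le_mul_of_nonneg_left (max_le ?_ ?_) hA
    · cases k with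
      | zero => simpa using mul_nonneg (zero_le_one.trans (le_max_left 1 (a y))) hM
      | succ k => simpa using (ih k).trans (le_mul_of_one_le_left hM (le_max_left _ _))
    · rw [AbsoluteValue.map_neg, map_mul]
      exact mul_le_mul (le_max_right _ _) (ih k) (apply_nonneg a _)
        (zero_le_one.trans (le_max_left _ _))

theorem finite_of_place_bounds (A B : ℝ) :
    {q : ℚ | |(q : ℝ)| ≤ A ∧ ∃ M : Nat.Primes → ℝ, (∀ p, 0 ≤ M p) ∧
      (Function.support M).Finite ∧ ∑ᶠ p, M p ≤ B ∧
      ∀ p, Real.log (absQb (some p) (q : Qb)) ≤ M p}.Finite := by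
  let D := ⌊Real.exp B⌋₊
  let N := ⌈A * D⌉
  refine ((((Finset.Icc (-N) N) ×ˢ Finset.Icc 1 D).finite_toSet).image
    fun nd : ℤ × ℕ => (nd.1 : ℚ) / nd.2).subset ?_
  rintro q ⟨hA, M, hM0, hMfin, hMB, hM⟩
  have hden : Real.log (q.den : ℝ) ≤ B := by
    have hd : ((q.den : ℚ) : Qb) ≠ 0 := by exact_mod_cast q.den_nz
    have hpf := finsum_log_absQb_rat (q := (q.den : ℚ)) (by exact_mod_cast q.den_nz)
    obtain ⟨s, hs⟩ := (hMfin.union
      ((support_log_absQb_finite hd).preimage (Option.some_injective _).injOn)).exists_finset_coe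
    have hsub : (Function.support fun p : RatPl => Real.log (absQb p ((q.den : ℚ) : Qb))) ⊆
        ((insert none (s.image some) : Finset RatPl) : Set RatPl) := by
      rintro (_ | p) hp
      · simp
      · simp [show p ∈ s from (Set.ext_iff.mp hs p).mpr (Or.inr hp)]
    rw [finsum_eq_sum_of_support_subset _ hsub, Finset.sum_insert (by simp),
      Finset.sum_image (Option.some_injective _).injOn, absQb_none_rat] at hpf
    rw [finsum_eq_sum_of_support_subset M
      (hs ▸ Set.subset_union_left : Function.support M ⊆ (s : Set _))] at hMB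
    have hp : ∀ p : Nat.Primes, -M p ≤ Real.log (absQb (some p) ((q.den : ℚ) : Qb)) := by
      intro p
      have : Fact (p : ℕ).Prime := ⟨p.2⟩
      by_cases hpd : (p : ℕ) ∣ q.den
      · have hpn : ¬ ((p : ℕ) : ℤ) ∣ q.num := fun hdn =>
          p.2.one_lt.ne' (Nat.eq_one_of_dvd_coprimes q.reduced (Int.natCast_dvd.mp hdn) hpd)
        have hq : absQb (some p) (q : Qb) * absQb (some p) ((q.den : ℚ) : Qb) = 1 := by
          rw [← map_mul, ← Rat.cast_mul, Rat.mul_den_eq_num, Rat.cast_intCast,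
            absQb_some_int_eq_one hpn]
        rw [eq_inv_of_mul_eq_one_right hq, Real.log_inv]
        linarith [hM p]
      · have := absQb_some_int_eq_one (p := p) (n := (q.den : ℤ)) (by exact_mod_cast hpd)
        push_cast at this ⊢
        rw [this, Real.log_one]
        linarith [hM0 p]
    have := Finset.sum_le_sum (s := s) fun p _ => hp p
    rw [Finset.sum_neg_distrib] at this
    have habs : |((q.den : ℚ) : ℝ)| = (q.den : ℝ) := by simp
    rw [habs] at hpf
    linarith
  have hdenD : q.den ≤ D := Nat.le_floor (Real.le_exp_log _ |>.trans (Real.exp_le_exp.mpr hden))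
  refine ⟨(q.num, q.den), ?_, Rat.num_div_den q⟩
  simp only [Finset.coe_product, Set.mem_prod, Finset.coe_Icc, Set.mem_Icc]
  refine ⟨abs_le.mp ?_, q.den_pos, hdenD⟩
  refine Int.cast_le (R := ℝ).mp ?_
  calc ((|q.num| : ℤ) : ℝ) = |(q : ℝ)| * q.den := by
        rw [Int.cast_abs, Rat.cast_def, abs_div, Nat.abs_cast,
          div_mul_cancel₀ _ (by exact_mod_cast q.den_nz)]
    _ ≤ A * D := mul_le_mul hA (by exact_mod_cast hdenD) (Nat.cast_nonneg _)
        ((abs_nonneg _).trans hA)
    _ ≤ N := Int.le_ceil _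

theorem finite_setOf_small (K₀ : IntermediateField ℚ Qb) [FiniteDimensional ℚ K₀] (B : ℝ) :
    {x : Qb | ∃ hx : x ∈ K₀, ∀ s : Finset RatPl,
      ∑ p ∈ s, ∑ φ : K₀ →ₐ[ℚ] Qb, Real.log (max 1 (absQb p (φ ⟨x, hx⟩))) ≤ B}.Finite := by
  classical
  let n := Module.finrank ℚ K₀
  let Q := {q : ℚ | |(q : ℝ)| ≤ (2 : ℝ) ^ n * Real.exp B ∧ ∃ M : Nat.Primes → ℝ,
    (∀ p, 0 ≤ M p) ∧ (Function.support M).Finite ∧ ∑ᶠ p, M p ≤ B ∧
    ∀ p, Real.log (absQb (some p) (q : Qb)) ≤ M p}
  have hQ : Q.Finite := finite_of_place_bounds _ _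
  have hP : (Set.pi Set.univ fun _ : Fin (n + 1) => Q).Finite := Set.Finite.pi fun _ => hQ
  refine ((hP.image fun c : Fin (n + 1) → ℚ => ∑ k, Polynomial.C (c k) * Polynomial.X ^ (k : ℕ)
    ).biUnion fun P _ => P.rootSet_finite Qb).subset ?_
  rintro x ⟨hx, hb⟩
  let x' : K₀ := ⟨x, hx⟩
  let P := minpoly ℚ x'
  have hP0 : P ≠ 0 := minpoly.ne_zero (Algebra.IsIntegral.isIntegral x')
  have hdeg : P.natDegree ≤ n := minpoly.natDegree_le x'
  let lm : RatPl → ℝ := fun p => ∑ φ : K₀ →ₐ[ℚ] Qb, Real.log (max 1 (absQb p (φ x')))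
  have hlm0 : ∀ p, 0 ≤ lm p := fun p =>
    Finset.sum_nonneg fun φ _ => Real.log_nonneg (le_max_left _ _)
  have hroots : P.rootSet Qb = Set.range fun φ : K₀ →ₐ[ℚ] Qb => φ x' :=
    (Algebra.IsAlgebraic.range_eval_eq_rootSet_minpoly Qb x').symm
  have hcoef : ∀ (p : RatPl) (A : ℝ), 1 ≤ A →
      (∀ y z, absQb p (y + z) ≤ A * max (absQb p y) (absQb p z)) →
      ∀ k, absQb p ((P.coeff k : ℚ) : Qb) ≤ A ^ n * Real.exp (lm p) := by
    intro p A hA1 hA k
    have hsplit : (P.map (algebraMap ℚ Qb)) =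
        ((P.aroots Qb).map fun y => Polynomial.X - Polynomial.C y).prod :=
      (IsAlgClosed.splits _).eq_prod_roots_of_monic
        ((minpoly.monic (Algebra.IsIntegral.isIntegral x')).map _)
    have hsep : (P.aroots Qb).Nodup :=
      Polynomial.nodup_roots ((minpoly.irreducible
        (Algebra.IsIntegral.isIntegral x')).separable.map)
    rw [← eq_ratCast (algebraMap ℚ Qb), ← Polynomial.coeff_map, hsplit]
    refine (abs_coeff_prod_le _ (zero_le_one.trans hA1) hA _ k).trans ?_
    rw [Multiset.prod_map_mul, Multiset.map_const', Multiset.prod_replicate]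
    refine mul_le_mul (pow_le_pow_right₀ hA1 ?_) ?_ ?_ (by positivity)
    · exact (Polynomial.card_roots' _).trans (by rw [Polynomial.natDegree_map]; exact hdeg)
    · rw [Real.exp_sum, Finset.prod_congr rfl fun φ _ =>
        Real.exp_log (lt_of_lt_of_le one_pos (le_max_left 1 (absQb p (φ x'))))]
      have : ((P.aroots Qb).map fun y => max 1 (absQb p y)).prod =
          ∏ y ∈ (Finset.univ.image fun φ : K₀ →ₐ[ℚ] Qb => φ x'), max 1 (absQb p y) := by
        rw [show (Finset.univ.image fun φ : K₀ →ₐ[ℚ] Qb => φ x') = (P.aroots Qb).toFinset from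
          Finset.coe_injective (by rw [Finset.coe_image, Finset.coe_univ, Set.image_univ, ← hroots,
            Polynomial.rootSet_def])]
        rw [Finset.prod_eq_multiset_prod, Multiset.toFinset_val, Multiset.dedup_eq_self.mpr hsep]
      rw [this]
      rw [Finset.prod_comp (fun y : Qb => max 1 (absQb p y)) fun φ : K₀ →ₐ[ℚ] Qb => φ x']
      refine Finset.prod_le_prod (fun y _ => zero_le_one.trans (le_max_left _ _))
        fun y hy => le_self_pow₀ (le_max_left _ _) ?_
      obtain ⟨φ, _, hφ⟩ := Finset.mem_image.mp hy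
      exact Finset.card_ne_zero_of_mem (Finset.mem_filter.mpr ⟨Finset.mem_univ φ, hφ⟩)
    · exact Multiset.prod_nonneg fun y hy => by
        obtain ⟨_, _, rfl⟩ := Multiset.mem_map.mp hy
        exact zero_le_one.trans (le_max_left _ _)
  have hc : ∀ k : Fin (n + 1), P.coeff k ∈ Q := by
    intro k
    refine ⟨?_, fun p => lm (some p), fun p => hlm0 _, ?_, ?_, fun p => ?_⟩
    · rw [← absQb_none_rat]
      refine (hcoef none 2 one_le_two (fun y z => ?_) k).trans ?_
      · exact ((absQb none).add_le y z).trans (by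
          linarith [le_max_left (absQb none y) (absQb none z),
            le_max_right (absQb none y) (absQb none z)])
      · gcongr
        simpa using hb {none}
    · rcases eq_or_ne x' 0 with h0 | h0
      · simp [lm, h0]
      · refine ((finite_setOf_absAt_ne_one (c := x) fun h => h0 (Subtype.ext h)).preimage
          (Option.some_injective _).injOn).subset fun p hp => ?_
        by_contra hne
        simp only [Set.mem_preimage, Set.mem_ofPred_eq, not_exists, not_not] at hne
        refine hp (Finset.sum_eq_zero fun φ _ => ?_)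
        obtain ⟨σ, hσ⟩ := exists_galois_lift φ
        rw [hσ x', show absQb (some p) (σ (x' : Qb)) = 1 from hne σ, max_self, Real.log_one]
    · rcases Set.finite_or_infinite (Function.support fun p : Nat.Primes => lm (some p)) with
        hf | hf
      · rw [finsum_eq_sum _ hf]
        simpa [Finset.sum_image (Option.some_injective _).injOn] using
          hb (hf.toFinset.image some)
      · rw [finsum_of_infinite_support hf]
        simpa using (hlm0 none).trans (by simpa using hb {none})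
    · rcases eq_or_ne (P.coeff k) 0 with h0 | h0
      · simp only [h0, Rat.cast_zero, map_zero, Real.log_zero]
        exact hlm0 _
      · refine (Real.log_le_log ((absQb (some p)).pos (by exact_mod_cast h0))
          (hcoef (some p) 1 le_rfl (fun y z => ?_) k)).trans (by simp [lm])
        rw [one_mul]
        exact isNonarchimedean_absQb p y z
  refine Set.mem_iUnion₂.mpr ⟨P, ⟨fun k => P.coeff k, fun k _ => hc k, ?_⟩, ?_⟩
  · exact ((Fin.sum_univ_eq_sum_range
      (fun k => Polynomial.C (P.coeff k) * Polynomial.X ^ k) (n + 1)).trans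
      (P.as_sum_range_C_mul_X_pow' (Nat.lt_succ_of_le hdeg)).symm)
  · rw [Polynomial.mem_rootSet_of_ne hP0]
    exact (Polynomial.aeval_algHom_apply K₀.val x' P).trans (by rw [minpoly.aeval, map_zero])

/-- Northcott: normalised vectors of bounded height over a number field are finitely many. -/
theorem finite_setOf_ht_le {ι : Type*} [Fintype ι] (K₀ : IntermediateField ℚ Qb)
    [FiniteDimensional ℚ K₀] (i₀ : ι) (B : ℝ) :
    {v : ι → Qb | v i₀ = 1 ∧ (∀ i, v i ∈ K₀) ∧ ht v ≤ B}.Finite := by
  refine (Set.Finite.pi fun _ : ι =>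
    finite_setOf_small K₀ ((Module.finrank ℚ K₀ : ℝ) * B)).subset ?_
  rintro v ⟨h1, hK, hB⟩ i -
  refine ⟨hK i, fun s => ?_⟩
  have hn : (0 : ℝ) < (Module.finrank ℚ K₀ : ℝ) := Nat.cast_pos.mpr Module.finrank_pos
  refine le_trans ?_ (mul_le_mul_of_nonneg_left hB hn.le)
  calc ∑ p ∈ s, ∑ φ : K₀ →ₐ[ℚ] Qb, Real.log (max 1 (absQb p (φ ⟨v i, hK i⟩)))
      ≤ ∑ p ∈ s, (Module.finrank ℚ K₀ : ℝ) * htLoc p v := by
        refine Finset.sum_le_sum fun p _ => ?_
        rw [htLoc_eq p v K₀ hK, meanOn, mul_div_cancel₀ _ hn.ne', finsum_eq_sum_of_fintype]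
        refine Finset.sum_le_sum fun φ _ => Real.log_le_log (lt_of_lt_of_le one_pos
          (le_max_left _ _)) ?_
        refine max_le ?_ (le_ciSup
          (Finite.bddAbove_range fun j => absQb p (φ ⟨v j, hK j⟩)) i)
        refine le_trans ?_ (le_ciSup (Finite.bddAbove_range fun j => absQb p (φ ⟨v j, hK j⟩)) i₀)
        rw [show (⟨v i₀, hK i₀⟩ : K₀) = 1 from Subtype.ext h1, map_one, map_one]
    _ ≤ (Module.finrank ℚ K₀ : ℝ) * ht v := by
        rw [← Finset.mul_sum]
        refine mul_le_mul_of_nonneg_left ?_ hn.le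
        obtain ⟨t, ht'⟩ := (finite_support_htLoc v).exists_finset_coe
        classical
        rw [ht, finsum_eq_sum_of_support_subset _ (s := s ∪ t) (by
          rw [← ht']; exact fun p hp => Finset.mem_union_right _ hp)]
        exact Finset.sum_le_sum_of_subset_of_nonneg Finset.subset_union_left
          fun p _ _ => htLoc_nonneg p h1

end FLTAgent.MW
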