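import Fermat.Agent.MW.Defs

/-!
# Evaluation at few places

A nonzero function in `L(L·O)` has at most `L` zeros (`Frame.eq_zero_of_card_lt`) and divides the
functions vanishing at all of its zeros (`Frame.exists_mul_eq_of_divisorOf`).  By Riemann-Roch few
places are separated by functions (`Frame.exists_separating`), so their evaluation vectors are
independent (`Frame.plucker_vec_ne_zero_of_le`, `Frame.wedge_vec_ne_zero_of_ne`).
-/

set_option autoImplicit false
set_option linter.unusedSectionVars false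

noncomputable section

open AlgebraicCurve

namespace FLTAgent.MW

variable {K F : Type*} [Field K] [Field F] [Algebra K F] [IsAlgClosed K] [FF.IsFF K F]

theorem evalAt_eq_zero_iff_ord_pos (P : Place K F) {f : F} (hf : f ∈ P.toValuationSubring)
    (h0 : f ≠ 0) : evalAt P f = 0 ↔ 0 < P.ord f := by
  rw [evalAt_eq_iff P hf, map_zero, sub_zero]
  exact ⟨fun h => h.resolve_left h0, Or.inr⟩

variable (T : Frame K F)

/-- A nonzero function with poles at `O` only dominates the places where it vanishes. -/
theorem Frame.sum_single_le {L : ℕ} {ι : Type*} [Fintype ι] {P : ι → Place K F}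
    (hP : Function.Injective P) (hO : ∀ i, P i ≠ T.O) {f : F} (hf : f ∈ T.V L) (h0 : f ≠ 0)
    (h : ∀ i, evalAt (P i) f = 0) :
    (∑ i, Finsupp.single (P i) (1 : ℤ)) ≤
      (FF.divisorOf f : Divisor K F) + Finsupp.single T.O (L : ℤ) := by
  classical
  refine Finsupp.le_def.mpr fun Q => ?_
  rw [Finsupp.add_apply, FF.divisorOf_apply, Finsupp.finsetSum_apply]
  by_cases hQ : ∃ i, P i = Q
  · obtain ⟨i, rfl⟩ := hQ
    rw [Finset.sum_eq_single i (fun j _ hj => Finsupp.single_eq_of_ne (hP.ne hj).symm) (by simp),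
      Finsupp.single_eq_same, Finsupp.single_eq_of_ne (hO i), add_zero]
    exact (evalAt_eq_zero_iff_ord_pos _ (T.V_le_reg L hf _ (hO i)) h0).mp (h i)
  · rw [Finset.sum_eq_zero fun i _ => Finsupp.single_eq_of_ne fun e => hQ ⟨i, e.symm⟩]
    have := FF.ord_of_mem_riemannRochSpace hf h0 Q
    omega

/-- A function with few poles vanishing at many places is zero. -/
theorem Frame.eq_zero_of_card_lt (L : ℕ) {ι : Type*} [Fintype ι] (P : ι → Place K F)
    (hP : Function.Injective P) (hO : ∀ i, P i ≠ T.O) (hcard : L < Fintype.card ι) {f : F}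
    (hf : f ∈ T.V L) (h : ∀ i, evalAt (P i) f = 0) : f = 0 := by
  by_contra h0
  have h1 := FF.degree_mono (T.sum_single_le hP hO hf h0 h)
  rw [map_add, FF.degree_divisorOf, zero_add, map_sum] at h1
  simp [Divisor.degree_single, FF.deg_eq_one] at h1
  omega

/-- A function vanishing at all the zeros of another one is a multiple of it. -/
theorem Frame.exists_mul_eq_of_divisorOf {e L' : ℕ} {Z : Fin e → Place K F}
    (hZ : Function.Injective Z) (hO : ∀ i, Z i ≠ T.O) {f : F} (hf : f ≠ 0)
    (hdiv : FF.divisorOf f = ∑ i, Finsupp.single (Z i) 1 - Finsupp.single T.O (e : ℤ)) {s : F}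
    (hs : s ∈ T.V (e + L')) (hs0 : ∀ i, evalAt (Z i) s = 0) :
    ∃ h ∈ T.V L', s = f * h := by
  rcases eq_or_ne s 0 with rfl | hne
  · exact ⟨0, zero_mem _, (mul_zero f).symm⟩
  refine ⟨s * f⁻¹, FF.mem_riemannRochSpace_of_ord fun Q => ?_, by field_simp⟩
  have h1 := Finsupp.le_def.mp (T.sum_single_le hZ hO hs hne hs0) Q
  have h2 := DFunLike.congr_fun hdiv Q
  rw [Finsupp.sub_apply, FF.divisorOf_apply] at h2
  rw [Finsupp.add_apply, FF.divisorOf_apply, Nat.cast_add, Finsupp.single_add,
    Finsupp.add_apply] at h1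
  rw [Q.ord_mul hne (inv_ne_zero hf), Q.ord_inv]
  omega

/-- Functions separating few places. -/
theorem Frame.exists_separating {L e : ℕ} (he : e + 2 * genusFF K F ≤ L) {E : Fin e → Place K F}
    (hE : Function.Injective E) (hO : ∀ i, E i ≠ T.O) (i : Fin e) :
    ∃ t : T.V L, evalAt (E i) (t : F) = 1 ∧ ∀ j, j ≠ i → evalAt (E j) (t : F) = 0 := by
  classical
  set D : Divisor K F := Finsupp.single T.O (L : ℤ) - ∑ j, Finsupp.single (E j) 1 with hD
  set D' : Divisor K F := D + Finsupp.single (E i) 1 with hD'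
  have hdeg : Divisor.degree D = (L : ℤ) - e := by
    rw [hD, map_sub, map_sum]
    simp [Divisor.degree_single, FF.deg_eq_one]
  have h1 := FF.ell_eq_of_large (D := D) (by omega)
  have h2 := FF.ell_eq_of_large (D := D') (by
    rw [hD', map_add, FF.degree_single_one]; omega)
  rw [hD', map_add, FF.degree_single_one] at h2
  have hnle : ¬ riemannRochSpace D' ≤ riemannRochSpace D := fun hle => by
    have := Submodule.finrank_mono hle
    change FF.ell D' ≤ FF.ell D at this
    rw [← hD'] at h2
    omega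
  obtain ⟨f, hf, hfD⟩ := SetLike.not_le_iff_exists.mp hnle
  have hf0 : f ≠ 0 := fun h => hfD (h ▸ zero_mem _)
  have hsum : ∀ j, (∑ l, Finsupp.single (E l) (1 : ℤ) : Divisor K F) (E j) = 1 := fun j => by
    rw [Finsupp.finsetSum_apply, Finset.sum_eq_single j
      (fun l _ hl => Finsupp.single_eq_of_ne (hE.ne hl).symm) (by simp), Finsupp.single_eq_same]
  have hord := FF.ord_of_mem_riemannRochSpace hf hf0
  have hnn : ∀ Q, 0 ≤ (∑ l, Finsupp.single (E l) (1 : ℤ) : Divisor K F) Q := fun Q => by
    rw [Finsupp.finsetSum_apply]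
    exact Finset.sum_nonneg fun l _ => by rw [Finsupp.single_apply]; split_ifs <;> omega
  have hfV : f ∈ T.V L := FF.mem_riemannRochSpace_of_ord fun Q => by
    have h := hord Q
    rw [hD', hD, Finsupp.add_apply, Finsupp.sub_apply] at h
    rcases eq_or_ne (E i) Q with rfl | hQ
    · rw [hsum, Finsupp.single_eq_same] at h
      omega
    · have := hnn Q
      rw [Finsupp.single_eq_of_ne hQ.symm (b := (1 : ℤ))] at h
      omega
  have hreg := fun j => T.V_le_reg L hfV _ (hO j)
  have hi : evalAt (E i) f ≠ 0 := fun h0 => hfD (FF.mem_riemannRochSpace_of_ord fun Q => by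
    have h := hord Q
    rcases eq_or_ne (E i) Q with rfl | hQ
    · rw [hD, Finsupp.sub_apply, hsum, Finsupp.single_eq_of_ne (hO i)]
      have := (evalAt_eq_zero_iff_ord_pos _ (hreg i) hf0).mp h0
      omega
    · rw [hD', Finsupp.add_apply, Finsupp.single_eq_of_ne hQ.symm, add_zero] at h
      exact h)
  refine ⟨(evalAt (E i) f)⁻¹ • ⟨f, hfV⟩, ?_, fun j hj => ?_⟩
  · show evalAt (E i) ((evalAt (E i) f)⁻¹ • f) = 1
    rw [evalAt_smul _ _ (hreg i), smul_eq_mul, inv_mul_cancel₀ hi]
  · show evalAt (E j) ((evalAt (E i) f)⁻¹ • f) = 0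
    rw [evalAt_smul _ _ (hreg j), smul_eq_zero]
    refine Or.inr ((evalAt_eq_zero_iff_ord_pos _ (hreg j) hf0).mpr ?_)
    have h := hord (E j)
    rw [hD', hD, Finsupp.add_apply, Finsupp.sub_apply, hsum, Finsupp.single_eq_of_ne (hO j),
      Finsupp.single_eq_of_ne (hE.ne hj)] at h
    omega

/-- The evaluation vectors of few distinct places are independent. -/
theorem Frame.plucker_vec_ne_zero_of_le {L e : ℕ} (he : e + 2 * genusFF K F ≤ L)
    {E : Fin e → Place K F} (hE : Function.Injective E) (hO : ∀ i, E i ≠ T.O) :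
    plucker (fun i => T.vec L (E i)) ≠ 0 := by
  classical
  intro h0
  choose t ht1 ht0 using T.exists_separating he hE hO
  set col : Fin (T.dim L) → Fin e → K := fun a j => T.vec L (E j) a
  have hval : ∀ i j, evalAt (E j) (t i : F) =
      ∑ a, (T.basis L).repr (t i) a * T.vec L (E j) a := fun i j => by
    let Λ : T.V L →ₗ[K] K :=
      { toFun := fun s => evalAt (E j) (s : F)
        map_add' := fun s s' => evalAt_add _ (T.V_le_reg L s.2 _ (hO j)) (T.V_le_reg L s'.2 _ (hO j))
        map_smul' := fun c s => evalAt_smul _ c (T.V_le_reg L s.2 _ (hO j)) }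
    show Λ (t i) = _
    conv_lhs => rw [← (T.basis L).sum_repr (t i), map_sum]
    exact Finset.sum_congr rfl fun a _ => (map_smul Λ _ _).trans (smul_eq_mul ..)
  have hone : (Matrix.of fun i j => evalAt (E j) (t i : F)).det = 1 := by
    rw [show (Matrix.of fun i j => evalAt (E j) (t i : F)) = 1 from Matrix.ext fun i j => by
      rcases eq_or_ne i j with rfl | h
      · simp [ht1]
      · simp [Matrix.one_apply_ne h, ht0 i j h.symm]]
    exact Matrix.det_one
  refine one_ne_zero (α := K) (hone.symm.trans ?_)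
  rw [show (Matrix.of fun i j => evalAt (E j) (t i : F)) =
    fun i => ∑ a, (T.basis L).repr (t i) a • col a from funext fun i => funext fun j => by
      simp [hval, col, Finset.sum_apply]]
  show (Matrix.detRowAlternating : (Fin e → K) [⋀^Fin e]→ₗ[K] K).toMultilinearMap _ = 0
  rw [MultilinearMap.map_sum]
  refine Finset.sum_eq_zero fun J _ => ?_
  rw [MultilinearMap.map_smul_univ]
  refine smul_eq_zero_of_right _ ?_
  show Matrix.det (Matrix.of fun i => col (J i)) = 0
  rw [← Matrix.det_transpose]
  exact congrFun h0 J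

/-- Distinct places have independent evaluation vectors. -/
theorem Frame.wedge_vec_ne_zero_of_ne {P Q : Place K F} (hPQ : P ≠ Q) (hP : P ≠ T.O)
    (hQ : Q ≠ T.O) : wedge (T.vec T.m P) (T.vec T.m Q) ≠ 0 := by
  intro h0
  have hm := T.hm
  refine T.plucker_vec_ne_zero_of_le (L := T.m) (E := ![P, Q]) (by omega) ?_ ?_ ?_
  · intro i j hij
    fin_cases i <;> fin_cases j <;> simp_all
  · intro i
    fin_cases i <;> simp [hP, hQ]
  · funext J
    have h := congrFun h0 (J 0, J 1)
    simp only [wedge, Pi.zero_apply] at h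
    simp only [plucker, Pi.zero_apply, Matrix.det_fin_two, Matrix.of_apply]
    simpa [mul_comm] using h

end FLTAgent.MW
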