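import Fermat.Agent.MW.Defs
import Fermat.Agent.MW.ConfigEval
import Fermat.Agent.FF.Differentials
import Mathlib.Algebra.Module.Submodule.Union

/-!
# Representatives of divisor classes and evaluation at few places

`exists_simple`: every class is `∑ E i - m·O` for `m` distinct places avoiding a finite set (a
pencil without base points in the linear system of degree `m` has a reduced member avoiding it);
`exists_fun_of_cls_add_eq_zero` gives the function cutting out two opposite representatives.
`exists_mul_eq`, `wedge_vec_ne_zero`, `plucker_vec_ne_zero` restate the linear algebra of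
evaluations for a frame, and `exists_data` provides a frame with a pool of places.
-/

set_option autoImplicit false

noncomputable section

open AlgebraicCurve

namespace FLTAgent.MW

variable {K F : Type*} [Field K] [Field F] [Algebra K F] [IsAlgClosed K] [CharZero K]
  [FF.IsFF K F]

variable (T : Frame K F)

omit [CharZero K] in
theorem degree_sum_single {ι : Type*} (s : Finset ι) (E : ι → Place K F) :
    Divisor.degree (∑ i ∈ s, Finsupp.single (E i) (1 : ℤ)) = (s.card : ℤ) := by
  rw [map_sum, Finset.sum_congr rfl fun i _ => FF.degree_single_one (E i), Finset.sum_const,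
    nsmul_one]

/-- The divisor `∑ E i - n O`. -/
def Frame.pdiv {e : ℕ} (n : ℕ) (E : Fin e → Place K F) : Divisor K F :=
  ∑ i, Finsupp.single (E i) 1 - Finsupp.single T.O (n : ℤ)

omit [CharZero K] in
theorem Frame.pdiv_mem_degZero {e : ℕ} (E : Fin e → Place K F) :
    T.pdiv e E ∈ Divisor.degZero (K := K) (F := F) := by
  rw [Divisor.mem_degZero, Frame.pdiv, map_sub, degree_sum_single, Divisor.degree_single,
    FF.deg_eq_one]
  simp

/-- The class `∑ E i - e O`. -/
def Frame.cls {e : ℕ} (E : Fin e → Place K F) : Pic0 K F := Pic0.mk ⟨_, T.pdiv_mem_degZero E⟩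

omit [CharZero K] in
theorem Frame.cls_append {e e' : ℕ} (E : Fin e → Place K F) (E' : Fin e' → Place K F) :
    T.cls (Fin.append E E') = T.cls E + T.cls E' := by
  rw [Frame.cls, Frame.cls, Frame.cls, ← Pic0.mk_add]
  congr 1
  apply Subtype.ext
  simp only [AddSubgroup.coe_add, Frame.pdiv, Fin.sum_univ_add, Fin.append_left,
    Fin.append_right, Nat.cast_add, Finsupp.single_add]
  abel

/-- Every class has a representative by `m` distinct places avoiding a finite set. -/
theorem exists_simple (x : Pic0 K F) (S : Finset (Place K F)) :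
    ∃ E : Fin T.m → Place K F, Function.Injective E ∧ (∀ i, E i ∉ S ∧ E i ≠ T.O) ∧
      T.cls E = x := by
  classical
  obtain ⟨⟨D0, hD0⟩, rfl⟩ := Pic0.mk_surjective x
  rw [Divisor.mem_degZero] at hD0
  set D : Divisor K F := D0 + Finsupp.single T.O (T.m : ℤ) with hDdef
  have hD : Divisor.degree D = (T.m : ℤ) := by
    rw [hDdef, map_add, hD0, Divisor.degree_single, FF.deg_eq_one]; simp
  have hm := T.hm
  have hdrop : ∀ P : Place K F, FF.ell (D - Finsupp.single P 1) + 1 = FF.ell D := fun P => by
    have hd : Divisor.degree (D - Finsupp.single P 1) = (T.m : ℤ) - 1 := by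
      rw [map_sub, hD, FF.degree_single_one]
    have h1 := FF.ell_eq_of_large (D := D) (by omega)
    have h2 := FF.ell_eq_of_large (D := D - Finsupp.single P 1) (by omega)
    omega
  have hpos : 0 < FF.ell D := by have := hdrop T.O; omega
  obtain ⟨f0, hf0, hf00⟩ := FF.exists_ne_zero_of_ell_pos hpos
  obtain ⟨E0, hE0, -, hE0v⟩ := FF.exists_effective_equiv hf0 hf00
  obtain ⟨u, hu⟩ := Submodule.exists_forall_notMem_of_forall_ne_top
    (fun P : (insert T.O E0.support : Finset (Place K F)) =>
      (riemannRochSpace (D - Finsupp.single (P : Place K F) 1)).comap (riemannRochSpace D).subtype)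
    (fun P htop => by
      have hle : riemannRochSpace D ≤ riemannRochSpace (D - Finsupp.single (P : Place K F) 1) := by
        intro f hf
        have : (⟨f, hf⟩ : riemannRochSpace D) ∈ (⊤ : Submodule K (riemannRochSpace D)) :=
          Submodule.mem_top
        rw [← htop] at this
        exact this
      have hfe : riemannRochSpace (D - Finsupp.single (P : Place K F) 1) = riemannRochSpace D :=
        le_antisymm (FF.riemannRochSpace_mono (sub_le_self D (Finsupp.single_nonneg.2 zero_le_one)))
          hle
      have h := hdrop (P : Place K F)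
      have : FF.ell (D - Finsupp.single (P : Place K F) 1) = FF.ell D :=
        congrArg (fun V : Submodule K F => Module.finrank K V) hfe
      omega)
  set f1 : F := (u : F) with hf1def
  have hu' : ∀ P ∈ insert T.O E0.support,
      f1 ∉ riemannRochSpace (D - Finsupp.single P 1) := fun P hP => hu ⟨P, hP⟩
  have hf10 : f1 ≠ 0 := fun h => hu' T.O (Finset.mem_insert_self _ _) (h ▸ Submodule.zero_mem _)
  obtain ⟨E1, hE1, -, hE1v⟩ :=
    FF.exists_effective_equiv (show f1 ∈ riemannRochSpace D from u.2) hf10
  have hE1nn : ∀ P, 0 ≤ E1 P := fun P => Finsupp.le_def.mp hE1 P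
  have hE0nn : ∀ P, 0 ≤ E0 P := fun P => Finsupp.le_def.mp hE0 P
  have hdisj : ∀ P, 0 < E1 P → E0 P = 0 := fun P hP => by
    by_contra h
    refine hu' P (Finset.mem_insert_of_mem (Finsupp.mem_support_iff.mpr h))
      (FF.mem_riemannRochSpace_of_ord fun v => ?_)
    have := hE1v v
    have := hE1nn v
    rw [Finsupp.sub_apply]
    rcases eq_or_ne v P with rfl | hv
    · rw [Finsupp.single_eq_same]; omega
    · rw [Finsupp.single_eq_of_ne hv]; omega
  set φ : F := f0 / f1 with hφdef
  have hφ0 : φ ≠ 0 := div_ne_zero hf00 hf10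
  have hφord : ∀ P : Place K F, P.ord φ = E0 P - E1 P := fun P => by
    rw [hφdef, FF.ord_div P hf00 hf10, hE0v P, hE1v P]; ring
  have hE1deg : Divisor.degree E1 = (T.m : ℤ) := by
    have h : Divisor.degree (E1 - D) = 0 := FF.degree_eq_of_isPrincipal
      ⟨f1, hf10, fun v => by rw [Finsupp.sub_apply, hE1v v]; ring⟩
    rw [map_sub, hD] at h
    omega
  obtain ⟨P1, hP1⟩ : ∃ P, 0 < E1 P := by
    by_contra h
    push Not at h
    have : E1 = 0 := Finsupp.ext fun v => le_antisymm (h v) (hE1nn v)
    rw [this, map_zero] at hE1deg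
    omega
  have htr : Transcendental K φ := FF.transcendental_of_ord_ne_zero P1 (by
    rw [hφord, hdisj P1 hP1]; omega)
  have hsep : FF.IsSep K φ :=
    ⟨htr, FF.finiteDimensional_adjoin_of_transcendental htr, FF.isSeparable_adjoin_of_charZero htr⟩
  set W := (FF.finite_ordDifferential_D_ne_zero hsep).toFinset with hW
  obtain ⟨lam, hlam⟩ := Infinite.exists_notMem_finset
    ((S ∪ insert T.O W).image fun P => evalAt P φ)
  set f : F := f0 - algebraMap K F lam * f1 with hfdef
  have hφne : φ - algebraMap K F lam ≠ 0 := fun h =>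
    htr ((sub_eq_zero.mp h).symm ▸ isAlgebraic_algebraMap lam)
  have hfmul : f = (φ - algebraMap K F lam) * f1 := by
    rw [hfdef, hφdef, sub_mul, div_mul_cancel₀ _ hf10]
  have hfne : f ≠ 0 := hfmul ▸ mul_ne_zero hφne hf10
  have hfmem : f ∈ riemannRochSpace D := by
    rw [hfdef, ← Algebra.smul_def]
    exact sub_mem hf0 (Submodule.smul_mem _ _ u.2)
  obtain ⟨Eg, hEg, hEgP, hEgv⟩ := FF.exists_effective_equiv hfmem hfne
  have hgood : ∀ P, Eg P ≠ 0 → Eg P = 1 ∧ P ∉ S ∧ P ≠ T.O := by
    intro P hP
    have hnn := Finsupp.le_def.mp hEg P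
    have hv : Eg P = E1 P + P.ord (φ - algebraMap K F lam) := by
      rw [hEgv P, hfmul, P.ord_mul hφne hf10, hE1v P]; ring
    rcases (hE1nn P).lt_or_eq with h1 | h1
    · have hneg : P.ord φ < 0 := by rw [hφord, hdisj P h1]; omega
      have : P.ord (φ - algebraMap K F lam) = P.ord φ := by
        rw [sub_eq_add_neg]
        refine (FF.ord_add_of_lt P hφ0 (Or.inr ?_)).2
        rw [FF.ord_neg, FF.ord_algebraMap]; exact hneg
      rw [this, hφord, hdisj P h1] at hv
      omega
    · simp only [Finsupp.coe_zero, Pi.zero_apply] at hnn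
      have hpos' : 0 < P.ord (φ - algebraMap K F lam) := by omega
      have hmem : φ ∈ P.toValuationSubring := (FF.mem_iff_ord_nonneg P hφ0).mpr (by
        rw [hφord, ← h1]; have := hE0nn P; omega)
      have hev : evalAt P φ = lam := (evalAt_eq_iff P hmem lam).mpr (Or.inr hpos')
      have hnot : P ∉ S ∪ insert T.O W := fun h =>
        hlam (Finset.mem_image.mpr ⟨P, h, hev⟩)
      simp only [Finset.mem_union, Finset.mem_insert, not_or, hW, Set.Finite.mem_toFinset,
        Set.mem_ofPred_eq, not_not] at hnot
      have hd := (FF.ordDifferential_D_of_ord_sub_cast_ne_zero P (f := φ) (c := lam)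
        (by exact_mod_cast hpos'.ne')).2
      rw [hnot.2.2] at hd
      exact ⟨by omega, hnot.1, hnot.2.1⟩
  have hEsum : Eg = ∑ P ∈ Eg.support, Finsupp.single P (1 : ℤ) := by
    conv_lhs => rw [← Finsupp.sum_single Eg]
    exact Finset.sum_congr rfl fun P hP => by
      rw [(hgood P (Finsupp.mem_support_iff.mp hP)).1]
  have hcard : Eg.support.card = T.m := by
    have h := FF.degree_eq_of_isPrincipal hEgP
    rw [map_sub, hD, hEsum, degree_sum_single] at h
    omega
  let e : Fin T.m ≃ Eg.support := (Eg.support.equivFinOfCardEq hcard).symm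
  refine ⟨fun i => (e i : Place K F), fun i j h => e.injective (Subtype.ext h),
    fun i => (hgood _ (Finsupp.mem_support_iff.mp (e i).2)).2, ?_⟩
  refine QuotientAddGroup.eq_iff_sub_mem.mpr ?_
  rw [AddSubgroup.mem_addSubgroupOf, Divisor.mem_principal]
  show Divisor.IsPrincipal (T.pdiv T.m (fun i => (e i : Place K F)) - D0)
  have hs : ∑ i, Finsupp.single (e i : Place K F) (1 : ℤ) = Eg := by
    rw [e.sum_comp (fun P : Eg.support => Finsupp.single (P : Place K F) (1 : ℤ)),
      Finset.sum_coe_sort Eg.support (fun P => Finsupp.single P (1 : ℤ)), ← hEsum]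
  rw [Frame.pdiv, hs, show Eg - Finsupp.single T.O (T.m : ℤ) - D0 = Eg - D by rw [hDdef]; abel]
  exact hEgP

omit [CharZero K] in
/-- Places with opposite classes are the zeros of a function. -/
theorem exists_fun_of_cls_add_eq_zero {e : ℕ} (E : Fin e → Place K F) (h : T.cls E = 0) :
    ∃ f ∈ T.V e, f ≠ 0 ∧ FF.divisorOf f = T.pdiv e E := by
  obtain ⟨f, hf, hdiv⟩ : Divisor.IsPrincipal (T.pdiv e E) := by
    have h' := (QuotientAddGroup.eq_zero_iff _).mp h
    rwa [AddSubgroup.mem_addSubgroupOf, Divisor.mem_principal] at h'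
  refine ⟨f, FF.mem_riemannRochSpace_of_ord fun v => ?_, hf,
    Finsupp.ext fun v => by rw [FF.divisorOf_apply, hdiv v]⟩
  have hv := hdiv v
  rw [Frame.pdiv, Finsupp.sub_apply, Finset.sum_apply'] at hv
  have : 0 ≤ ∑ i, (Finsupp.single (E i) (1 : ℤ)) v := Finset.sum_nonneg fun i _ =>
    Finsupp.le_def.mp (Finsupp.single_nonneg.2 zero_le_one) v
  omega

omit [CharZero K] in
/-- A regular function vanishes at a place iff it has positive order there. -/
theorem evalAt_eq_zero_iff (P : Place K F) {f : F} (hf : f ∈ P.toValuationSubring) (h0 : f ≠ 0) :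
    evalAt P f = 0 ↔ 0 < P.ord f := by
  exact evalAt_eq_zero_iff_ord_pos P hf h0

omit [CharZero K] in
/-- A function with few poles vanishing at many places is zero. -/
theorem eq_zero_of_evalAt_eq_zero (L : ℕ) {ι : Type*} [Fintype ι] (P : ι → Place K F)
    (hP : Function.Injective P) (hO : ∀ i, P i ≠ T.O) (hcard : L < Fintype.card ι) {f : F}
    (hf : f ∈ T.V L) (h : ∀ i, evalAt (P i) f = 0) : f = 0 := by
  exact T.eq_zero_of_card_lt L P hP hO hcard hf h

omit [CharZero K] in
/-- A function vanishing at all the zeros of another one is a multiple of it. -/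
theorem exists_mul_eq {e L' : ℕ} {Z : Fin e → Place K F} (hZ : Function.Injective Z)
    (hO : ∀ i, Z i ≠ T.O) {f : F} (hf : f ≠ 0) (hdiv : FF.divisorOf f = T.pdiv e Z) {s : F}
    (hs : s ∈ T.V (e + L')) (hs0 : ∀ i, evalAt (Z i) s = 0) :
    ∃ h ∈ T.V L', s = f * h := by
  exact T.exists_mul_eq_of_divisorOf hZ hO hf hdiv hs hs0

omit [CharZero K] in
/-- Distinct places have independent evaluation vectors. -/
theorem wedge_vec_ne_zero {P Q : Place K F} (hPQ : P ≠ Q) (hP : P ≠ T.O) (hQ : Q ≠ T.O) :
    wedge (T.vec T.m P) (T.vec T.m Q) ≠ 0 := by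
  exact T.wedge_vec_ne_zero_of_ne hPQ hP hQ

omit [CharZero K] in
/-- The evaluation vectors of few distinct places are independent. -/
theorem plucker_vec_ne_zero {L e : ℕ} (he : e + 2 * genusFF K F ≤ L) {E : Fin e → Place K F}
    (hE : Function.Injective E) (hO : ∀ i, E i ≠ T.O) :
    plucker (fun i => T.vec L (E i)) ≠ 0 := by
  exact T.plucker_vec_ne_zero_of_le he hE hO

omit [CharZero K] in
/-- A frame and pool exist. -/
theorem exists_data (O : Place K F) (S : Finset (Place K F)) :
    ∃ T : Data K F, T.O = O ∧ ∀ i, T.pool i ∉ S := by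
  classical
  have := FF.infinite_places (K := K) (F := F)
  have hinf : ((↑(insert O S) : Set (Place K F))ᶜ).Infinite :=
    (Finset.finite_toSet _).infinite_compl
  let emb := hinf.natEmbedding
  refine ⟨{ O := O, m := 2 * genusFF K F + 2, hm := le_rfl, pool := fun i => (emb i : Place K F),
            pool_injective := fun i j h => Fin.val_injective (emb.injective (Subtype.ext h)),
            pool_ne := fun i h => (emb i).2 (by simp [h]) }, rfl, fun i hi => (emb i).2 ?_⟩
  exact Finset.mem_coe.mpr (Finset.mem_insert_of_mem hi)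

end FLTAgent.MW
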