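import Fermat.Agent.FF.RiemannRoch
import Mathlib.LinearAlgebra.Matrix.Determinant.Basic

/-!
# Frames and evaluation vectors

For a function field `F/K` a frame is a base place `O` and a degree `m ≥ 2g + 2`.  `Frame.V L` is
`L(L·O)` with basis `Frame.basis`; `Frame.vec` / `Frame.pvec` are its values at a place, resp. at a
point of the ring `Frame.reg` of functions regular away from `O`.  We also define Plücker vectors
(`plucker`, `detAppend`, `wedge`), the size `nrm` of a vector for a valuation, and for a frame with
a pool of places (`Data`) the coordinates `Data.phi` of a class.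
-/

set_option autoImplicit false

noncomputable section

open AlgebraicCurve

namespace FLTAgent.MW

variable {K F : Type*} [Field K] [Field F] [Algebra K F] [IsAlgClosed K] [FF.IsFF K F]

/-- The value of a function at a place (`0` at a pole). -/
def evalAt (P : Place K F) (f : F) : K :=
  open scoped Classical in
  if h : f ∈ P.toValuationSubring then
    (if hc : ∃ c : K, f = algebraMap K F c then hc.choose
      else ((FF.exists_residue P h).choose))
  else 0

theorem evalAt_spec (P : Place K F) {f : F} (h : f ∈ P.toValuationSubring) :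
    f = algebraMap K F (evalAt P f) ∨ 0 < P.ord (f - algebraMap K F (evalAt P f)) := by
  rw [evalAt, dif_pos h]
  split_ifs with hc
  · exact Or.inl hc.choose_spec
  · exact (FF.exists_residue P h).choose_spec

theorem eq_of_ord_sub_pos (P : Place K F) {f : F} {c d : K}
    (hc : f = algebraMap K F c ∨ 0 < P.ord (f - algebraMap K F c))
    (hd : f = algebraMap K F d ∨ 0 < P.ord (f - algebraMap K F d)) : c = d := by
  by_contra hne
  have key : ∀ z : F, (z = 0 ∨ 0 < P.ord z) → P.adicValuation z < 1 := fun z hz => by
    rcases hz with rfl | hz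
    · simp
    · have hz0 : z ≠ 0 := fun h => by simp [h] at hz
      rw [FF.val_eq_exp P hz0, ← WithZero.exp_zero]
      exact WithZero.exp_lt_exp.mpr (by omega)
  have h1 := key (f - algebraMap K F c) (hc.imp_left fun h => by rw [← h, sub_self])
  have h2 := key (f - algebraMap K F d) (hd.imp_left fun h => by rw [← h, sub_self])
  have h3 : P.adicValuation (algebraMap K F (d - c)) < 1 := by
    rw [map_sub, show algebraMap K F d - algebraMap K F c =
      (f - algebraMap K F c) - (f - algebraMap K F d) by ring]
    exact lt_of_le_of_lt (Valuation.map_sub _ _ _) (max_lt h1 h2)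
  have hne' : algebraMap K F (d - c) ≠ 0 := by simpa [sub_eq_zero] using Ne.symm hne
  rw [FF.val_eq_exp P hne', FF.ord_algebraMap] at h3
  simp at h3

theorem evalAt_eq_iff (P : Place K F) {f : F} (h : f ∈ P.toValuationSubring) (c : K) :
    evalAt P f = c ↔ (f = algebraMap K F c ∨ 0 < P.ord (f - algebraMap K F c)) :=
  ⟨fun hc => hc ▸ evalAt_spec P h, fun hc => eq_of_ord_sub_pos P (evalAt_spec P h) hc⟩

theorem evalAt_algebraMap (P : Place K F) (c : K) : evalAt P (algebraMap K F c) = c :=
  (evalAt_eq_iff P (P.algebraMap_mem' c) c).mpr (Or.inl rfl)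

theorem evalAt_algebraMap_one (P : Place K F) : evalAt P (1 : F) = (1 : K) := by
  simpa using evalAt_algebraMap (F := F) P (1 : K)

theorem evalAt_zero (P : Place K F) : evalAt P (0 : F) = (0 : K) := by
  simpa using evalAt_algebraMap (F := F) P (0 : K)

theorem val_sub_evalAt_lt (P : Place K F) {f : F} (h : f ∈ P.toValuationSubring) :
    P.adicValuation (f - algebraMap K F (evalAt P f)) < 1 := by
  rcases evalAt_spec P h with h1 | h1
  · rw [← h1, sub_self, map_zero]; exact zero_lt_one
  · have hz0 : f - algebraMap K F (evalAt P f) ≠ 0 := fun hz => by simp [hz] at h1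
    rw [FF.val_eq_exp P hz0, ← WithZero.exp_zero]
    exact WithZero.exp_lt_exp.mpr (by omega)

theorem evalAt_of_val_lt (P : Place K F) {f : F} (h : f ∈ P.toValuationSubring) {c : K}
    (hlt : P.adicValuation (f - algebraMap K F c) < 1) : evalAt P f = c := by
  refine (evalAt_eq_iff P h c).mpr ?_
  rcases eq_or_ne (f - algebraMap K F c) 0 with h0 | h0
  · exact Or.inl (sub_eq_zero.mp h0)
  · rw [FF.val_eq_exp P h0, ← WithZero.exp_zero, WithZero.exp_lt_exp] at hlt
    exact Or.inr (by omega)

theorem evalAt_add (P : Place K F) {f g : F} (hf : f ∈ P.toValuationSubring)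
    (hg : g ∈ P.toValuationSubring) : evalAt P (f + g) = evalAt P f + evalAt P g := by
  refine evalAt_of_val_lt P (add_mem hf hg) ?_
  rw [map_add, show f + g - (algebraMap K F (evalAt P f) + algebraMap K F (evalAt P g)) =
    (f - algebraMap K F (evalAt P f)) + (g - algebraMap K F (evalAt P g)) by ring]
  exact lt_of_le_of_lt (Valuation.map_add _ _ _)
    (max_lt (val_sub_evalAt_lt P hf) (val_sub_evalAt_lt P hg))

theorem evalAt_mul (P : Place K F) {f g : F} (hf : f ∈ P.toValuationSubring)
    (hg : g ∈ P.toValuationSubring) : evalAt P (f * g) = evalAt P f * evalAt P g := by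
  refine evalAt_of_val_lt P (mul_mem hf hg) ?_
  rw [map_mul, show f * g - algebraMap K F (evalAt P f) * algebraMap K F (evalAt P g) =
    (f - algebraMap K F (evalAt P f)) * g +
      algebraMap K F (evalAt P f) * (g - algebraMap K F (evalAt P g)) by ring]
  refine lt_of_le_of_lt (Valuation.map_add _ _ _) (max_lt ?_ ?_) <;> rw [map_mul]
  · exact lt_of_le_of_lt (mul_le_of_le_one_right' ((FF.mem_iff_val_le_one P g).mp hg))
      (val_sub_evalAt_lt P hf)
  · exact lt_of_le_of_lt (mul_le_of_le_one_left'
      ((FF.mem_iff_val_le_one P _).mp (P.algebraMap_mem' _))) (val_sub_evalAt_lt P hg)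

theorem evalAt_smul (P : Place K F) (c : K) {f : F} (hf : f ∈ P.toValuationSubring) :
    evalAt P (c • f) = c • evalAt P f := by
  rw [Algebra.smul_def, evalAt_mul P (P.algebraMap_mem' c) hf, evalAt_algebraMap, smul_eq_mul]

variable (K F) in
/-- A base place together with a degree large compared with the genus. -/
structure Frame where
  O : Place K F
  m : ℕ
  hm : 2 * genusFF K F + 2 ≤ m

namespace Frame

variable (T : Frame K F)

/-- The functions with at most an `L`-fold pole at `O` and no other. -/
abbrev V (L : ℕ) : Submodule K F := riemannRochSpace (Finsupp.single T.O (L : ℤ))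

/-- Its dimension. -/
abbrev dim (L : ℕ) : ℕ := Module.finrank K (T.V L)

/-- The chosen basis. -/
def basis (L : ℕ) : Module.Basis (Fin (T.dim L)) K (T.V L) := Module.finBasis K (T.V L)

/-- The functions regular away from `O`. -/
def reg : Subalgebra K F where
  carrier := {f | ∀ P : Place K F, P ≠ T.O → f ∈ P.toValuationSubring}
  mul_mem' := fun ha hb P hP => mul_mem (ha P hP) (hb P hP)
  add_mem' := fun ha hb P hP => add_mem (ha P hP) (hb P hP)
  algebraMap_mem' := fun a P _ => P.algebraMap_mem' a

theorem V_le_reg (L : ℕ) {f : F} (hf : f ∈ T.V L) : f ∈ T.reg := fun P hP => by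
  rcases eq_or_ne f 0 with rfl | h0
  · exact zero_mem _
  rw [FF.mem_iff_ord_nonneg P h0]
  have h := FF.ord_of_mem_riemannRochSpace hf h0 P
  rwa [Finsupp.single_eq_of_ne hP, neg_zero] at h

/-- The evaluation vector of level `L` at a place. -/
def vec (L : ℕ) (P : Place K F) : Fin (T.dim L) → K :=
  fun a => evalAt P (T.basis L a : F)

/-- Evaluation at a place other than `O` as a point. -/
def evHom (P : Place K F) (hP : P ≠ T.O) : T.reg →ₐ[K] K :=
  (AlgHom.mk'
    { toFun := fun f => evalAt P (f : F)
      map_one' := evalAt_algebraMap_one P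
      map_mul' := fun f g => evalAt_mul P (f.2 P hP) (g.2 P hP)
      map_zero' := evalAt_zero P
      map_add' := fun f g => evalAt_add P (f.2 P hP) (g.2 P hP) }
    fun c f => evalAt_smul P c (f.2 P hP))

variable {A : Type*} [CommRing A] [Algebra K A]

/-- The evaluation vector of level `L` at a point with values in `A`. -/
def pvec (L : ℕ) (φ : T.reg →ₐ[K] A) : Fin (T.dim L) → A :=
  fun a => φ ⟨(T.basis L a : F), T.V_le_reg L (T.basis L a).2⟩

end Frame

/-- The Plücker coordinates (all ordered column choices) of a family of vectors. -/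
def plucker {A : Type*} [CommRing A] {n e : ℕ} (w : Fin e → Fin n → A) :
    (Fin e → Fin n) → A :=
  fun J => (Matrix.of fun i j => w i (J j)).det

/-- The determinant of `k` vectors followed by `e` vectors. -/
def detAppend {A : Type*} [CommRing A] {n k e : ℕ} (h : k + e = n) (u : Fin k → Fin n → A)
    (w : Fin e → Fin n → A) : A :=
  (Matrix.of fun i => Fin.append u w (Fin.cast h.symm i)).det

/-- The wedge of two vectors, in all ordered coordinates. -/
def wedge {A : Type*} [CommRing A] {n : ℕ} (u w : Fin n → A) : Fin n × Fin n → A :=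
  fun ab => u ab.1 * w ab.2 - u ab.2 * w ab.1

/-- The largest value of a coordinate. -/
def nrm {Ω : Type*} [Field Ω] (V : ValuationSubring Ω) {ι : Type*} [Fintype ι] (w : ι → Ω) :
    V.ValueGroup :=
  Finset.univ.sup fun i => V.valuation (w i)

variable {K F : Type*} [Field K] [Field F] [Algebra K F] [IsAlgClosed K] [FF.IsFF K F]

variable (K F) in
/-- A frame with a large pool of places away from `O`. -/
structure Data extends Frame K F where
  pool : Fin (4 * (4 * m * m) + 1) → Place K F
  pool_injective : Function.Injective pool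
  pool_ne : ∀ i, pool i ≠ O

namespace Data

variable (T : Data K F)

/-- The working level `4 m²`. -/
abbrev M : ℕ := 4 * T.m * T.m

/-- The size of the pool. -/
abbrev npool : ℕ := 4 * (4 * T.m * T.m) + 1

/-- The coordinates of a class: products of two determinants divided by values of a function. -/
def phi {k e : ℕ} (h : k + e = T.toFrame.dim T.M) (E E' : Fin e → Place K F) (f : F) :
    (Fin k → Fin T.npool) → K :=
  fun I => detAppend h (fun i => T.toFrame.vec T.M (T.pool (I i)))
      (fun i => T.toFrame.vec T.M (E i)) *
    detAppend h (fun i => T.toFrame.vec T.M (T.pool (I i))) (fun i => T.toFrame.vec T.M (E' i)) /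
    ∏ i, evalAt (T.pool (I i)) f

end Data

end FLTAgent.MW
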