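import Fermat.Agent.TW.Idele.ClassField.KummerExt
import Fermat.Agent.TW.Idele.Units
import Fermat.Agent.EllP.Unramified

/-!
# Finiteness of the quadratic characters unramified outside a finite set

A character is given by a square root `β` of an element of `F`.  Outside `T` the place values of `β`
are powers of the residue characteristic, so form an idele of `F`; it is principal outside a larger
`T'`, and `β` is then a square root of a `T'`-unit times an element of `F`.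
-/

set_option autoImplicit false
set_option linter.style.haveILetI false

noncomputable section

namespace FLTAgent.MW

open FLTAgent.TW

local notation "ℚ̄" => AlgebraicClosure ℚ
local notation "Γ" => (AlgebraicClosure ℚ ≃ₐ[ℚ] AlgebraicClosure ℚ)

theorem zmod_two_eq (a b : Multiplicative (ZMod 2)) (h : a = 1 ↔ b = 1) : a = b := by
  revert a b; decide

theorem zpow_char_injective (A : Place) {m n : ℤ}
    (h : A.1.valuation ((A.char : ℚ̄) ^ m) = A.1.valuation ((A.char : ℚ̄) ^ n)) : m = n := by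
  rw [map_zpow₀, map_zpow₀] at h
  exact zpow_right_injective₀ (pos_of_ne_zero A.valuation_char_ne_zero)
    A.valuation_char_lt_one.ne h

variable (F : IntermediateField ℚ ℚ̄) [FiniteDimensional ℚ F] (T : Finset ℕ)

omit [FiniteDimensional ℚ F] in
/-- The valuations of a root fixed by inertia outside `T` form an idele. -/
theorem exists_sqrt_idele {β : ℚ̄ˣ} (hβ : (β : ℚ̄) ^ 2 ∈ F)
    (hin : ∀ A : Place, ¬ A.Over T → ∀ σ ∈ A.1.inertiaSubgroupIn ℚ, σ (β : ℚ̄) = β) :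
    ∃ φ ∈ ideles F, ∀ A : Place, ¬ A.Over T →
      A.1.valuation (φ.fin A : ℚ̄) = A.1.valuation (β : ℚ̄) := by
  classical
  have hn : ∀ A : Place, ∃ k : ℤ, ¬ A.Over T →
      A.1.valuation (β : ℚ̄) = A.1.valuation ((A.char : ℚ̄) ^ k) := by
    intro A
    by_cases hA : A.Over T
    · exact ⟨0, fun h => absurd hA h⟩
    · obtain ⟨k, hk⟩ :=
        EllP.exists_valuation_eq_zpow A.prime_char A.liesOver_char β.ne_zero (hin A hA)
      exact ⟨k, fun _ => by rw [hk, map_zpow₀]⟩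
  choose n hn using hn
  let m : Place → ℤ := fun A => if A.Over T then 0 else n A
  let φ : PreIdele :=
    ⟨fun A => Units.mk0 ((A.char : ℚ̄) ^ m A)
      (zpow_ne_zero _ (Nat.cast_ne_zero.mpr A.prime_char.ne_zero)), 1⟩
  have hval : ∀ A : Place, ¬ A.Over T →
      A.1.valuation (φ.fin A : ℚ̄) = A.1.valuation (β : ℚ̄) := fun A hA => by
    show A.1.valuation ((A.char : ℚ̄) ^ m A) = _
    rw [show m A = n A from if_neg hA, hn A hA]
  have hinv : ∀ σ ∈ F.fixingSubgroup, ∀ A : Place, m (σ • A) = m A := by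
    intro σ hσ A
    by_cases hA : A.Over T
    · simp [m, hA]
    have hA' : ¬ (σ • A).Over T := by rwa [Place.over_smul_iff]
    simp only [m, if_neg hA, if_neg hA']
    refine zpow_char_injective (σ • A) ?_
    rw [← hn (σ • A) hA', Place.char_smul]
    have h := (valuation_smul_eq_iff σ A).mpr (hn A hA)
    rw [map_zpow₀ σ, map_natCast] at h
    rw [← h]
    rcases sq_eq_sq_iff_eq_or_eq_neg.mp
      (show σ (β : ℚ̄) ^ 2 = (β : ℚ̄) ^ 2 by rw [← map_pow, apply_of_mem hβ hσ]) with e | e <;>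
      simp [e]
  obtain ⟨S, hS⟩ := exists_finset_unit β
  refine ⟨φ, ⟨fun σ hσ => PreIdele.ext (funext fun A => Units.ext ?_) rfl, fun ι => ?_,
    T ∪ S, fun A hA => ?_⟩, hval⟩
  · rw [PreIdele.coe_fin_smul]
    show σ (((σ⁻¹ • A).char : ℚ̄) ^ m (σ⁻¹ • A)) = (A.char : ℚ̄) ^ m A
    rw [map_zpow₀, map_natCast, Place.char_smul, hinv σ⁻¹ (inv_mem hσ)]
  · exact Units.ext (map_one (starRingEnd ℂ)).symm
  · rw [mem_unitGroup_iff, hval A fun h => hA (over_mono Finset.subset_union_left h)]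
    exact mem_unitGroup_iff.mp (hS A fun h => hA (over_mono Finset.subset_union_right h))

/-- Finitely many square roots give all the fields `F(β)` unramified outside `T`. -/
theorem exists_finset_sqrt :
    ∃ B : Finset ℚ̄, ∀ β : ℚ̄, β ^ 2 ∈ F →
      (∀ A : Place, ¬ A.Over T → ∀ σ ∈ A.1.inertiaSubgroupIn ℚ, σ β = β) →
      ∃ b ∈ B, ∀ σ ∈ F.fixingSubgroup, (σ β = β ↔ σ b = b) := by
  classical
  obtain ⟨T', hTT', -, hT'⟩ := exists_tPrincipal' F T
  haveI : Fact (Nat.Prime 2) := ⟨Nat.prime_two⟩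
  haveI := ((qInd_tUnits (T := T') (p := 2) (F := F)).1).coker
  set Q := tUnits T' F ⧸ (powMonoidHom 2 : tUnits T' F →* tUnits T' F).range
  haveI : Fintype Q := Fintype.ofFinite Q
  let root : Q → ℚ̄ := fun c =>
    (IsAlgClosed.exists_pow_nat_eq (((Quotient.out c : tUnits T' F) : ℚ̄ˣ) : ℚ̄) two_pos).choose
  have hroot : ∀ c : Q, root c ^ 2 = (((Quotient.out c : tUnits T' F) : ℚ̄ˣ) : ℚ̄) := fun c =>
    (IsAlgClosed.exists_pow_nat_eq (((Quotient.out c : tUnits T' F) : ℚ̄ˣ) : ℚ̄) two_pos).choose_spec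
  refine ⟨insert 0 (Finset.univ.image root), fun β hβ hin => ?_⟩
  rcases eq_or_ne β 0 with rfl | hβ0
  · exact ⟨0, Finset.mem_insert_self _ _, fun σ _ => Iff.rfl⟩
  obtain ⟨φ, hφ, hφval⟩ := exists_sqrt_idele F T (β := Units.mk0 β hβ0) hβ hin
  obtain ⟨x, hxF, hx⟩ := hT' F le_rfl φ hφ
  set u : ℚ̄ˣ := (Units.mk0 β hβ0 / x) ^ 2
  have hu : u ∈ tUnits T' F := by
    refine ⟨?_, fun A hA => ?_⟩
    · show (((Units.mk0 β hβ0 / x) ^ 2 : ℚ̄ˣ) : ℚ̄) ∈ F
      rw [Units.val_pow_eq_pow_val, Units.val_div_eq_div_val, Units.val_mk0, div_pow]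
      exact F.div_mem hβ (pow_mem hxF 2)
    · rw [mem_unitGroup_iff]
      have h := mem_unitGroup_iff.mp (hx A hA)
      rw [Units.val_mul, map_mul, hφval A fun h' => hA (over_mono hTT' h'), ← map_mul,
        ← Units.val_mul, ← div_eq_mul_inv] at h
      rw [Units.val_pow_eq_pow_val, map_pow, h, one_pow]
  set c : Q := QuotientGroup.mk ⟨u, hu⟩
  obtain ⟨w, hw⟩ : (Quotient.out c)⁻¹ * ⟨u, hu⟩ ∈
      (powMonoidHom 2 : tUnits T' F →* tUnits T' F).range :=
    QuotientGroup.eq.mp (QuotientGroup.out_eq' c)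
  refine ⟨root c, Finset.mem_insert_of_mem (Finset.mem_image_of_mem _ (Finset.mem_univ _)),
    fun σ hσ => ?_⟩
  have hsq : (β / (x : ℚ̄)) ^ 2 = (root c * ((w : ℚ̄ˣ) : ℚ̄)) ^ 2 := by
    have h := congrArg (fun z : tUnits T' F => ((z : ℚ̄ˣ) : ℚ̄)) (mul_eq_of_eq_inv_mul hw)
    simp only [powMonoidHom_apply, Subgroup.coe_mul, SubmonoidClass.coe_pow, Units.val_mul,
      Units.val_pow_eq_pow_val, u, Units.val_div_eq_div_val, Units.val_mk0] at h
    rw [mul_pow, hroot c, ← h]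
  set k : ℚ̄ := (x : ℚ̄) * ((w : ℚ̄ˣ) : ℚ̄)
  have hk0 : k ≠ 0 := mul_ne_zero x.ne_zero (w : ℚ̄ˣ).ne_zero
  have hkσ : σ k = k := apply_of_mem (F.mul_mem hxF w.2.1) hσ
  rcases sq_eq_sq_iff_eq_or_eq_neg.mp hsq with e | e
  · rw [show β = root c * k by rw [← div_mul_cancel₀ β x.ne_zero, e]; ring, map_mul, hkσ,
      mul_left_inj' hk0]
  · rw [show β = -(root c * k) by rw [← div_mul_cancel₀ β x.ne_zero, e]; ring, map_neg, map_mul,
      hkσ, neg_inj, mul_left_inj' hk0]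

/-- **Finiteness of the quadratic characters of `F` unramified outside `T`.** -/
theorem finite_characters
    (hT : ∀ A : Place, ¬ A.Over T → ∀ σ ∈ A.1.inertiaSubgroupIn ℚ, σ ∈ F.fixingSubgroup) :
    {c : F.fixingSubgroup →* Multiplicative (ZMod 2) |
      (∃ L : IntermediateField ℚ ℚ̄, FiniteDimensional ℚ L ∧
        ∀ σ : F.fixingSubgroup, (σ : Γ) ∈ L.fixingSubgroup → c σ = 1) ∧
      ∀ A : Place, ¬ A.Over T → ∀ σ : F.fixingSubgroup,
        (σ : Γ) ∈ A.1.inertiaSubgroupIn ℚ → c σ = 1}.Finite := by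
  classical
  obtain ⟨B, hB⟩ := exists_finset_sqrt F T
  haveI : Fact (Nat.Prime 2) := ⟨Nat.prime_two⟩
  haveI := GalCommon.isGalois_Qbar
  let P : ℚ̄ → Set (F.fixingSubgroup →* Multiplicative (ZMod 2)) := fun b =>
    {c | ∀ σ : F.fixingSubgroup, c σ = 1 ↔ (σ : Γ) b = b}
  have hP : ∀ b, (P b).Finite := fun b => Set.Subsingleton.finite fun c hc c' hc' =>
    MonoidHom.ext fun σ => zmod_two_eq _ _ ((hc σ).trans (hc' σ).symm)
  refine ((Set.finite_singleton 1).union (B.finite_toSet.biUnion fun b _ => hP b)).subset ?_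
  rintro c ⟨⟨L, hL, hLc⟩, hc⟩
  by_cases hc1 : c = 1
  · exact Or.inl hc1
  refine Or.inr ?_
  set U : Subgroup Γ := c.ker.map F.fixingSubgroup.subtype with hU
  have hUF : U ≤ F.fixingSubgroup := Subgroup.map_subtype_le _
  have hmem : ∀ σ : F.fixingSubgroup, (σ : Γ) ∈ U ↔ c σ = 1 := fun σ => by
    rw [hU, ← MonoidHom.mem_ker]
    exact ⟨fun ⟨τ, hτ, e⟩ => Subtype.ext e ▸ hτ, fun h => ⟨σ, h, rfl⟩⟩
  have hUopen : IsOpen (U : Set Γ) := Subgroup.isOpen_mono (H₁ := (F ⊔ L).fixingSubgroup)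
    (fun σ hσ => by
      have h1 := IntermediateField.fixingSubgroup_le (show F ≤ F ⊔ L from le_sup_left) hσ
      exact (hmem ⟨σ, h1⟩).mpr
        (hLc _ (IntermediateField.fixingSubgroup_le (show L ≤ F ⊔ L from le_sup_right) hσ)))
    (F ⊔ L).fixingSubgroup_isOpen
  set F' := IntermediateField.fixedField U
  have hF' : F'.fixingSubgroup = U :=
    InfiniteGalois.fixingSubgroup_fixedField ⟨U, U.isClosed_of_isOpen hUopen⟩
  have hsub : F'.fixingSubgroup.subgroupOf F.fixingSubgroup = c.ker := by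
    ext σ
    rw [Subgroup.mem_subgroupOf, hF', hmem, MonoidHom.mem_ker]
  have hFF' : F ≤ F' := fun z hz σ => apply_of_mem hz (hUF σ.2)
  have hdeg : F'.fixingSubgroup.relIndex F.fixingSubgroup = 2 := by
    rw [Subgroup.relIndex, hsub, Subgroup.index_ker]
    have h2 : Nat.card (Multiplicative (ZMod 2)) = 2 := by
      rw [Nat.card_congr Multiplicative.toAdd, Nat.card_zmod]
    refine ((Nat.dvd_prime Nat.prime_two).mp
      (by simpa only [h2] using Subgroup.card_subgroup_dvd_card c.range)).resolve_left fun h => hc1 ?_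
    have hr := Subgroup.eq_bot_of_card_eq _ h
    exact MonoidHom.ext fun σ => (Subgroup.mem_bot.mp (hr ▸ ⟨σ, rfl⟩ : c σ ∈ ⊥))
  have hμ : ContainsMuP 2 F := fun z hz => by
    rcases sq_eq_one_iff.mp hz with rfl | rfl
    · exact F.one_mem
    · exact F.neg_mem F.one_mem
  obtain ⟨β, hβ', hβF, hβ⟩ :=
    exists_kummer_generator hFF' hμ (hsub ▸ MonoidHom.normal_ker c) hdeg
  have hiff : ∀ σ : F.fixingSubgroup, c σ = 1 ↔ (σ : Γ) (β : ℚ̄) = β := fun σ => by
    refine ⟨fun h => apply_of_mem hβ' (hF' ▸ (hmem σ).mpr h), fun h => (hmem σ).mp ?_⟩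
    rw [← hF']
    exact mem_fixing_of_fixed hFF' hμ hdeg hβ' hβF hβ σ.2 h
  obtain ⟨b, hb, hbσ⟩ := hB β hβ fun A hA σ hσ =>
    (hiff ⟨σ, hT A hA σ hσ⟩).mp (hc A hA ⟨σ, hT A hA σ hσ⟩ hσ)
  exact Set.mem_biUnion (Finset.mem_coe.mpr hb)
    fun σ => (hiff σ).trans (hbσ σ σ.2)

end FLTAgent.MW
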