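import Fermat.Agent.MW.LocalBound

/-!
# Distance formulas at a valuation trivial on the constants

For points with values in such a valued field: `nrm_plucker` (a Plücker vector of evaluation
vectors has the size of the product of the mutual distances), `valuation_peval` (the value of a
function is its size times the distances to its zeros), `nrm_phi` (the size of the coordinates of
a class) and `nrm_peval_mul` (sizes on a pool multiply).  These are the local ingredients of the
height relations in `MW.Rel`.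
-/

set_option autoImplicit false
set_option linter.unusedSectionVars false

noncomputable section

open AlgebraicCurve

namespace FLTAgent.MW

variable {K F : Type*} [Field K] [Field F] [Algebra K F] [IsAlgClosed K] [CharZero K]
  [FF.IsFF K F] {Ω : Type*} [Field Ω] [Algebra K Ω] (T : Frame K F) (V : ValuationSubring Ω)

variable (hV : ∀ c : K, algebraMap K Ω c ∈ V)

include hV

open scoped Classical in
theorem val_peval_eq {n : ℕ} (j c : ℕ) (hn : n = j * T.m) (hj : 0 < j) (hjc : n ≤ c)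
    {ι : Type*} [Fintype ι] (pool : ι → Place K F) (hinj : Function.Injective pool)
    (hO : ∀ i, pool i ≠ T.O) (hcard : c * T.m < Fintype.card ι)
    (a : Fin (T.dim (j * T.m)) → Ω) (Z : Fin n → (T.reg →ₐ[K] Ω))
    (hZ : ∀ i i', i ≠ i' → wedge (T.pvec T.m (Z i)) (T.pvec T.m (Z i')) ≠ 0)
    (hZ0 : ∀ i, T.peval (j * T.m) a (Z i) = 0)
    (Q : T.reg →ₐ[K] Ω) (hQ : ∀ i, wedge (T.pvec T.m (Z i)) (T.pvec T.m Q) ≠ 0)
    (hdiv : ∀ π : Fin n → Fin (T.dim T.m) × Fin (T.dim T.m),
      ∃ hq : Fin (T.dim ((j * T.m - j) * T.m)) → Ω,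
        (∀ i, ∏ l, wedge (T.pvec T.m (Z l)) (T.pvec T.m (T.cpt Ω (pool i) (hO i))) (π l) =
            T.peval (j * T.m) a (T.cpt Ω (pool i) (hO i)) *
              T.peval _ hq (T.cpt Ω (pool i) (hO i))) ∧
          ∏ l, wedge (T.pvec T.m (Z l)) (T.pvec T.m Q) (π l) =
            T.peval (j * T.m) a Q * T.peval _ hq Q) :
    V.valuation (T.peval (j * T.m) a Q) *
          ∏ i, nrm V (T.pvec T.m (Z i)) * nrm V (T.pvec T.m Q) =
        nrm V (fun i => T.peval (j * T.m) a (T.cpt Ω (pool i) (hO i))) *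
          nrm V (T.pvec T.m Q) ^ j * ∏ i, nrm V (wedge (T.pvec T.m (Z i)) (T.pvec T.m Q)) ∧
      T.peval (j * T.m) a Q ≠ 0 ∧
      nrm V (fun i => T.peval (j * T.m) a (T.cpt Ω (pool i) (hO i))) = nrm V a ∧ nrm V a ≠ 0 := by
  subst hn
  have hm := T.hm
  have hcm : j * T.m * T.m ≤ c * T.m := Nat.mul_le_mul_right _ hjc
  have hjm : j * T.m ≤ j * T.m * T.m := Nat.le_mul_of_pos_right _ (by omega)
  have hlev : j * T.m + (j * T.m - j) * T.m = j * T.m * T.m := by
    rw [← Nat.add_mul, Nat.add_sub_cancel' (Nat.le_mul_of_pos_right _ (by omega))]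
  have hpool := Loc.nrm_values T V hV (j * T.m) pool hinj hO (by omega) a
  have : Nonempty (Fin (T.dim T.m) × Fin (T.dim T.m)) := by
    obtain ⟨x, -⟩ := Loc.exists_isMax (V := V) hV Q
    exact ⟨(x, x)⟩
  choose π hπ using fun i => Loc.exists_eq_nrm V (wedge (T.pvec T.m (Z i)) (T.pvec T.m Q))
  obtain ⟨hq, hpoolq, hQq⟩ := hdiv π
  have hW : ∏ i, nrm V (wedge (T.pvec T.m (Z i)) (T.pvec T.m Q)) ≠ 0 :=
    Finset.prod_ne_zero_iff.mpr fun i _ h => hQ i ((Loc.nrm_eq_zero_iff V).mp h)
  have hWeq : ∏ i, nrm V (wedge (T.pvec T.m (Z i)) (T.pvec T.m Q)) =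
      V.valuation (T.peval (j * T.m) a Q) * V.valuation (T.peval _ hq Q) := by
    rw [← map_mul, ← hQq, map_prod]
    exact Finset.prod_congr rfl fun i _ => (hπ i).symm
  have haQ : T.peval (j * T.m) a Q ≠ 0 := fun h => hW (by rw [hWeq, h, map_zero, zero_mul])
  have ha : nrm V a ≠ 0 := fun h => haQ (by
    rw [(Loc.nrm_eq_zero_iff V).mp h]
    simp [Frame.peval])
  refine ⟨?_, haQ, hpool, ha⟩
  rw [hpool]
  obtain ⟨x, hx⟩ : ∃ x, V.valuation (a x) = nrm V a := by
    have : Nonempty (Fin (T.dim (j * T.m))) := by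
      by_contra h
      rw [not_nonempty_iff] at h
      exact ha ((Loc.nrm_eq_zero_iff V).mpr (Subsingleton.elim _ _))
    exact Loc.exists_eq_nrm V a
  have hax : a x ≠ 0 := fun h => ha (by rw [← hx, h, map_zero])
  refine le_antisymm ?_ ?_
  · have h := Loc.val_peval_mul_prod_le T V hV j Z hZ ((a x)⁻¹ • a)
      (by rw [Loc.nrm_smul, map_inv₀, hx, inv_mul_cancel₀ ha])
      (fun i => by rw [Loc.peval_smul, hZ0 i, mul_zero]) Q
    rw [Loc.peval_smul, map_mul, map_inv₀, hx, mul_assoc,
      inv_mul_le_iff₀ (zero_lt_iff.mpr ha)] at h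
    rwa [mul_assoc (nrm V a)]
  · have hqb : nrm V a * nrm V hq ≤ ∏ i, nrm V (T.pvec T.m (Z i)) := by
      rw [← Loc.nrm_values_mul T V hV _ _ pool hinj hO (by omega) a hq]
      refine Loc.nrm_le V fun i => ?_
      rw [← hpoolq i, map_prod]
      refine Finset.prod_le_prod' fun l _ => ?_
      refine (Loc.le_nrm V _ _).trans ((Loc.nrm_wedge_le V _ _).trans ?_)
      rw [Loc.nrm_pvec_cpt T V hV, mul_one]
    have hqQ := Loc.val_peval_le T V _ hq Q
    rw [Loc.nrm_pvec_mul hV] at hqQ
    rw [hWeq, Finset.prod_mul_distrib, Finset.prod_const, Finset.card_univ, Fintype.card_fin]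
    set q := nrm V (T.pvec T.m Q)
    calc nrm V a * q ^ j * (V.valuation (T.peval (j * T.m) a Q) * V.valuation (T.peval _ hq Q))
        ≤ nrm V a * q ^ j * (V.valuation (T.peval (j * T.m) a Q) *
            (nrm V hq * q ^ (j * T.m - j))) := mul_le_mul_right (mul_le_mul_right hqQ _) _
      _ = V.valuation (T.peval (j * T.m) a Q) *
            (nrm V a * nrm V hq * q ^ (j + (j * T.m - j))) := by rw [pow_add]; ac_rfl
      _ ≤ _ := by
        rw [Nat.add_sub_cancel' (Nat.le_mul_of_pos_right _ (by omega))]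
        exact mul_le_mul_right (mul_le_mul_left hqb _) _

theorem plucker_append_le (c : ℕ) {e : ℕ} (E : Fin e → (T.reg →ₐ[K] Ω))
    (hE : ∀ i i', i ≠ i' → wedge (T.pvec T.m (E i)) (T.pvec T.m (E i')) ≠ 0)
    {ι : Type*} [Fintype ι] (pool : ι → Place K F) (hO : ∀ i, pool i ≠ T.O) :
    ∀ {l : ℕ} (R : Fin l → ι),
      nrm V (plucker (Fin.append (fun i => T.pvec (c * T.m) (E i))
          fun i => T.pvec (c * T.m) (T.cpt Ω (pool (R i)) (hO (R i))))) *
          ∏ _r : Fin l, ∏ i, nrm V (T.pvec T.m (E i)) ≤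
        nrm V (plucker fun i => T.pvec (c * T.m) (E i)) *
          ∏ r, ∏ i, nrm V (wedge (T.pvec T.m (E i))
            (T.pvec T.m (T.cpt Ω (pool (R r)) (hO (R r))))) := by
  intro l
  induction l with
  | zero =>
    intro R
    have h : Fin.append (fun i => T.pvec (c * T.m) (E i))
        (fun i => T.pvec (c * T.m) (T.cpt Ω (pool (R i)) (hO (R i)))) =
        fun i => T.pvec (c * T.m) (E i) := by
      funext i
      exact Fin.append_left (fun i => T.pvec (c * T.m) (E i))
        (fun i => T.pvec (c * T.m) (T.cpt Ω (pool (R i)) (hO (R i)))) i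
    rw [h]
    simp
  | succ l ih =>
    intro R
    have h0 := ih (Fin.init R)
    set D := fun r => ∏ i, nrm V (wedge (T.pvec T.m (E i))
      (T.pvec T.m (T.cpt Ω (pool r) (hO r))))
    set M := ∏ i, nrm V (T.pvec T.m (E i))
    have hM : 0 < M := zero_lt_iff.mpr (Finset.prod_ne_zero_iff.mpr fun i _ =>
      Loc.nrm_pvec_ne_zero T V hV _ _)
    set W' := Fin.append (fun i => T.pvec (c * T.m) (E i))
      fun i => T.pvec (c * T.m) (T.cpt Ω (pool (Fin.init R i)) (hO (Fin.init R i)))
    have h1 : nrm V (plucker (Fin.snoc W' (T.pvec (c * T.m)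
        (T.cpt Ω (pool (R (Fin.last l))) (hO (R (Fin.last l))))) :
          Fin (e + l + 1) → Fin (T.dim (c * T.m)) → Ω)) ≤
        nrm V (plucker W') * (D (R (Fin.last l)) / M) := by
      refine Loc.plucker_snoc_le V _ _ _ fun a ha ha0 => ?_
      have h := Loc.val_peval_mul_prod_le T V hV c E hE a ha (fun i => by
        have := ha0 (Fin.castAdd l i)
        simpa [W', Frame.peval] using this) (T.cpt Ω (pool (R (Fin.last l))) (hO (R (Fin.last l))))
      simp only [Loc.nrm_pvec_cpt T V hV, mul_one, one_pow, one_mul] at h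
      exact (le_div_iff₀ hM).mpr h
    have h2 : (Fin.snoc W' (T.pvec (c * T.m)
        (T.cpt Ω (pool (R (Fin.last l))) (hO (R (Fin.last l))))) :
          Fin (e + l + 1) → Fin (T.dim (c * T.m)) → Ω) =
        Fin.append (fun i => T.pvec (c * T.m) (E i))
          fun i => T.pvec (c * T.m) (T.cpt Ω (pool (R i)) (hO (R i))) := by
      rw [← Fin.append_snoc]
      congr 1
      funext i
      refine Fin.lastCases ?_ (fun r => ?_) i <;> simp [Fin.init]
    rw [h2, ← mul_div_assoc, le_div_iff₀ hM] at h1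
    rw [Fin.prod_univ_castSucc, Fin.prod_univ_castSucc, ← mul_assoc, ← mul_assoc, mul_right_comm]
    refine (mul_le_mul_left h1 _).trans ?_
    rw [mul_right_comm]
    exact mul_le_mul_left h0 _

open scoped Classical in
theorem exists_pool_choice (c j k e : ℕ) (hk : k + e = T.dim (c * T.m))
    {ι : Type*} [Fintype ι] (pool : ι → Place K F) (hinj : Function.Injective pool)
    (hO : ∀ i, pool i ≠ T.O) (hcard : c * T.m + c * T.m + j * T.m < Fintype.card ι)
    (a : Fin (T.dim (j * T.m)) → Ω) (E E' : Fin e → (T.reg →ₐ[K] Ω)) :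
    ∀ l ≤ k, ∃ R : Fin l → ι,
      nrm V (plucker fun i => T.pvec (c * T.m) (E i)) ≤
        nrm V (plucker (Fin.append (fun i => T.pvec (c * T.m) (E i))
          fun i => T.pvec (c * T.m) (T.cpt Ω (pool (R i)) (hO (R i))))) ∧
      nrm V (plucker fun i => T.pvec (c * T.m) (E' i)) ≤
        nrm V (plucker (Fin.append (fun i => T.pvec (c * T.m) (E' i))
          fun i => T.pvec (c * T.m) (T.cpt Ω (pool (R i)) (hO (R i))))) ∧
      ∀ i, nrm V a ≤ V.valuation (T.peval (j * T.m) a (T.cpt Ω (pool (R i)) (hO (R i)))) := by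
  intro l
  induction l with
  | zero =>
    intro _
    have h : ∀ (w : Fin e → Fin (T.dim (c * T.m)) → Ω) (u : Fin 0 → Fin (T.dim (c * T.m)) → Ω),
        Fin.append w u = w := fun w u => funext fun i => Fin.append_left w u i
    exact ⟨Fin.elim0, (congrArg (fun w => nrm V (plucker w)) (h _ _)).ge,
      (congrArg (fun w => nrm V (plucker w)) (h _ _)).ge, fun i => i.elim0⟩
  | succ l ih =>
    intro hl
    obtain ⟨R, hR, hR', hRa⟩ := ih (by omega)
    obtain ⟨s, hs, hs0⟩ := Loc.exists_orth V (show e + l < T.dim (c * T.m) by omega)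
      (Fin.append (fun i => T.pvec (c * T.m) (E i))
        fun i => T.pvec (c * T.m) (T.cpt Ω (pool (R i)) (hO (R i))))
    obtain ⟨s', hs', hs0'⟩ := Loc.exists_orth V (show e + l < T.dim (c * T.m) by omega)
      (Fin.append (fun i => T.pvec (c * T.m) (E' i))
        fun i => T.pvec (c * T.m) (T.cpt Ω (pool (R i)) (hO (R i))))
    have h1 := Loc.card_lt_nrm T V hV (c * T.m) pool hinj hO s
    have h2 := Loc.card_lt_nrm T V hV (c * T.m) pool hinj hO s'
    have h3 := Loc.card_lt_nrm T V hV (j * T.m) pool hinj hO a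
    set B1 := Finset.univ.filter fun i =>
      V.valuation (T.peval (c * T.m) s (T.cpt Ω (pool i) (hO i))) < nrm V s
    set B2 := Finset.univ.filter fun i =>
      V.valuation (T.peval (c * T.m) s' (T.cpt Ω (pool i) (hO i))) < nrm V s'
    set B3 := Finset.univ.filter fun i =>
      V.valuation (T.peval (j * T.m) a (T.cpt Ω (pool i) (hO i))) < nrm V a
    obtain ⟨r, -, hr⟩ := Finset.exists_mem_notMem_of_card_lt_card (t := Finset.univ)
      (s := B1 ∪ B2 ∪ B3) (by
        have h4 := Finset.card_union_le (B1 ∪ B2) B3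
        have h5 := Finset.card_union_le B1 B2
        rw [Finset.card_univ]
        omega)
    simp only [B1, B2, B3, Finset.mem_union, Finset.mem_filter, Finset.mem_univ, true_and,
      not_or, not_lt] at hr
    obtain ⟨⟨hr1, hr2⟩, hr3⟩ := hr
    refine ⟨Fin.snoc R r, ?_, ?_, ?_⟩
    · have h := Loc.le_plucker_snoc V _ (T.pvec (c * T.m) (T.cpt Ω (pool r) (hO r))) hs.le hs0
      rw [← Fin.append_snoc] at h
      have e1 : ∀ (w : Fin e → Fin (T.dim (c * T.m)) → Ω), Fin.append w (fun i =>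
          T.pvec (c * T.m) (T.cpt Ω (pool ((Fin.snoc R r : Fin (l + 1) → ι) i)) (hO _))) =
          Fin.append w (Fin.snoc (fun i => T.pvec (c * T.m) (T.cpt Ω (pool (R i)) (hO (R i))))
            (T.pvec (c * T.m) (T.cpt Ω (pool r) (hO r)))) := fun w => by
        congr 1
        funext i
        refine Fin.lastCases ?_ (fun q => ?_) i <;> simp
      rw [e1]
      rw [hs] at hr1
      exact le_trans (le_mul_of_one_le_right' hr1) ((mul_le_mul_left hR _).trans h)
    · have h := Loc.le_plucker_snoc V _ (T.pvec (c * T.m) (T.cpt Ω (pool r) (hO r))) hs'.le hs0'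
      rw [← Fin.append_snoc] at h
      have e1 : ∀ (w : Fin e → Fin (T.dim (c * T.m)) → Ω), Fin.append w (fun i =>
          T.pvec (c * T.m) (T.cpt Ω (pool ((Fin.snoc R r : Fin (l + 1) → ι) i)) (hO _))) =
          Fin.append w (Fin.snoc (fun i => T.pvec (c * T.m) (T.cpt Ω (pool (R i)) (hO (R i))))
            (T.pvec (c * T.m) (T.cpt Ω (pool r) (hO r)))) := fun w => by
        congr 1
        funext i
        refine Fin.lastCases ?_ (fun q => ?_) i <;> simp
      rw [e1]
      rw [hs'] at hr2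
      exact le_trans (le_mul_of_one_le_right' hr2) ((mul_le_mul_left hR' _).trans h)
    · intro i
      refine Fin.lastCases ?_ (fun q => ?_) i
      · simpa using hr3
      · simpa using hRa q

/-- The wedge of evaluation vectors is the product of the mutual distances. -/
theorem nrm_plucker (c e : ℕ) (hec : e ≤ c) (φ : Fin e → (T.reg →ₐ[K] Ω))
    (hne : ∀ i j, i ≠ j → wedge (T.pvec T.m (φ i)) (T.pvec T.m (φ j)) ≠ 0) :
    nrm V (plucker fun i => T.pvec (c * T.m) (φ i)) *
        ∏ p ∈ Finset.univ.filter (fun p : Fin e × Fin e => p.1 < p.2),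
          nrm V (T.pvec T.m (φ p.1)) * nrm V (T.pvec T.m (φ p.2)) =
      (∏ i, nrm V (T.pvec T.m (φ i)) ^ c) *
        ∏ p ∈ Finset.univ.filter (fun p : Fin e × Fin e => p.1 < p.2),
          nrm V (wedge (T.pvec T.m (φ p.1)) (T.pvec T.m (φ p.2))) := by
  induction e with
  | zero =>
    rw [Loc.nrm_plucker_zero]
    simp
  | succ e ih =>
    have hsn := Loc.nrm_plucker_snoc T V hV c (by omega) (fun i => φ i.castSucc)
      (fun i i' h => hne _ _ fun h' => h (Fin.castSucc_injective _ h')) (φ (Fin.last e))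
    have ih' := ih (by omega) (fun i => φ i.castSucc)
      (fun i i' h => hne _ _ fun h' => h (Fin.castSucc_injective _ h'))
    have hfun : (fun i => T.pvec (c * T.m) (φ i)) =
        (Fin.snoc (fun i => T.pvec (c * T.m) (φ i.castSucc)) (T.pvec (c * T.m) (φ (Fin.last e))) :
          Fin (e + 1) → Fin (T.dim (c * T.m)) → Ω) := by
      funext i
      refine Fin.lastCases ?_ (fun q => ?_) i <;> simp
    rw [hfun, Loc.prod_pairs_succ e (fun p q => nrm V (T.pvec T.m (φ p)) * nrm V (T.pvec T.m (φ q))),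
      Loc.prod_pairs_succ e (fun p q => nrm V (wedge (T.pvec T.m (φ p)) (T.pvec T.m (φ q)))),
      Fin.prod_univ_castSucc]
    rw [← mul_assoc, mul_right_comm, hsn, mul_right_comm, ih']
    ac_rfl

/-- The value of a function is its size times the distances to its zeros. -/
theorem valuation_peval (j c : ℕ) (hj : 0 < j) (hjc : j * T.m ≤ c)
    {ι : Type*} [Fintype ι] (pool : ι → Place K F) (hinj : Function.Injective pool)
    (hO : ∀ i, pool i ≠ T.O) (hcard : 2 * (c * T.m) < Fintype.card ι)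
    (a : Fin (T.dim (j * T.m)) → Ω) (Z : Fin (j * T.m) → (T.reg →ₐ[K] Ω))
    (hZ : ∀ i i', i ≠ i' → wedge (T.pvec T.m (Z i)) (T.pvec T.m (Z i')) ≠ 0)
    (hZ0 : ∀ i, T.peval (j * T.m) a (Z i) = 0)
    (Q : T.reg →ₐ[K] Ω) (hQ : ∀ i, wedge (T.pvec T.m (Z i)) (T.pvec T.m Q) ≠ 0)
    (hdiv : ∀ π : Fin (j * T.m) → Fin (T.dim T.m) × Fin (T.dim T.m),
      ∃ hq : Fin (T.dim ((j * T.m - j) * T.m)) → Ω,
        ∀ R ∈ insert Q (Set.range fun i => T.cpt Ω (pool i) (hO i)),
          ∏ i, wedge (T.pvec T.m (Z i)) (T.pvec T.m R) (π i) =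
            T.peval (j * T.m) a R * T.peval _ hq R) :
    V.valuation (T.peval (j * T.m) a Q) *
        ∏ i, nrm V (T.pvec T.m (Z i)) * nrm V (T.pvec T.m Q) =
      nrm V (fun i => T.peval (j * T.m) a (T.cpt Ω (pool i) (hO i))) *
        nrm V (T.pvec T.m Q) ^ j * ∏ i, nrm V (wedge (T.pvec T.m (Z i)) (T.pvec T.m Q)) := by
  have hm := T.hm
  refine (val_peval_eq T V hV j c rfl hj hjc pool hinj hO (by omega) a Z hZ hZ0 Q hQ fun π => ?_).1
  obtain ⟨hq, h⟩ := hdiv π
  exact ⟨hq, fun i => h _ (Set.mem_insert_of_mem _ ⟨i, rfl⟩), h _ (Set.mem_insert _ _)⟩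

/-- The size of the coordinates of a class. -/
theorem nrm_phi (j c k e : ℕ) (hj : 0 < j) (he : e + e = j * T.m) (hjc : j * T.m ≤ c)
    (hk : k + e = T.dim (c * T.m))
    {ι : Type*} [Fintype ι] [DecidableEq ι] (pool : ι → Place K F) (hinj : Function.Injective pool)
    (hO : ∀ i, pool i ≠ T.O) (hcard : 4 * (c * T.m) < Fintype.card ι)
    (a : Fin (T.dim (j * T.m)) → Ω) (E E' : Fin e → (T.reg →ₐ[K] Ω))
    (hZ : ∀ i i', i ≠ i' → wedge (T.pvec T.m (Fin.append E E' i))
      (T.pvec T.m (Fin.append E E' i')) ≠ 0)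
    (hZ0 : ∀ i, T.peval (j * T.m) a (Fin.append E E' i) = 0)
    (hQ : ∀ i i', wedge (T.pvec T.m (Fin.append E E' i))
      (T.pvec T.m (T.cpt Ω (pool i') (hO i'))) ≠ 0)
    (hdiv : ∀ π : Fin (e + e) → Fin (T.dim T.m) × Fin (T.dim T.m),
      ∃ hq : Fin (T.dim ((j * T.m - j) * T.m)) → Ω,
        ∀ r : ι, ∏ i, wedge (T.pvec T.m (Fin.append E E' i))
            (T.pvec T.m (T.cpt Ω (pool r) (hO r))) (π i) =
          T.peval (j * T.m) a (T.cpt Ω (pool r) (hO r)) *
            T.peval _ hq (T.cpt Ω (pool r) (hO r))) :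
    nrm V (fun I : Fin k → ι =>
        detAppend hk (fun i => T.pvec (c * T.m) (T.cpt Ω (pool (I i)) (hO (I i))))
            (fun i => T.pvec (c * T.m) (E i)) *
          detAppend hk (fun i => T.pvec (c * T.m) (T.cpt Ω (pool (I i)) (hO (I i))))
            (fun i => T.pvec (c * T.m) (E' i)) /
          ∏ i, T.peval (j * T.m) a (T.cpt Ω (pool (I i)) (hO (I i)))) *
        nrm V (fun i => T.peval (j * T.m) a (T.cpt Ω (pool i) (hO i))) ^ k =
      nrm V (plucker fun i => T.pvec (c * T.m) (E i)) *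
        nrm V (plucker fun i => T.pvec (c * T.m) (E' i)) := by
  classical
  have hm := T.hm
  have hjm : j * T.m ≤ c * T.m := le_trans hjc (Nat.le_mul_of_pos_right _ (by omega))
  set A : ι → Ω := fun r => T.peval (j * T.m) a (T.cpt Ω (pool r) (hO r)) with hA
  have key := fun r => val_peval_eq T V hV j c he hj (he.trans_le hjc) pool hinj hO (by omega) a
    (Fin.append E E') hZ hZ0 (T.cpt Ω (pool r) (hO r)) (fun i => hQ i r)
    (fun π => by
      obtain ⟨hq, h⟩ := hdiv π
      exact ⟨hq, h, h r⟩)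
  obtain ⟨r0⟩ : Nonempty ι := Fintype.card_pos_iff.mp (by omega)
  have hA0 : nrm V A ≠ 0 := by
    rw [(key r0).2.2.1]
    exact (key r0).2.2.2
  have hE : ∀ i i', i ≠ i' → wedge (T.pvec T.m (E i)) (T.pvec T.m (E i')) ≠ 0 := fun i i' h => by
    simpa using hZ (Fin.castAdd e i) (Fin.castAdd e i')
      (fun h' => h (Fin.castAdd_injective _ _ h'))
  have hE' : ∀ i i', i ≠ i' → wedge (T.pvec T.m (E' i)) (T.pvec T.m (E' i')) ≠ 0 := fun i i' h => by
    simpa only [Fin.append_right] using hZ (Fin.natAdd e i) (Fin.natAdd e i')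
      (fun h' => h (Fin.natAdd_injective _ _ h'))
  set pE := nrm V (plucker fun i => T.pvec (c * T.m) (E i)) with hpE
  set pE' := nrm V (plucker fun i => T.pvec (c * T.m) (E' i)) with hpE'
  let X : (Fin e → (T.reg →ₐ[K] Ω)) → (Fin k → ι) → V.ValueGroup := fun G I =>
    nrm V (plucker (Fin.append (fun i => T.pvec (c * T.m) (G i))
      fun i => T.pvec (c * T.m) (T.cpt Ω (pool (I i)) (hO (I i)))))
  have hval : ∀ I : Fin k → ι, V.valuation
      (detAppend hk (fun i => T.pvec (c * T.m) (T.cpt Ω (pool (I i)) (hO (I i))))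
            (fun i => T.pvec (c * T.m) (E i)) *
          detAppend hk (fun i => T.pvec (c * T.m) (T.cpt Ω (pool (I i)) (hO (I i))))
            (fun i => T.pvec (c * T.m) (E' i)) /
          ∏ i, A (I i)) = X E I * X E' I / ∏ i, V.valuation (A (I i)) := fun I => by
    rw [map_div₀, map_mul, map_prod, Loc.val_detAppend, Loc.val_detAppend]
  refine le_antisymm ?_ ?_
  · rw [← le_div_iff₀ (pow_pos (zero_lt_iff.mpr hA0) k)]
    refine Loc.nrm_le V fun I => ?_
    rw [hval, le_div_iff₀ (pow_pos (zero_lt_iff.mpr hA0) k), div_mul_eq_mul_div,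
      div_le_iff₀ (zero_lt_iff.mpr (Finset.prod_ne_zero_iff.mpr fun i _ =>
        (Valuation.ne_zero_iff _).mpr (key (I i)).2.1))]
    have h1 := plucker_append_le T V hV c E hE pool hO I
    have h2 := plucker_append_le T V hV c E' hE' pool hO I
    have h := mul_le_mul' h1 h2
    rw [mul_mul_mul_comm, ← hpE, ← hpE', mul_mul_mul_comm pE,
      ← Finset.prod_mul_distrib (f := fun _ : Fin k => ∏ i, nrm V (T.pvec T.m (E i))),
      ← Finset.prod_mul_distrib (f := fun r : Fin k => ∏ i, nrm V (wedge (T.pvec T.m (E i))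
        (T.pvec T.m (T.cpt Ω (pool (I r)) (hO (I r))))))] at h
    have h3 : ∀ r, nrm V A * ((∏ i, nrm V (wedge (T.pvec T.m (E i))
          (T.pvec T.m (T.cpt Ω (pool r) (hO r))))) *
        ∏ i, nrm V (wedge (T.pvec T.m (E' i)) (T.pvec T.m (T.cpt Ω (pool r) (hO r))))) =
        V.valuation (A r) *
          ((∏ i, nrm V (T.pvec T.m (E i))) * ∏ i, nrm V (T.pvec T.m (E' i))) := fun r => by
      have := (key r).1
      rw [Fin.prod_univ_add, Fin.prod_univ_add] at this
      simp only [Loc.nrm_pvec_cpt T V hV, mul_one, one_pow, Fin.append_left, Fin.append_right]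
        at this
      exact this.symm
    set M := (∏ i, nrm V (T.pvec T.m (E i))) * ∏ i, nrm V (T.pvec T.m (E' i))
    have hM : 0 < M ^ k := pow_pos (zero_lt_iff.mpr (mul_ne_zero
      (Finset.prod_ne_zero_iff.mpr fun i _ => Loc.nrm_pvec_ne_zero T V hV _ _)
      (Finset.prod_ne_zero_iff.mpr fun i _ => Loc.nrm_pvec_ne_zero T V hV _ _))) k
    refine le_of_mul_le_mul_of_pos_right ?_ hM
    calc X E I * X E' I * nrm V A ^ k * M ^ k
        = X E I * X E' I * (∏ _r : Fin k, M) * ∏ _r : Fin k, nrm V A := by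
          simp only [Finset.prod_const, Finset.card_univ, Fintype.card_fin]; ac_rfl
      _ ≤ _ := mul_le_mul_left h _
      _ = _ := by
          rw [mul_assoc (pE * pE'), mul_comm (∏ x, _ : V.ValueGroup) (∏ _r : Fin k, nrm V A),
            ← Finset.prod_mul_distrib, Finset.prod_congr rfl (fun r _ => h3 (I r)),
            Finset.prod_mul_distrib, Finset.prod_const, Finset.card_univ, Fintype.card_fin,
            ← mul_assoc]
  · obtain ⟨R, hR, hR', hRa⟩ := exists_pool_choice T V hV c j k e hk pool hinj hO (by omega) a E E'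
      k le_rfl
    refine le_trans ?_ (mul_le_mul_left (Loc.le_nrm V _ R) _)
    rw [hval]
    have hAR : ∀ i, V.valuation (A (R i)) = nrm V A := fun i =>
      le_antisymm (Loc.le_nrm V A _) ((key r0).2.2.1 ▸ hRa i)
    rw [Finset.prod_congr rfl (fun i _ => hAR i), Finset.prod_const, Finset.card_univ,
      Fintype.card_fin, div_mul_cancel₀ _ (pow_ne_zero _ hA0)]
    exact mul_le_mul' hR hR'

/-- The size on a pool is multiplicative. -/
theorem nrm_peval_mul (L L' : ℕ) {ι : Type*} [Fintype ι] (pool : ι → Place K F)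
    (hinj : Function.Injective pool) (hO : ∀ i, pool i ≠ T.O)
    (hcard : L + L' < Fintype.card ι) (a : Fin (T.dim L) → Ω) (b : Fin (T.dim L') → Ω) :
    nrm V (fun i => T.peval L a (T.cpt Ω (pool i) (hO i)) *
        T.peval L' b (T.cpt Ω (pool i) (hO i))) =
      nrm V (fun i => T.peval L a (T.cpt Ω (pool i) (hO i))) *
        nrm V (fun i => T.peval L' b (T.cpt Ω (pool i) (hO i))) := by
  rw [Loc.nrm_values_mul T V hV L L' pool hinj hO hcard,
    Loc.nrm_values T V hV L pool hinj hO (by omega),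
    Loc.nrm_values T V hV L' pool hinj hO (by omega)]

end FLTAgent.MW
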