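import Fermat.Agent.MW.LocalDivDiff

/-!
# Integral forms against the distances to their zeros

`val_peval_mul_prod_le`: an integral form of level `c·m` vanishing at given points is bounded at `P`
by the product of their distances to `P` (divided differences on the disc of `P`); `exists_attain`:
products of linear forms attain the bound.  Hence `nrm_plucker_snoc`, the effect of one more point
on a Plücker vector of evaluation vectors.
-/

set_option autoImplicit false
set_option linter.unusedSectionVars false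

noncomputable section

open AlgebraicCurve

namespace FLTAgent.MW.Loc

variable {K F : Type*} [Field K] [Field F] [Algebra K F] [IsAlgClosed K] [CharZero K]
  [FF.IsFF K F] {Ω : Type*} [Field Ω] [Algebra K Ω] (T : Frame K F) (V : ValuationSubring Ω)

theorem nrm_wedge_comm {n : ℕ} (u w : Fin n → Ω) : nrm V (wedge u w) = nrm V (wedge w u) := by
  refine Finset.sup_congr rfl fun ab _ => ?_
  rw [← Valuation.map_neg]
  congr 1
  simp only [wedge]
  ring

variable (hV : ∀ c : K, algebraMap K Ω c ∈ V)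

include hV

theorem cross_le (φ ψ : T.reg →ₐ[K] Ω) (f : T.V T.m) (x : Fin (T.dim T.m)) :
    V.valuation (φ (toReg T _ f) * T.pvec T.m ψ x - T.pvec T.m φ x * ψ (toReg T _ f)) ≤
      nrm V (wedge (T.pvec T.m φ) (T.pvec T.m ψ)) := by
  rw [← peval_coef T T.m f φ, ← peval_coef T T.m f ψ]
  simp only [Frame.peval, Finset.sum_mul, Finset.mul_sum, ← Finset.sum_sub_distrib]
  refine Valuation.map_sum_le _ fun y _ => ?_
  rw [show coef T Ω T.m f y * T.pvec T.m φ y * T.pvec T.m ψ x -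
      T.pvec T.m φ x * (coef T Ω T.m f y * T.pvec T.m ψ y) =
      coef T Ω T.m f y * wedge (T.pvec T.m φ) (T.pvec T.m ψ) (y, x) by
    simp only [wedge]; ring, map_mul]
  exact (mul_le_mul' ((le_nrm V _ y).trans (nrm_coef_le T V hV T.m f)) (le_nrm V _ _)).trans_eq
    (one_mul _)

/-- A parameter of the disc of a point. -/
theorem exists_parameter {φ : T.reg →ₐ[K] Ω} (L : PLoc T V φ) {x : Fin (T.dim T.m)}
    (hx : IsMax V φ x) :
    ∃ (f : T.V T.m) (t : L.B), (f : F) = (T.basis T.m x : F) * t ∧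
      ∀ b : L.B, Good L.θ V t (b : F) := by
  have hm := T.hm
  have hb := basis_ne_zero hV x
  have hdiv : ∀ f : T.V T.m, ∃ g : L.B, (f : F) = (T.basis T.m x : F) * g := fun f => by
    obtain ⟨g, hg⟩ := L.exists_div hV hx 1 ⟨f, by rw [one_mul]; exact f.2⟩
    exact ⟨g, by rw [pow_one] at hg; exact hg⟩
  rcases L.cases with hB | ⟨P, hP, hlt⟩
  · obtain ⟨u, hu, hu0, hou⟩ := exists_pole_exact T T.m (by omega)
    obtain ⟨c1, hc1⟩ := exists_basis_sum_eq_one T T.m
    have h1 : ((c1 : T.V T.m) : F) = 1 := congrArg Subtype.val hc1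
    by_cases hb' : Transcendental K (T.basis T.m x : F)
    · obtain ⟨t, ht⟩ := hdiv c1
      refine ⟨c1, t, ht, fun b => good_of_top L.le_one hB ?_ _⟩
      rw [h1] at ht
      rw [eq_inv_of_mul_eq_one_right ht.symm]
      exact fun h => hb' (IsAlgebraic.inv_iff.mp h)
    · obtain ⟨d, hd⟩ := FF.mem_range_of_not_transcendental' hb'
      obtain ⟨t, ht⟩ := hdiv ⟨u, hu⟩
      refine ⟨⟨u, hu⟩, t, ht, fun b => good_of_top L.le_one hB ?_ _⟩
      refine transcendental_of_ord_ne_zero T.O ?_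
      have h := congrArg T.O.ord (ht : u = _)
      have ht0 : (t : F) ≠ 0 := fun h => hu0 (by simpa [h] using (ht : u = _))
      rw [T.O.ord_mul hb ht0, ← hd, FF.ord_algebraMap, hou, zero_add] at h
      omega
  · obtain ⟨f, hf, hf0, -, hord⟩ := exists_exact_sub T P P
    obtain ⟨t, ht⟩ := hdiv ⟨f, hf⟩
    refine ⟨⟨f, hf⟩, t, ht, fun b => good_of_place L.le_one hP ?_ b⟩
    have h := congrArg P.ord (ht : f = _)
    have ht0 : (t : F) ≠ 0 := fun h => hf0 (by simpa [h] using (ht : f = _))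
    rw [P.ord_mul hb ht0, L.ord_base hV hx hP hlt, hord, Finsupp.sub_apply,
      Finsupp.single_eq_same] at h
    omega

/-- An integral form is bounded by the distances to its zeros. -/
theorem val_peval_mul_prod_le (c : ℕ) {ι : Type*} [Fintype ι] (A : ι → (T.reg →ₐ[K] Ω))
    (hA : ∀ i j, i ≠ j → wedge (T.pvec T.m (A i)) (T.pvec T.m (A j)) ≠ 0)
    (a : Fin (T.dim (c * T.m)) → Ω) (ha : nrm V a ≤ 1)
    (ha0 : ∀ i, T.peval (c * T.m) a (A i) = 0) (P : T.reg →ₐ[K] Ω) :
    V.valuation (T.peval (c * T.m) a P) *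
        ∏ i, nrm V (T.pvec T.m (A i)) * nrm V (T.pvec T.m P) ≤
      nrm V (T.pvec T.m P) ^ c * ∏ i, nrm V (wedge (T.pvec T.m (A i)) (T.pvec T.m P)) := by
  classical
  set N := nrm V (T.pvec T.m P)
  set W : ι → V.ValueGroup := fun i => nrm V (wedge (T.pvec T.m (A i)) (T.pvec T.m P))
  set S := Finset.univ.filter fun i => W i < nrm V (T.pvec T.m (A i)) * N with hS
  have hout : ∀ i ∈ Sᶜ, nrm V (T.pvec T.m (A i)) * N = W i := fun i hi => by
    rw [Finset.mem_compl, hS, Finset.mem_filter] at hi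
    exact le_antisymm (not_lt.mp fun h => hi ⟨Finset.mem_univ _, h⟩) (nrm_wedge_le V _ _)
  rw [← Finset.prod_mul_prod_compl S, ← Finset.prod_mul_prod_compl S W, Finset.prod_congr rfl hout,
    ← mul_assoc, ← mul_assoc]
  refine mul_le_mul_left ?_ _
  obtain ⟨L⟩ := exists_ploc T V hV P
  obtain ⟨x, hx⟩ := exists_isMax (V := V) hV P
  obtain ⟨f, t, hft, hgood⟩ := exists_parameter T V hV L hx
  have hnear : ∀ i, ∃ θ' : Disc V L.B L.θ, i ∈ S → IsMax V (A i) x ∧
      ∀ (f g : T.reg) (b : L.B), (f : F) = g * b → A i f = A i g * θ'.1 b := by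
    intro i
    by_cases hi : i ∈ S
    · have h := (Finset.mem_filter.mp hi).2
      obtain ⟨hmax, θ', hθ', hrel⟩ := exists_near hV L hx (ψ := A i) (by
        rw [nrm_wedge_comm, mul_comm]; exact h)
      exact ⟨⟨θ', hθ'⟩, fun _ => ⟨hmax, hrel⟩⟩
    · exact ⟨⟨L.θ, fun b => by simp⟩, fun h => absurd h hi⟩
  choose θA hθA using hnear
  let θP : Disc V L.B L.θ := ⟨L.θ, fun b => by simp⟩
  choose g hg using fun k => L.exists_div hV hx c (T.basis (c * T.m) k)
  have hone : ∀ {χ : T.reg →ₐ[K] Ω} (θ : Disc V L.B L.θ),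
      (∀ (f g : T.reg) (b : L.B), (f : F) = g * b → χ f = χ g * θ.1 b) →
      T.peval (c * T.m) a χ = T.pvec T.m χ x ^ c * ∑ k, a k * θ.1 (g k) := by
    intro χ θ hrel
    rw [Frame.peval, Finset.mul_sum]
    refine Finset.sum_congr rfl fun k _ => ?_
    show a k * χ (toReg T _ _) = _
    rw [hrel (toReg T _ (T.basis (c * T.m) k)) (toReg T T.m (T.basis T.m x) ^ c) (g k) (hg k),
      map_pow]
    simp only [Frame.pvec, toReg]
    ring
  have hpx : ∀ i ∈ S, T.pvec T.m (A i) x ≠ 0 := fun i hi h => by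
    have := (hθA i hi).1
    rw [IsMax, h, map_zero] at this
    exact nrm_pvec_ne_zero T V hV T.m (A i) this.symm
  have hzero : ∀ i ∈ S, (fun θ : Disc V L.B L.θ => ∑ k, a k * θ.1 (g k)) (θA i) = 0 :=
    fun i hi => by
      have h := hone (θA i) (hθA i hi).2
      rw [ha0 i] at h
      exact (mul_eq_zero.mp h.symm).resolve_left (pow_ne_zero _ (hpx i hi))
  have hdist : ∀ i ∈ S, ∀ j ∈ S, i ≠ j → (θA i).1 t ≠ (θA j).1 t := by
    intro i hi j hj hij heq
    refine hA i j hij (funext fun ab => ?_)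
    have hz : ∀ y : Fin (T.dim T.m), ∃ gy : L.B, (T.basis T.m y : F) = (T.basis T.m x : F) * gy ∧
        (θA i).1 gy = (θA j).1 gy := fun y => by
      obtain ⟨gy, hgy⟩ := L.exists_div hV hx 1 ⟨T.basis T.m y, by
        rw [one_mul]; exact (T.basis T.m y).2⟩
      rw [pow_one] at hgy
      refine ⟨gy, hgy, ?_⟩
      obtain ⟨h, hdd⟩ := hgood gy
      obtain ⟨H, -, eH⟩ := hdd (θA j)
      have e := eH (θA i)
      rw [heq, sub_self, zero_mul, sub_eq_zero] at e
      exact e
    obtain ⟨g1, hg1, he1⟩ := hz ab.1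
    obtain ⟨g2, hg2, he2⟩ := hz ab.2
    have e : ∀ (y : Fin (T.dim T.m)) (gy : L.B),
        (T.basis T.m y : F) = (T.basis T.m x : F) * gy → ∀ l ∈ S,
          T.pvec T.m (A l) y = T.pvec T.m (A l) x * (θA l).1 gy := fun y gy hgy l hl =>
      (hθA l hl).2 (toReg T T.m (T.basis T.m y)) (toReg T T.m (T.basis T.m x)) gy hgy
    simp only [wedge, Pi.zero_apply, e _ _ hg1 i hi, e _ _ hg1 j hj, e _ _ hg2 i hi,
      e _ _ hg2 j hj, he1, he2]
    ring
  have hG : DiscFun V L.B L.θ fun θ => ∑ k, a k * θ.1 (g k) :=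
    DiscFun.sum _ (fun k θ => a k * θ.1 (g k)) fun k _ =>
      DiscFun.mul (G := fun _ => a k) (DiscFun.const _ ((le_nrm V a k).trans ha)) (DiscFun.ev _)
  have hle := val_le_prod L.le_one hgood S θA hdist hG hzero θP
  have hstep : ∀ i ∈ S, V.valuation (θP.1 t - (θA i).1 t) * (nrm V (T.pvec T.m (A i)) * N) ≤ W i := by
    intro i hi
    have h := cross_le T V hV (A i) P f x
    rw [(hθA i hi).2 (toReg T _ f) (toReg T T.m (T.basis T.m x)) t hft,
      L.rel (toReg T _ f) (toReg T T.m (T.basis T.m x)) t hft] at h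
    change V.valuation (T.pvec T.m (A i) x * (θA i).1 t * T.pvec T.m P x -
      T.pvec T.m (A i) x * (T.pvec T.m P x * L.θ t)) ≤ W i at h
    rw [show T.pvec T.m (A i) x * (θA i).1 t * T.pvec T.m P x -
      T.pvec T.m (A i) x * (T.pvec T.m P x * L.θ t) =
      -((θP.1 t - (θA i).1 t) * (T.pvec T.m (A i) x * T.pvec T.m P x)) by
        simp only [θP]; ring, Valuation.map_neg, map_mul, map_mul, (hθA i hi).1, hx] at h
    exact h
  rw [hone θP L.rel, map_mul, map_pow, hx, mul_assoc]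
  refine mul_le_mul_right ((mul_le_mul_left hle _).trans ?_) _
  rw [← Finset.prod_mul_distrib]
  exact Finset.prod_le_prod' fun i hi => hstep i hi

/-- The bound by the distances is attained. -/
theorem exists_attain (P : T.reg →ₐ[K] Ω) : ∀ {e : ℕ} (A : Fin e → (T.reg →ₐ[K] Ω)) (r L : ℕ),
    L = (r + e) * T.m → ∃ a : Fin (T.dim L) → Ω, nrm V a ≤ 1 ∧ (∀ i, T.peval L a (A i) = 0) ∧
      V.valuation (T.peval L a P) * ∏ i, nrm V (T.pvec T.m (A i)) * nrm V (T.pvec T.m P) =
        nrm V (T.pvec T.m P) ^ (r + e) *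
          ∏ i, nrm V (wedge (T.pvec T.m (A i)) (T.pvec T.m P)) := by
  classical
  obtain ⟨x, hx⟩ := exists_isMax (V := V) hV P
  intro e
  induction e with
  | zero =>
    intro A r L hL
    have hmem : (T.basis T.m x : F) ^ r ∈ T.V L := by
      have := FF.pow_mem_riemannRochSpace (T.basis T.m x).2 r
      rw [hL, add_zero]
      rwa [Finsupp.smul_single, nsmul_eq_mul, ← Nat.cast_mul] at this
    refine ⟨coef T Ω L ⟨_, hmem⟩, nrm_coef_le T V hV L _, fun i => i.elim0, ?_⟩
    rw [peval_coef, show toReg T L ⟨_, hmem⟩ = toReg T T.m (T.basis T.m x) ^ r from rfl, map_pow,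
      map_pow, ← hx]
    simp
    rfl
  | succ e ih =>
    intro A r L hL
    obtain ⟨a, ha, ha0, haP⟩ := ih (fun i => A i.castSucc) r ((r + e) * T.m) rfl
    set u := T.pvec T.m (A (Fin.last e)) with hu
    set w := T.pvec T.m P with hw
    have : Nonempty (Fin (T.dim T.m) × Fin (T.dim T.m)) := ⟨(x, x)⟩
    have : Nonempty (Fin (T.dim T.m)) := ⟨x⟩
    obtain ⟨x1, hx1⟩ := exists_eq_nrm V u
    obtain ⟨⟨p, q⟩, hpq⟩ := exists_eq_nrm V (wedge u w)
    have hu0 : u x1 ≠ 0 := fun h =>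
      nrm_pvec_ne_zero T V hV T.m _ (by rw [← hu, ← hx1, h, map_zero])
    set l : Fin (T.dim T.m) → Ω := fun z =>
      (u x1)⁻¹ * ((if z = q then u p else 0) - (if z = p then u q else 0))
    have hl : nrm V l ≤ 1 := nrm_le V fun z => by
      rw [map_mul, map_inv₀, inv_mul_le_iff₀ (zero_lt_iff.mpr ((Valuation.ne_zero_iff _).mpr hu0)),
        mul_one, hx1]
      refine (Valuation.map_sub _ _ _).trans (max_le ?_ ?_) <;> split_ifs <;>
        first | exact le_nrm V u _ | simp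
    have hlv : ∀ χ, T.peval T.m l χ = (u x1)⁻¹ * wedge u (T.pvec T.m χ) (p, q) := fun χ => by
      simp only [Frame.peval, l, mul_assoc, ← Finset.mul_sum, sub_mul, Finset.sum_sub_distrib,
        ite_mul, zero_mul, Finset.sum_ite_eq', Finset.mem_univ, if_true, wedge]
    obtain ⟨b, hb, hbv⟩ := exists_mul T V hV ((r + e) * T.m) T.m a l
    obtain rfl : L = (r + e) * T.m + T.m := by rw [hL]; ring
    refine ⟨b, hb.trans (mul_le_one' ha hl), fun i => ?_, ?_⟩
    · rw [hbv]
      refine Fin.lastCases ?_ (fun k => ?_) i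
      · rw [hlv]; simp [wedge, ← hu]; ring_nf; simp
      · rw [ha0 k, zero_mul]
    · rw [hbv, hlv, map_mul, map_mul, map_inv₀, hpq, hx1, Fin.prod_univ_castSucc,
        Fin.prod_univ_castSucc]
      rw [show ∀ (α β γ δ ε : V.ValueGroup), α * (β⁻¹ * γ) * (δ * ε) =
        (α * δ) * (γ * (β⁻¹ * ε)) from fun α β γ δ ε => by ac_rfl,
        haP, ← hu, inv_mul_cancel_left₀ (nrm_pvec_ne_zero T V hV T.m _), ← add_assoc, pow_succ]
      ac_rfl

/-- Adding one point to a Plücker vector. -/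
theorem nrm_plucker_snoc (c : ℕ) {e : ℕ} (hec : e ≤ c) (A : Fin e → (T.reg →ₐ[K] Ω))
    (hA : ∀ i j, i ≠ j → wedge (T.pvec T.m (A i)) (T.pvec T.m (A j)) ≠ 0)
    (P : T.reg →ₐ[K] Ω) :
    nrm V (plucker (Fin.snoc (fun i => T.pvec (c * T.m) (A i)) (T.pvec (c * T.m) P) :
        Fin (e + 1) → Fin (T.dim (c * T.m)) → Ω)) *
        ∏ i, nrm V (T.pvec T.m (A i)) * nrm V (T.pvec T.m P) =
      nrm V (plucker fun i => T.pvec (c * T.m) (A i)) *
        (nrm V (T.pvec T.m P) ^ c * ∏ i, nrm V (wedge (T.pvec T.m (A i)) (T.pvec T.m P))) := by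
  set M := ∏ i, nrm V (T.pvec T.m (A i)) * nrm V (T.pvec T.m P)
  have hM : 0 < M := zero_lt_iff.mpr (Finset.prod_ne_zero_iff.mpr fun i _ =>
    mul_ne_zero (nrm_pvec_ne_zero T V hV _ _) (nrm_pvec_ne_zero T V hV _ _))
  refine le_antisymm ?_ ?_
  · rw [← le_div_iff₀ hM, mul_div_assoc]
    exact plucker_snoc_le V _ _ _ fun a ha ha0 =>
      (le_div_iff₀ hM).mpr (val_peval_mul_prod_le T V hV c A hA a ha ha0 P)
  · obtain ⟨a, ha, ha0, haP⟩ := exists_attain T V hV P A (c - e) (c * T.m)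
      (by rw [Nat.sub_add_cancel hec])
    rw [Nat.sub_add_cancel hec] at haP
    rw [← haP, ← mul_assoc]
    exact mul_le_mul_left (le_plucker_snoc V _ _ ha ha0) _

end FLTAgent.MW.Loc
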