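import Fermat.Agent.MW.Defs

/-!
# Values of coordinate vectors at points

`Frame.peval` evaluates a function given by coordinates at a point with values in a ring, and
`Frame.cpt` is the point of a place with values in a field over the constants; `Frame.tdist` is the
normalised distance of two points for a valuation.
-/

set_option autoImplicit false

noncomputable section

open AlgebraicCurve

namespace FLTAgent.MW

variable {K F : Type*} [Field K] [Field F] [Algebra K F] [IsAlgClosed K] [CharZero K]
  [FF.IsFF K F] {Ω : Type*} [Field Ω] [Algebra K Ω] (T : Frame K F) (V : ValuationSubring Ω)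

/-- The value at a point of a function given by its coordinates. -/
def Frame.peval {A : Type*} [CommRing A] [Algebra K A] (L : ℕ) (a : Fin (T.dim L) → A)
    (φ : T.reg →ₐ[K] A) : A := ∑ i, a i * T.pvec L φ i

/-- A constant point. -/
def Frame.cpt (Ω : Type*) [Field Ω] [Algebra K Ω] (P : Place K F) (hP : P ≠ T.O) :
    T.reg →ₐ[K] Ω :=
  (Algebra.ofId K Ω).comp (T.evHom P hP)

/-- The distance of two points. -/
def Frame.tdist (φ ψ : T.reg →ₐ[K] Ω) : V.ValueGroup :=
  nrm V (wedge (T.pvec T.m φ) (T.pvec T.m ψ)) / (nrm V (T.pvec T.m φ) * nrm V (T.pvec T.m ψ))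

end FLTAgent.MW
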