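import Fermat.Agent.MW.LocalPoint
import Fermat.Agent.FF.DifferentialsGlobal

/-!
# Divided differences on a residual disc

The points of `Disc` are the homomorphisms on a local ring congruent to a given one; `DiscFun` is
generated by constants, evaluations and inverses of unit valued functions.  For a suitable
parameter `t` every function has difference quotients in the same class (`hasDD_of_good`), first
for the generators by passing to simple roots (`good_root`, `good_of_top`, `good_of_place`); so a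
function vanishing at given points is bounded by `∏ |t - t_i|` (`val_le_prod`).
-/

set_option autoImplicit false
set_option linter.unusedSectionVars false

noncomputable section

open AlgebraicCurve Polynomial

namespace FLTAgent.MW.Loc

variable {K F : Type*} [Field K] [Field F] [Algebra K F] {Ω : Type*} [Field Ω] [Algebra K Ω]
  (V : ValuationSubring Ω) (B : Subalgebra K F) (θ₀ : B →ₐ[K] Ω)

/-- The points of the disc around `θ₀`. -/
abbrev Disc : Type _ := {θ : B →ₐ[K] Ω // ∀ b, V.valuation (θ b - θ₀ b) < 1}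

/-- The functions on the disc generated by the functions of the local ring. -/
inductive DiscFun : (Disc V B θ₀ → Ω) → Prop
  | const (a : Ω) (ha : V.valuation a ≤ 1) : DiscFun fun _ => a
  | ev (b : B) : DiscFun fun P => P.1 b
  | add {G H : Disc V B θ₀ → Ω} : DiscFun G → DiscFun H → DiscFun (G + H)
  | mul {G H : Disc V B θ₀ → Ω} : DiscFun G → DiscFun H → DiscFun (G * H)
  | inv {G : Disc V B θ₀ → Ω} : DiscFun G → (∀ P, V.valuation (G P) = 1) → DiscFun G⁻¹

variable {V B θ₀}

theorem DiscFun.bounds (hθ₀ : ∀ b, V.valuation (θ₀ b) ≤ 1) {G : Disc V B θ₀ → Ω}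
    (hG : DiscFun V B θ₀ G) :
    (∀ P, V.valuation (G P) ≤ 1) ∧ ∀ P Q, V.valuation (G P - G Q) < 1 := by
  induction hG with
  | const a ha => exact ⟨fun _ => ha, fun _ _ => by simp⟩
  | ev b =>
    refine ⟨fun P => ?_, fun P Q => ?_⟩ <;> beta_reduce
    · rw [show P.1 b = (P.1 b - θ₀ b) + θ₀ b by ring]
      exact (Valuation.map_add _ _ _).trans (max_le (P.2 b).le (hθ₀ b))
    · rw [show P.1 b - Q.1 b = (P.1 b - θ₀ b) - (Q.1 b - θ₀ b) by ring]
      exact (Valuation.map_sub _ _ _).trans_lt (max_lt (P.2 b) (Q.2 b))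
  | @add G H _ _ hG hH =>
    refine ⟨fun P => (Valuation.map_add _ _ _).trans (max_le (hG.1 P) (hH.1 P)), fun P Q => ?_⟩
    rw [show (G + H) P - (G + H) Q = (G P - G Q) + (H P - H Q) by simp only [Pi.add_apply]; ring]
    exact (Valuation.map_add _ _ _).trans_lt (max_lt (hG.2 P Q) (hH.2 P Q))
  | @mul G H _ _ hG hH =>
    refine ⟨fun P => by rw [Pi.mul_apply, map_mul]; exact mul_le_one' (hG.1 P) (hH.1 P),
      fun P Q => ?_⟩
    rw [show (G * H) P - (G * H) Q = (G P - G Q) * H P + G Q * (H P - H Q) by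
      simp only [Pi.mul_apply]; ring]
    refine (Valuation.map_add _ _ _).trans_lt (max_lt ?_ ?_) <;> rw [map_mul]
    · exact (mul_le_of_le_one_right' (hH.1 P)).trans_lt (hG.2 P Q)
    · exact (mul_le_of_le_one_left' (hG.1 Q)).trans_lt (hH.2 P Q)
  | @inv G _ hu hG =>
    refine ⟨fun P => by rw [Pi.inv_apply, map_inv₀, hu P, inv_one], fun P Q => ?_⟩
    have h0 : ∀ P, G P ≠ 0 := fun P h => by simpa [h] using hu P
    rw [Pi.inv_apply, Pi.inv_apply, inv_sub_inv (h0 P) (h0 Q), map_div₀, map_mul, hu P, hu Q,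
      mul_one, div_one]
    exact hG.2 Q P

theorem DiscFun.sum {ι : Type*} (s : Finset ι) (G : ι → Disc V B θ₀ → Ω)
    (h : ∀ i ∈ s, DiscFun V B θ₀ (G i)) : DiscFun V B θ₀ fun P => ∑ i ∈ s, G i P := by
  classical
  induction s using Finset.induction with
  | empty => simpa using DiscFun.const (V := V) (B := B) (θ₀ := θ₀) 0 (by simp)
  | insert i s hi ih =>
    simp only [Finset.sum_insert hi]
    exact DiscFun.add (h i (Finset.mem_insert_self _ _))
      (ih fun j hj => h j (Finset.mem_insert_of_mem hj))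

theorem DiscFun.evPow (b : B) (k : ℕ) : DiscFun V B θ₀ fun P => P.1 b ^ k := by
  have : (fun P : Disc V B θ₀ => P.1 b ^ k) = fun P => P.1 (b ^ k) := funext fun P => by
    rw [map_pow]
  rw [this]
  exact DiscFun.ev _

/-- The difference quotients with respect to `t` are functions on the disc. -/
def HasDD (t : B) (G : Disc V B θ₀ → Ω) : Prop :=
  ∀ Q, ∃ H, DiscFun V B θ₀ H ∧ ∀ P, G P - G Q = (P.1 t - Q.1 t) * H P

variable (θ₀) in
/-- A function of the local ring with difference quotients on the disc. -/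
def Good (V : ValuationSubring Ω) (t : B) (z : F) : Prop :=
  ∃ h : z ∈ B, HasDD (V := V) (θ₀ := θ₀) t fun P => P.1 ⟨z, h⟩

variable {t : B} (hθ₀ : ∀ b, V.valuation (θ₀ b) ≤ 1)

theorem good_self : Good θ₀ V t (t : F) :=
  ⟨t.2, fun _ => ⟨fun _ => 1, DiscFun.const 1 (by simp), fun P => by simp⟩⟩

theorem good_algebraMap (c : K) : Good θ₀ V t (algebraMap K F c) :=
  ⟨B.algebraMap_mem c, fun Q => ⟨fun _ => 0, DiscFun.const 0 (by simp), fun P => by
    simp only [mul_zero]
    rw [show (⟨algebraMap K F c, B.algebraMap_mem c⟩ : B) = algebraMap K B c from rfl,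
      AlgHom.commutes, AlgHom.commutes, sub_self]⟩⟩

theorem Good.add {z w : F} (hz : Good θ₀ V t z) (hw : Good θ₀ V t w) : Good θ₀ V t (z + w) := by
  obtain ⟨hz, dz⟩ := hz
  obtain ⟨hw, dw⟩ := hw
  refine ⟨add_mem hz hw, fun Q => ?_⟩
  obtain ⟨H, hH, eH⟩ := dz Q
  obtain ⟨G, hG, eG⟩ := dw Q
  refine ⟨H + G, DiscFun.add hH hG, fun P => ?_⟩
  rw [show (⟨z + w, add_mem hz hw⟩ : B) = ⟨z, hz⟩ + ⟨w, hw⟩ from rfl]
  simp only [map_add, Pi.add_apply]
  linear_combination eH P + eG P

include hθ₀

theorem Good.mul {z w : F} (hz : Good θ₀ V t z) (hw : Good θ₀ V t w) : Good θ₀ V t (z * w) := by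
  obtain ⟨hz, dz⟩ := hz
  obtain ⟨hw, dw⟩ := hw
  refine ⟨mul_mem hz hw, fun Q => ?_⟩
  obtain ⟨H, hH, eH⟩ := dz Q
  obtain ⟨G, hG, eG⟩ := dw Q
  refine ⟨H * (fun P => P.1 ⟨w, hw⟩) + (fun _ => Q.1 ⟨z, hz⟩) * G,
    DiscFun.add (DiscFun.mul hH (DiscFun.ev _))
      (DiscFun.mul (DiscFun.const _ (((DiscFun.ev (V := V) (θ₀ := θ₀) _).bounds hθ₀).1 Q)) hG),
    fun P => ?_⟩
  rw [show (⟨z * w, mul_mem hz hw⟩ : B) = ⟨z, hz⟩ * ⟨w, hw⟩ from rfl]
  simp only [map_mul, Pi.add_apply, Pi.mul_apply]
  linear_combination P.1 ⟨w, hw⟩ * eH P + Q.1 ⟨z, hz⟩ * eG P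

theorem Good.inv {z : F} (hz : Good θ₀ V t z) (hzi : z⁻¹ ∈ B) : Good θ₀ V t z⁻¹ := by
  rcases eq_or_ne z 0 with rfl | hz0
  · rwa [inv_zero]
  obtain ⟨hz, dz⟩ := hz
  refine ⟨hzi, fun Q => ?_⟩
  obtain ⟨H, hH, eH⟩ := dz Q
  have hmul : ∀ P : Disc V B θ₀, P.1 ⟨z, hz⟩ * P.1 ⟨z⁻¹, hzi⟩ = 1 := fun P => by
    rw [← map_mul, ← map_one P.1]
    exact congrArg P.1 (Subtype.ext (mul_inv_cancel₀ hz0))
  refine ⟨H * (fun P => P.1 ⟨z⁻¹, hzi⟩) * fun _ => -Q.1 ⟨z⁻¹, hzi⟩,
    DiscFun.mul (DiscFun.mul hH (DiscFun.ev _)) (DiscFun.const _ (by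
      rw [Valuation.map_neg]
      exact ((DiscFun.ev (V := V) (θ₀ := θ₀) _).bounds hθ₀).1 Q)), fun P => ?_⟩
  simp only [Pi.mul_apply]
  linear_combination (-P.1 ⟨z⁻¹, hzi⟩ * Q.1 ⟨z⁻¹, hzi⟩) * eH P + Q.1 ⟨z⁻¹, hzi⟩ * hmul P -
    P.1 ⟨z⁻¹, hzi⟩ * hmul Q

theorem Good.aeval {R : Type*} [CommRing R] [Algebra R F] {y : F} (hy : Good θ₀ V t y) (q : R[X])
    (hq : ∀ k, Good θ₀ V t (algebraMap R F (q.coeff k))) :
    Good θ₀ V t (Polynomial.aeval y q) := by
  have hone : Good θ₀ V t (1 : F) := by simpa using good_algebraMap (θ₀ := θ₀) (V := V) (t := t) 1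
  rw [Polynomial.aeval_eq_sum_range]
  refine Finset.sum_induction _ (Good θ₀ V t) (fun _ _ => Good.add)
    (by simpa using good_algebraMap (θ₀ := θ₀) (V := V) (t := t) 0) fun k hk => ?_
  clear hk
  rw [Algebra.smul_def]
  refine Good.mul hθ₀ (hq k) ?_
  induction k with
  | zero => rw [pow_zero]; exact hone
  | succ k ih => rw [pow_succ]; exact Good.mul hθ₀ ih hy

/-- A simple root of a polynomial with good coefficients is good. -/
theorem good_root (p : F[X]) (hp : ∀ k, Good θ₀ V t (p.coeff k)) {y : F} (hy : y ∈ B)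
    (hroot : p.eval y = 0) (hd0 : p.derivative.eval y ≠ 0)
    (hd : (p.derivative.eval y)⁻¹ ∈ B) : Good θ₀ V t y := by
  classical
  set n := p.natDegree + 1
  let c : ℕ → B := fun k => ⟨p.coeff k, (hp k).fst⟩
  let yB : B := ⟨y, hy⟩
  have hsum : ∑ k ∈ Finset.range n, c k * yB ^ k = 0 := Subtype.ext (by
    simp only [AddSubmonoidClass.coe_finsetSum, MulMemClass.coe_mul, SubmonoidClass.coe_pow, c, yB,
      ZeroMemClass.coe_zero]
    rw [← Polynomial.eval_eq_sum_range, hroot])
  set dB : B := ∑ k ∈ Finset.range n, c k * ((k : B) * yB ^ (k - 1))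
  have hdB : (dB : F) = p.derivative.eval y := by
    simp only [dB, AddSubmonoidClass.coe_finsetSum, MulMemClass.coe_mul, SubmonoidClass.coe_pow, c,
      yB]
    rw [Polynomial.derivative_eval,
      Polynomial.sum_over_range p (fun k => by simp)]
    refine Finset.sum_congr rfl fun k _ => ?_
    push_cast
    ring
  refine ⟨hy, fun Q => ?_⟩
  choose H hH eH using fun k => (hp k).snd Q
  let D : Disc V B θ₀ → Ω := fun P => ∑ k ∈ Finset.range n,
    Q.1 (c k) * ∑ i ∈ Finset.range k, P.1 yB ^ i * Q.1 yB ^ (k - 1 - i)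
  have hev : ∀ b, V.valuation (Q.1 b) ≤ 1 := fun b =>
    ((DiscFun.ev (V := V) (θ₀ := θ₀) b).bounds hθ₀).1 Q
  have hD : DiscFun V B θ₀ D := by
    refine DiscFun.sum _ (fun k P => Q.1 (c k) * ∑ i ∈ Finset.range k,
      P.1 yB ^ i * Q.1 yB ^ (k - 1 - i)) fun k _ => ?_
    refine DiscFun.mul (G := fun _ => Q.1 (c k)) (DiscFun.const _ (hev _)) ?_
    refine DiscFun.sum _ (fun i P => P.1 yB ^ i * Q.1 yB ^ (k - 1 - i)) fun i _ => ?_
    refine DiscFun.mul (H := fun _ => Q.1 yB ^ (k - 1 - i)) (DiscFun.evPow yB i)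
      (DiscFun.const _ ?_)
    rw [map_pow]
    exact pow_le_one' (hev _) _
  have hDQ : V.valuation (D Q) = 1 := by
    have h1 : D Q = Q.1 dB := by
      simp only [D, dB, map_sum, map_mul, map_pow, map_natCast]
      exact Finset.sum_congr rfl fun k _ => by rw [geom_sum₂_self]
    have h2 : Q.1 dB * Q.1 ⟨_, hd⟩ = 1 := by
      rw [← map_mul, ← map_one Q.1]
      exact congrArg Q.1 (Subtype.ext (by
        simp only [MulMemClass.coe_mul, OneMemClass.coe_one, hdB]
        exact mul_inv_cancel₀ hd0))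
    have h3 := congrArg V.valuation h2
    rw [map_mul, map_one] at h3
    rw [h1]
    exact le_antisymm (hev _) (h3.symm.trans_le (mul_le_of_le_one_right' (hev _)))
  have hDP : ∀ P, V.valuation (D P) = 1 := fun P => by
    rw [show D P = D Q + (D P - D Q) by ring,
      Valuation.map_add_eq_of_lt_left _ (((hD.bounds hθ₀).2 P Q).trans_eq hDQ.symm), hDQ]
  refine ⟨(fun _ => (-1 : Ω)) * (fun P => ∑ k ∈ Finset.range n, H k P * P.1 yB ^ k) * D⁻¹,
    DiscFun.mul (DiscFun.mul (DiscFun.const _ (by simp))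
      (DiscFun.sum _ (fun k P => H k P * P.1 yB ^ k) fun k _ =>
        DiscFun.mul (hH k) (DiscFun.evPow yB k))) (DiscFun.inv hD hDP), fun P => ?_⟩
  have hP : ∑ k ∈ Finset.range n, P.1 (c k) * P.1 yB ^ k = 0 := by
    simpa [map_sum, map_mul, map_pow] using congrArg P.1 hsum
  have hQ : ∑ k ∈ Finset.range n, Q.1 (c k) * Q.1 yB ^ k = 0 := by
    simpa [map_sum, map_mul, map_pow] using congrArg Q.1 hsum
  have key : (P.1 t - Q.1 t) * (∑ k ∈ Finset.range n, H k P * P.1 yB ^ k) +
      (P.1 yB - Q.1 yB) * D P = 0 := by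
    simp only [D]
    rw [Finset.mul_sum, Finset.mul_sum, ← Finset.sum_add_distrib]
    rw [← sub_zero (0 : Ω)]
    nth_rewrite 1 [← hP]
    rw [← hQ, ← Finset.sum_sub_distrib]
    refine Finset.sum_congr rfl fun k _ => ?_
    have hg := geom_sum₂_mul (P.1 yB) (Q.1 yB) k
    have e := eH k P
    rw [show (P.1 yB - Q.1 yB) * (Q.1 (c k) *
        ∑ i ∈ Finset.range k, P.1 yB ^ i * Q.1 yB ^ (k - 1 - i)) =
        Q.1 (c k) * (P.1 yB ^ k - Q.1 yB ^ k) by rw [← hg]; ring]
    linear_combination -P.1 yB ^ k * e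
  have hD0 : D P ≠ 0 := fun h => by simpa [h] using hDP P
  simp only [Pi.mul_apply, Pi.inv_apply]
  show P.1 yB - Q.1 yB = _
  rw [eq_comm, ← sub_eq_zero]
  field_simp
  linear_combination -key

/-- Difference quotients exist for every function on the disc. -/
theorem hasDD_of_good (hgood : ∀ b : B, Good θ₀ V t (b : F)) {G : Disc V B θ₀ → Ω}
    (hG : DiscFun V B θ₀ G) : HasDD t G := by
  induction hG with
  | const a ha => exact fun Q => ⟨fun _ => 0, DiscFun.const 0 (by simp), fun P => by simp⟩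
  | ev b => obtain ⟨h, hb⟩ := hgood b; exact hb
  | @add G H _ _ hG hH =>
    intro Q
    obtain ⟨G', hG', eG⟩ := hG Q
    obtain ⟨H', hH', eH⟩ := hH Q
    refine ⟨G' + H', DiscFun.add hG' hH', fun P => ?_⟩
    simp only [Pi.add_apply]
    linear_combination eG P + eH P
  | @mul G H hGd hHd hG hH =>
    intro Q
    obtain ⟨G', hG', eG⟩ := hG Q
    obtain ⟨H', hH', eH⟩ := hH Q
    refine ⟨G' * H + (fun _ => G Q) * H',
      DiscFun.add (DiscFun.mul hG' hHd)
        (DiscFun.mul (DiscFun.const _ ((hGd.bounds hθ₀).1 Q)) hH'), fun P => ?_⟩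
    simp only [Pi.add_apply, Pi.mul_apply]
    linear_combination H P * eG P + G Q * eH P
  | @inv G hGd hu hG =>
    intro Q
    obtain ⟨G', hG', eG⟩ := hG Q
    refine ⟨G' * G⁻¹ * fun _ => -(G Q)⁻¹, DiscFun.mul (DiscFun.mul hG' (DiscFun.inv hGd hu))
      (DiscFun.const _ (by rw [Valuation.map_neg, map_inv₀, hu Q, inv_one])), fun P => ?_⟩
    have h0 : ∀ P, G P ≠ 0 := fun P h => by simpa [h] using hu P
    simp only [Pi.mul_apply, Pi.inv_apply]
    rw [inv_sub_inv (h0 P) (h0 Q)]
    have hGP := h0 P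
    have hGQ := h0 Q
    field_simp
    linear_combination -eG P

/-- A function vanishing at points with distinct parameters is bounded by the product of the
parameter differences. -/
theorem val_le_prod (hgood : ∀ b : B, Good θ₀ V t (b : F)) {ι : Type*} (s : Finset ι)
    (A : ι → Disc V B θ₀) (hA : ∀ i ∈ s, ∀ j ∈ s, i ≠ j → (A i).1 t ≠ (A j).1 t)
    {G : Disc V B θ₀ → Ω} (hG : DiscFun V B θ₀ G) (h0 : ∀ i ∈ s, G (A i) = 0)
    (P : Disc V B θ₀) :
    V.valuation (G P) ≤ ∏ i ∈ s, V.valuation (P.1 t - (A i).1 t) := by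
  classical
  induction s using Finset.induction generalizing G with
  | empty => simpa using (hG.bounds hθ₀).1 P
  | insert i s hi ih =>
    obtain ⟨H, hH, eH⟩ := hasDD_of_good hθ₀ hgood hG (A i)
    have h0i := h0 i (Finset.mem_insert_self _ _)
    have hH0 : ∀ j ∈ s, H (A j) = 0 := fun j hj => by
      have e := eH (A j)
      rw [h0 j (Finset.mem_insert_of_mem hj), h0i, sub_self] at e
      exact (mul_eq_zero.mp e.symm).resolve_left (sub_ne_zero.mpr (hA j
        (Finset.mem_insert_of_mem hj) i (Finset.mem_insert_self _ _) fun h => hi (h ▸ hj)))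
    have e := eH P
    rw [h0i, sub_zero] at e
    rw [e, map_mul, Finset.prod_insert hi]
    exact mul_le_mul_right (ih (fun a ha b hb => hA a (Finset.mem_insert_of_mem ha) b
      (Finset.mem_insert_of_mem hb)) hH hH0) _

variable [IsAlgClosed K] [CharZero K] [FF.IsFF K F]

/-- On a residually generic disc every function is good for a nonconstant parameter. -/
theorem good_of_top (hB : B = ⊤) (ht : Transcendental K (t : F)) (z : F) : Good θ₀ V t z := by
  have hm : ∀ w : F, w ∈ B := fun w => (Algebra.eq_top_iff.mp hB) w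
  let E : IntermediateField K F :=
    { carrier := {w | Good θ₀ V t w}
      mul_mem' := fun ha hb => Good.mul hθ₀ ha hb
      add_mem' := fun ha hb => Good.add ha hb
      algebraMap_mem' := good_algebraMap
      inv_mem' := fun a ha => Good.inv hθ₀ ha (hm _) }
  have hle : IntermediateField.adjoin K ({(t : F)} : Set F) ≤ E :=
    IntermediateField.adjoin_simple_le_iff.mpr good_self
  have := FF.finiteDimensional_adjoin_of_transcendental' (K := K) ht
  have := FF.isSeparable_adjoin_of_charZero' (K := K) ht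
  set L := IntermediateField.adjoin K ({(t : F)} : Set F)
  have hsep := Algebra.IsSeparable.isSeparable L z
  refine good_root hθ₀ ((minpoly L z).map (algebraMap L F)) (fun k => ?_) (hm _) ?_ ?_ (hm _)
  · rw [Polynomial.coeff_map]
    exact hle ((minpoly L z).coeff k).2
  · rw [Polynomial.eval_map_algebraMap, minpoly.aeval]
  · rw [Polynomial.derivative_map, Polynomial.eval_map_algebraMap]
    exact hsep.aeval_derivative_ne_zero (minpoly.aeval _ _)

/-- On the disc of a place every function is good for a uniformizer. -/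
theorem good_of_place {P : Place K F} (hP : ∀ z, z ∈ B ↔ z ∈ P.toValuationSubring)
    (ht : P.ord (t : F) = 1) (z : B) : Good θ₀ V t (z : F) := by
  classical
  have ht0 : (t : F) ≠ 0 := fun h => by simp [h] at ht
  have htr : Transcendental K (t : F) := transcendental_of_ord_ne_zero P (by omega)
  have hfin := FF.finiteDimensional_adjoin_of_transcendental' (K := K) htr
  have hsepL := FF.isSeparable_adjoin_of_charZero' (K := K) htr
  set L := IntermediateField.adjoin K ({(t : F)} : Set F) with hLdef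
  have htP : (t : F) ∈ P.toValuationSubring := (hP _).mp t.2
  have hevt : placeEv P ⟨(t : F), htP⟩ = 0 := (evalAt_eq_zero_iff P htP ht0).mpr (by omega)
  have hunit : ∀ r : K[X], r.coeff 0 ≠ 0 →
      Polynomial.aeval (t : F) r ≠ 0 ∧ P.ord (Polynomial.aeval (t : F) r) = 0 := by
    intro r hr
    have hcoe : ((Polynomial.aeval (⟨(t : F), htP⟩ : placeAlg P) r : placeAlg P) : F) =
        Polynomial.aeval (t : F) r := (Polynomial.aeval_algHom_apply (placeAlg P).val _ r).symm
    have hev : evalAt P (Polynomial.aeval (t : F) r) = r.coeff 0 := by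
      rw [← hcoe]
      show placeEv P _ = _
      rw [← Polynomial.aeval_algHom_apply, hevt, ← Polynomial.coeff_zero_eq_aeval_zero]
    have hmem : Polynomial.aeval (t : F) r ∈ P.toValuationSubring :=
      hcoe ▸ (Polynomial.aeval (⟨(t : F), htP⟩ : placeAlg P) r).2
    have hne : Polynomial.aeval (t : F) r ≠ 0 := fun h => by
      rw [h, evalAt_zero] at hev; exact hr hev.symm
    refine ⟨hne, le_antisymm ?_ (FF.ord_nonneg_of_mem_placeRing P hmem)⟩
    by_contra hlt
    push Not at hlt
    exact hr (hev ▸ (evalAt_eq_zero_iff P hmem hne).mpr hlt)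
  have hgt : ∀ r : K[X], Good θ₀ V t (Polynomial.aeval (t : F) r) := fun r =>
    Good.aeval hθ₀ good_self r fun k => good_algebraMap _
  -- regular elements of the rational subfield are good
  have hL : ∀ a : L, (a : F) ∈ P.toValuationSubring → Good θ₀ V t (a : F) := by
    intro a ha
    obtain ⟨r, s, hrs⟩ := IntermediateField.mem_adjoin_simple_iff _ _ |>.mp a.2
    rcases eq_or_ne r 0 with hr | hr
    · rw [hrs, hr, map_zero, zero_div]; simpa using good_algebraMap (θ₀ := θ₀) (V := V) (t := t) 0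
    rcases eq_or_ne s 0 with hs | hs
    · rw [hrs, hs, map_zero, div_zero]; simpa using good_algebraMap (θ₀ := θ₀) (V := V) (t := t) 0
    obtain ⟨r', hr1, hr2⟩ := Polynomial.exists_eq_pow_rootMultiplicity_mul_and_not_dvd r hr 0
    obtain ⟨s', hs1, hs2⟩ := Polynomial.exists_eq_pow_rootMultiplicity_mul_and_not_dvd s hs 0
    rw [map_zero, sub_zero] at hr1 hr2 hs1 hs2
    rw [Polynomial.X_dvd_iff] at hr2 hs2
    set k := r.rootMultiplicity 0
    set l := s.rootMultiplicity 0
    obtain ⟨hr'0, hr'⟩ := hunit r' hr2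
    obtain ⟨hs'0, hs'⟩ := hunit s' hs2
    have heq : (a : F) = (t : F) ^ k * Polynomial.aeval (t : F) r' /
        ((t : F) ^ l * Polynomial.aeval (t : F) s') := by
      rw [hrs, hr1, hs1]; simp
    have hne : (a : F) ≠ 0 := by
      rw [heq]; exact div_ne_zero (mul_ne_zero (pow_ne_zero _ ht0) hr'0)
        (mul_ne_zero (pow_ne_zero _ ht0) hs'0)
    have hord := (FF.mem_iff_ord_nonneg P hne).mp ha
    rw [heq, FF.ord_div P (mul_ne_zero (pow_ne_zero _ ht0) hr'0)
      (mul_ne_zero (pow_ne_zero _ ht0) hs'0), P.ord_mul (pow_ne_zero _ ht0) hr'0,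
      P.ord_mul (pow_ne_zero _ ht0) hs'0, FF.ord_pow, FF.ord_pow, ht, hr', hs'] at hord
    have hkl : l ≤ k := by omega
    have : (a : F) = Polynomial.aeval (t : F) (X ^ (k - l) * r') *
        (Polynomial.aeval (t : F) s')⁻¹ := by
      rw [heq, map_mul, map_pow, Polynomial.aeval_X]
      have hp : (t : F) ^ k = (t : F) ^ l * (t : F) ^ (k - l) := by
        rw [← pow_add, Nat.add_sub_cancel' hkl]
      rw [hp]
      field_simp
    rw [this]
    refine Good.mul hθ₀ (hgt _) (Good.inv hθ₀ (hgt _) ((hP _).mpr ?_))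
    rw [FF.mem_iff_ord_nonneg P (inv_ne_zero hs'0), P.ord_inv, hs']
    simp
  obtain ⟨v, t', ht', hv, hs1, hiff⟩ := FF.exists_basePlace L ⟨htr, hfin, hsepL⟩ hLdef
  have hPv : P.restrict L = v := (hiff P).mpr (by omega)
  have hvB : ∀ a : v.toValuationSubring, ((a : L) : F) ∈ P.toValuationSubring := fun a =>
    Place.mem_restrict_iff P |>.mp (hPv.symm ▸ a.2 : (a : L) ∈ (P.restrict L).toValuationSubring)
  have hvgood : ∀ a : v.toValuationSubring, Good θ₀ V t (algebraMap v.toValuationSubring F a) :=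
    fun a => hL a (hvB a)
  obtain ⟨y, c, hy⟩ := FF.exists_isAdapted (F := F) hv
  have hint : IsIntegral v.toValuationSubring y := hy.mem
  have hyP : y ∈ P.toValuationSubring := FF.mem_place_of_mem_overRing v hy.mem hPv
  set P0 := minpoly v.toValuationSubring y
  have hygood : Good θ₀ V t y := by
    obtain ⟨b, hbu, hb⟩ := FF.ord_eval_minpoly_eq_one hv hs1 hy hPv
    have hsub : ∀ a : v.toValuationSubring,
        algebraMap v.toValuationSubring F a ∈ (placeAlg P).toSubring := hvB
    let j : v.toValuationSubring →+* placeAlg P :=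
      (algebraMap v.toValuationSubring F).codRestrict (placeAlg P).toSubring hsub
    let yP : placeAlg P := ⟨y, hyP⟩
    let cP : placeAlg P := algebraMap K (placeAlg P) (c P)
    set p : (placeAlg P)[X] := P0.map j
    obtain ⟨H, hH⟩ := Polynomial.X_sub_C_dvd_sub_C_eval (a := cP) (p := p)
    let ι : placeAlg P →+* F := (placeAlg P).toSubring.subtype
    have hjF : ι.comp j =
        algebraMap v.toValuationSubring F := RingHom.ext fun a => rfl
    have hcoeF : ∀ q : (placeAlg P)[X], ((q.eval yP : placeAlg P) : F) =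
        (q.map ι).eval y := fun q => by
      rw [Polynomial.eval_map]
      exact (Polynomial.eval₂_at_apply ι yP).symm
    have hpy : p.eval yP = 0 := Subtype.ext (by
      rw [hcoeF, Polynomial.map_map, hjF,
        Polynomial.eval_map_algebraMap, minpoly.aeval]
      rfl)
    have hyc0 : y - algebraMap K F (c P) ≠ 0 := fun h => by
      simpa [h] using hy.ord_eq_one P hPv
    have hpc : P.ord ((p.eval cP : placeAlg P) : F) = 1 := by
      have h1 : p.eval cP = j (P0.eval (algebraMap K v.toValuationSubring (c P))) := by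
        rw [show cP = j (algebraMap K v.toValuationSubring (c P)) from Subtype.ext (by
          show algebraMap K F (c P) = algebraMap L F (algebraMap K L (c P))
          rw [← IsScalarTower.algebraMap_apply]), Polynomial.eval_map_apply]
      rw [h1]
      show P.ord (algebraMap L F ((P0.eval _ : v.toValuationSubring) : L)) = 1
      rw [hb, map_mul]
      have hb0 : ((b : v.toValuationSubring) : L) ≠ 0 := by simpa using hbu.ne_zero
      have ht'0 : t' ≠ 0 := fun h => by simp [h] at hs1
      have hordb : P.ord (algebraMap L F ((b : v.toValuationSubring) : L)) = 0 := by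
        rw [Place.ord_restrict, hPv, ← hbu.unit_spec, v.ord_coe_unit, mul_zero]
      rw [P.ord_mul (by simpa using ht'0) (by simpa using hb0), hordb,
        IntermediateField.algebraMap_apply, ht', ht, add_zero]
    have hH1 := congrArg (Polynomial.eval yP) hH
    rw [Polynomial.eval_sub, Polynomial.eval_C, hpy, Polynomial.eval_mul, Polynomial.eval_sub,
      Polynomial.eval_X, Polynomial.eval_C, zero_sub] at hH1
    have hH2 := congrArg (fun w : placeAlg P => P.ord (w : F)) hH1
    simp only [NegMemClass.coe_neg, MulMemClass.coe_mul, AddSubgroupClass.coe_sub] at hH2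
    rw [FF.ord_neg, hpc] at hH2
    have hH0 : ((H.eval yP : placeAlg P) : F) ≠ 0 := fun h => by simp [h] at hH2
    rw [show (cP : F) = algebraMap K F (c P) from rfl, show (yP : F) = y from rfl,
      P.ord_mul hyc0 hH0, hy.ord_eq_one P hPv] at hH2
    have hevH : placeEv P (H.eval yP) ≠ 0 := fun h => by
      have := (evalAt_eq_zero_iff P (H.eval yP).2 hH0).mp h
      omega
    have hder : p.derivative = H + (X - C cP) * H.derivative := by
      have := congrArg Polynomial.derivative hH
      simpa using this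
    have hevd : placeEv P (p.derivative.eval yP) ≠ 0 := by
      rw [hder, Polynomial.eval_add, Polynomial.eval_mul, Polynomial.eval_sub, Polynomial.eval_X,
        Polynomial.eval_C, map_add, map_mul, map_sub, AlgHom.commutes]
      have : placeEv P yP = c P := by
        refine evalAt_of_val_lt P hyP ?_
        rw [FF.val_eq_exp P hyc0, hy.ord_eq_one P hPv, ← WithZero.exp_zero]
        exact WithZero.exp_lt_exp.mpr (by norm_num)
      rw [this, Algebra.algebraMap_self_apply, sub_self, zero_mul, add_zero]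
      exact hevH
    have hdF : ((p.derivative.eval yP : placeAlg P) : F) =
        (P0.map (algebraMap v.toValuationSubring F)).derivative.eval y := by
      rw [hcoeF, ← Polynomial.derivative_map, Polynomial.map_map,
        hjF]
    have hd0 : ((p.derivative.eval yP : placeAlg P) : F) ≠ 0 := fun h => hevd (by
      show evalAt P _ = 0
      rw [h, evalAt_zero])
    refine good_root hθ₀ (P0.map (algebraMap v.toValuationSubring F)) (fun k => ?_)
      ((hP _).mpr hyP) ?_ (by rw [← hdF]; exact hd0) ?_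
    · rw [Polynomial.coeff_map]; exact hvgood _
    · rw [Polynomial.eval_map_algebraMap, minpoly.aeval]
    · rw [← hdF, hP, FF.mem_iff_ord_nonneg P (inv_ne_zero hd0), P.ord_inv, neg_nonneg]
      by_contra hlt
      exact hevd ((evalAt_eq_zero_iff P (p.derivative.eval yP).2 hd0).mpr (not_le.mp hlt))
  -- the semilocal ring is good, and the local ring consists of fractions of it
  have hover : ∀ w ∈ FF.overRing v F, Good θ₀ V t w := by
    intro w hw
    rw [← FF.adjoin_eq_overRing hv hs1 hy, Algebra.adjoin_singleton_eq_range_aeval] at hw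
    obtain ⟨q, rfl⟩ := hw
    exact Good.aeval hθ₀ hygood q fun k => hvgood _
  rcases eq_or_ne (z : F) 0 with hz | hz
  · rw [hz]; simpa using good_algebraMap (θ₀ := θ₀) (V := V) (t := t) 0
  have hzP := (FF.mem_iff_ord_nonneg P hz).mp ((hP _).mp z.2)
  obtain ⟨d, hd0, hd⟩ := FF.exists_forall_ord_eq (FF.placesAbove hv F)
    (fun w => if w = P then 0 else max 0 (-w.ord (z : F)))
  have hdmem : d ∈ FF.overRing v F := (FF.mem_overRing_iff_ord hv hd0).mpr fun w hw => by
    rw [hd w hw]; split_ifs <;> simp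
  have hzd : (z : F) * d ∈ FF.overRing v F :=
    (FF.mem_overRing_iff_ord hv (mul_ne_zero hz hd0)).mpr fun w hw => by
      rw [w.ord_mul hz hd0, hd w hw]
      split_ifs with h
      · subst h; omega
      · omega
  have hdinv : d⁻¹ ∈ B := (hP _).mpr (by
    rw [FF.mem_iff_ord_nonneg P (inv_ne_zero hd0), P.ord_inv,
      hd P ((FF.mem_placesAbove hv).mpr hPv), if_pos rfl]
    simp)
  rw [show (z : F) = (z : F) * d * d⁻¹ by field_simp]
  exact Good.mul hθ₀ (hover _ hzd) (Good.inv hθ₀ (hover _ hdmem) hdinv)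

end FLTAgent.MW.Loc
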