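import Fermat.Agent.MW.Defs

/-!
# Plücker vectors over a valued field

The size `nrm` of vectors and Plücker vectors: Cramer's rule gives `plucker_snoc_le` and
`le_plucker_snoc` (adding a vector multiplies the size by the largest value of an integral form
vanishing at the previous ones), with `exists_orth`, invariance under permutations and the square
case `val_detAppend`.
-/

set_option autoImplicit false

noncomputable section

namespace FLTAgent.MW.Loc

variable {Ω : Type*} [Field Ω] (V : ValuationSubring Ω)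

section Nrm

variable {ι : Type*} [Fintype ι]

theorem le_nrm (w : ι → Ω) (i : ι) : V.valuation (w i) ≤ nrm V w :=
  Finset.le_sup (f := fun i => V.valuation (w i)) (Finset.mem_univ i)

theorem nrm_le {w : ι → Ω} {b : V.ValueGroup} (h : ∀ i, V.valuation (w i) ≤ b) : nrm V w ≤ b :=
  Finset.sup_le fun i _ => h i

theorem exists_eq_nrm [Nonempty ι] (w : ι → Ω) : ∃ i, V.valuation (w i) = nrm V w := by
  obtain ⟨i, -, hi⟩ := Finset.exists_max_image Finset.univ (fun i => V.valuation (w i))
    Finset.univ_nonempty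
  exact ⟨i, le_antisymm (le_nrm V w i) (nrm_le V fun j => hi j (Finset.mem_univ j))⟩

theorem nrm_zero : nrm V (0 : ι → Ω) = 0 :=
  le_antisymm (nrm_le V fun i => by simp) zero_le

theorem nrm_eq_zero_iff {w : ι → Ω} : nrm V w = 0 ↔ w = 0 := by
  refine ⟨fun h => funext fun i => ?_, fun h => h ▸ nrm_zero V⟩
  have := le_nrm V w i
  rw [h, le_zero_iff, map_eq_zero] at this
  exact this

theorem nrm_const_mul (c : Ω) (w : ι → Ω) :
    nrm V (fun i => c * w i) = V.valuation c * nrm V w := by
  rcases isEmpty_or_nonempty ι with h | h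
  · rw [Subsingleton.elim w 0, nrm_zero, mul_zero,
      Subsingleton.elim (fun i => c * (0 : ι → Ω) i) (0 : ι → Ω), nrm_zero]
  obtain ⟨i, hi⟩ := exists_eq_nrm V w
  refine le_antisymm (nrm_le V fun j => ?_) ?_
  · rw [map_mul]
    exact mul_le_mul_right (le_nrm V w j) _
  · rw [← hi, ← map_mul]
    exact le_nrm V (fun i => c * w i) i

theorem nrm_smul (c : Ω) (w : ι → Ω) : nrm V (c • w) = V.valuation c * nrm V w :=
  nrm_const_mul V c w

theorem val_dot_le (a w : ι → Ω) : V.valuation (∑ i, a i * w i) ≤ nrm V a * nrm V w :=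
  Valuation.map_sum_le _ fun i _ => by
    rw [map_mul]; exact mul_le_mul' (le_nrm V a i) (le_nrm V w i)

end Nrm

theorem val_neg_one_pow (k : ℕ) : V.valuation ((-1 : Ω) ^ k) = 1 := by
  rw [map_pow, Valuation.map_neg, map_one, one_pow]

theorem val_sign {p : ℕ} (σ : Equiv.Perm (Fin p)) :
    V.valuation ((Equiv.Perm.sign σ : ℤ) : Ω) = 1 := by
  rcases Int.units_eq_one_or (Equiv.Perm.sign σ) with h | h <;> simp [h, Valuation.map_neg]

theorem nrm_wedge_le {n : ℕ} (u w : Fin n → Ω) : nrm V (wedge u w) ≤ nrm V u * nrm V w := by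
  refine nrm_le V fun ab => (Valuation.map_sub _ _ _).trans (max_le ?_ ?_) <;> rw [map_mul] <;>
    exact mul_le_mul' (le_nrm V u _) (le_nrm V w _)

theorem nrm_plucker_zero {n : ℕ} (w : Fin 0 → Fin n → Ω) : nrm V (plucker w) = 1 := by
  refine le_antisymm (nrm_le V fun J => ?_) ?_
  · simp [plucker, Matrix.det_isEmpty]
  · have := le_nrm V (plucker w) Fin.elim0
    simpa [plucker, Matrix.det_isEmpty] using this

/-- Few vectors have an orthogonal vector of size one. -/
theorem exists_orth {n p : ℕ} (hp : p < n) (w : Fin p → Fin n → Ω) :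
    ∃ a : Fin n → Ω, nrm V a = 1 ∧ ∀ i, ∑ x, a x * w i x = 0 := by
  let L : (Fin n → Ω) →ₗ[Ω] (Fin p → Ω) :=
    { toFun := fun a i => ∑ x, a x * w i x
      map_add' := fun a b => funext fun i => by simp [add_mul, Finset.sum_add_distrib]
      map_smul' := fun c a => funext fun i => by simp [Finset.mul_sum, mul_assoc] }
  have hker : LinearMap.ker L ≠ ⊥ := LinearMap.ker_ne_bot_of_finrank_lt (by simpa using hp)
  obtain ⟨a, ha, ha0⟩ := Submodule.exists_mem_ne_zero_of_ne_bot hker
  have : Nonempty (Fin n) := ⟨⟨p, hp⟩⟩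
  obtain ⟨x, hx⟩ := exists_eq_nrm V a
  have hax : a x ≠ 0 := fun h => ha0 ((nrm_eq_zero_iff V).mp (by rw [← hx, h, map_zero]))
  refine ⟨(a x)⁻¹ • a, ?_, fun i => ?_⟩
  · rw [nrm_smul, ← hx, map_inv₀, inv_mul_cancel₀ ((Valuation.ne_zero_iff _).mpr hax)]
  · have h := congrFun (LinearMap.mem_ker.mp (Submodule.smul_mem _ (a x)⁻¹ ha)) i
    exact h

section Cramer

variable {n e : ℕ} (A : Fin e → Fin n → Ω) (P : Fin n → Ω)

/-- Adding a point multiplies the Plücker size by at most the values of integral forms vanishing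
at the previous points. -/
theorem plucker_snoc_le (β : V.ValueGroup)
    (hβ : ∀ a : Fin n → Ω, nrm V a ≤ 1 → (∀ i, ∑ x, a x * A i x = 0) →
      V.valuation (∑ x, a x * P x) ≤ β) :
    nrm V (plucker (Fin.snoc A P : Fin (e + 1) → Fin n → Ω)) ≤ nrm V (plucker A) * β := by
  refine nrm_le V fun J => ?_
  let M : (Fin n → Ω) → Matrix (Fin (e + 1)) (Fin (e + 1)) Ω := fun R =>
    Matrix.of fun i j => (Fin.snoc A R : Fin (e + 1) → Fin n → Ω) i (J j)
  let cof : Fin (e + 1) → Ω := fun j =>
    (-1) ^ ((Fin.last e : ℕ) + (j : ℕ)) *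
      ((Matrix.of fun i j => A i (J j)).submatrix id j.succAbove).det
  let a : Fin n → Ω := fun x => ∑ j, if J j = x then cof j else 0
  have hM : ∀ R, (M R).det = ∑ x, a x * R x := fun R => by
    rw [Matrix.det_succ_row (M R) (Fin.last e)]
    simp only [a, Finset.sum_mul, ite_mul, zero_mul]
    rw [Finset.sum_comm]
    refine Finset.sum_congr rfl fun j _ => ?_
    rw [Finset.sum_ite_eq, if_pos (Finset.mem_univ _)]
    have h : (M R).submatrix (Fin.last e).succAbove j.succAbove =
        (Matrix.of fun i j => A i (J j)).submatrix id j.succAbove := by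
      ext i k
      simp [M, Fin.succAbove_last]
    rw [h]
    simp only [cof, M, Matrix.of_apply, Fin.snoc_last]
    ring
  have hcof : ∀ j, V.valuation (cof j) ≤ nrm V (plucker A) := fun j => by
    simp only [cof, map_mul, val_neg_one_pow, one_mul]
    exact le_nrm V (plucker A) (fun k => J (j.succAbove k))
  have ha : nrm V a ≤ nrm V (plucker A) := nrm_le V fun x => Valuation.map_sum_le _ fun j _ => by
    split_ifs
    · exact hcof j
    · simp
  have hvan : ∀ i, ∑ x, a x * A i x = 0 := fun i => by
    rw [← hM]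
    refine Matrix.det_zero_of_row_eq (Fin.castSucc_lt_last i).ne ?_
    ext j
    simp [M]
  change V.valuation (M P).det ≤ _
  rw [hM]
  rcases eq_or_ne a 0 with ha0 | ha0
  · simp [ha0]
  have : Nonempty (Fin n) := ⟨J 0⟩
  obtain ⟨x, hx⟩ := exists_eq_nrm V a
  have hax : a x ≠ 0 := fun h => ha0 ((nrm_eq_zero_iff V).mp (by rw [← hx, h, map_zero]))
  have h := hβ (fun y => (a x)⁻¹ * a y)
    (by rw [nrm_const_mul, ← hx, map_inv₀, inv_mul_cancel₀ ((Valuation.ne_zero_iff _).mpr hax)])
    (fun i => by simp only [mul_assoc, ← Finset.mul_sum, hvan i, mul_zero])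
  simp only [mul_assoc, ← Finset.mul_sum, map_mul, map_inv₀] at h
  rw [inv_mul_le_iff₀ (zero_lt_iff.mpr ((Valuation.ne_zero_iff _).mpr hax)), hx] at h
  exact h.trans (mul_le_mul_left ha _)

/-- An integral form vanishing at the previous points bounds the Plücker size from below. -/
theorem le_plucker_snoc {a : Fin n → Ω} (ha : nrm V a ≤ 1)
    (hA : ∀ i, ∑ x, a x * A i x = 0) :
    nrm V (plucker A) * V.valuation (∑ x, a x * P x) ≤
      nrm V (plucker (Fin.snoc A P : Fin (e + 1) → Fin n → Ω)) := by
  rcases isEmpty_or_nonempty (Fin e → Fin n) with hJ | hJ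
  · rw [Subsingleton.elim (plucker A) 0, nrm_zero, zero_mul]; exact zero_le
  obtain ⟨J0, hJ0⟩ := exists_eq_nrm V (plucker A)
  set W : Fin (e + 1) → Fin n → Ω := Fin.snoc A P
  let M : Fin n → Matrix (Fin (e + 1)) (Fin (e + 1)) Ω := fun x =>
    Matrix.of fun i j => W i ((Fin.snoc J0 x : Fin (e + 1) → Fin n) j)
  have key : ∑ x, a x * (M x).det = (∑ x, a x * P x) * plucker A J0 := by
    let B : Matrix (Fin (e + 1)) (Fin (e + 1)) Ω :=
      Matrix.of fun i j => (Fin.snoc (fun j => W i (J0 j)) 0 : Fin (e + 1) → Ω) j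
    have h1 : ∀ x, (M x).det = Matrix.cramer B (fun i => W i x) (Fin.last e) := fun x => by
      rw [Matrix.cramer_apply]
      congr 1
      ext i j
      refine Fin.lastCases ?_ (fun k => ?_) j
      · simp [M]
      · simp [M, B, (Fin.castSucc_lt_last k).ne]
    have h2 : ∑ x, a x * (M x).det =
        Matrix.cramer B (∑ x, a x • fun i => W i x) (Fin.last e) := by
      simp only [map_sum, map_smul, Finset.sum_apply, Pi.smul_apply, smul_eq_mul, h1]
    rw [h2, Matrix.cramer_apply, Matrix.det_succ_column _ (Fin.last e), Fin.sum_univ_castSucc]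
    have h3 : ∀ k : Fin e, (∑ x, a x • fun i => W i x) k.castSucc = 0 := fun k => by
      simpa [W, Finset.sum_apply] using hA k
    have h4 : (∑ x, a x • fun i => W i x) (Fin.last e) = ∑ x, a x * P x := by
      simp [W, Finset.sum_apply]
    have h5 : (B.updateCol (Fin.last e) (∑ x, a x • fun i => W i x)).submatrix
        (Fin.last e).succAbove (Fin.last e).succAbove = Matrix.of fun i j => A i (J0 j) := by
      ext i j
      simp [B, W, Fin.succAbove_last, (Fin.castSucc_lt_last j).ne]
    simp only [Matrix.updateCol_self, h3, h4, h5, mul_zero, zero_mul, Finset.sum_const_zero,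
      zero_add, Fin.val_last, Even.neg_one_pow ⟨e, rfl⟩, one_mul]
    rfl
  rw [← hJ0, mul_comm, ← map_mul, ← key]
  refine Valuation.map_sum_le _ fun x _ => ?_
  rw [map_mul]
  exact (mul_le_mul' ((le_nrm V a x).trans ha) (le_nrm V (plucker W) (Fin.snoc J0 x))).trans_eq
    (one_mul _)

end Cramer

/-- Reordering does not change the Plücker size. -/
theorem nrm_plucker_perm {n p : ℕ} (w : Fin p → Fin n → Ω) (σ : Equiv.Perm (Fin p)) :
    nrm V (plucker fun i => w (σ i)) = nrm V (plucker w) := by
  unfold nrm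
  congr 1
  funext J
  change V.valuation ((Matrix.of fun i j => w i (J j)).submatrix σ id).det = _
  rw [Matrix.det_permute, map_mul, val_sign, one_mul]
  rfl

/-- As many vectors as coordinates: the determinant. -/
theorem nrm_plucker_square {n p : ℕ} (w : Fin p → Fin n → Ω) (ε : Fin n ≃ Fin p) :
    nrm V (plucker w) = V.valuation (Matrix.of fun i => w (ε i)).det := by
  set D : Matrix (Fin n) (Fin n) Ω := Matrix.of fun i => w (ε i)
  refine le_antisymm (nrm_le V fun J => ?_) ?_
  · by_cases hJ : Function.Injective J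
    · have hτi : Function.Injective (J ∘ ε) := hJ.comp ε.injective
      let τ : Equiv.Perm (Fin n) := Equiv.ofBijective _ hτi.bijective_of_finite
      have h : (Matrix.of fun i j => w i (J j)) =
          (D.submatrix id τ).submatrix ε.symm ε.symm := by
        ext i j
        simp [D, τ]
      simp only [plucker]
      rw [h, Matrix.det_submatrix_equiv_self, Matrix.det_permute', map_mul, val_sign, one_mul]
    · obtain ⟨i, j, hij, hne⟩ := Function.not_injective_iff.mp hJ
      simp only [plucker]
      rw [Matrix.det_zero_of_column_eq hne (fun k => by simp [hij]), map_zero]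
      exact zero_le
  · have h := le_nrm V (plucker w) ε.symm
    have h2 : (Matrix.of fun i j => w i (ε.symm j)) = D.submatrix ε.symm ε.symm := by
      ext i j
      simp [D]
    simp only [plucker] at h
    rwa [h2, Matrix.det_submatrix_equiv_self] at h

/-- The determinant of appended families as a Plücker size, in either order. -/
theorem val_detAppend {n k e : ℕ} (h : k + e = n) (u : Fin k → Fin n → Ω)
    (w : Fin e → Fin n → Ω) :
    V.valuation (detAppend h u w) = nrm V (plucker (Fin.append w u)) := by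
  let ρ : Fin n ≃ Fin (k + e) := (finCongr h).symm
  let ε : Fin n ≃ Fin (e + k) := ρ.trans finAddFlip
  rw [nrm_plucker_square V _ ε]
  have : ∀ r : Fin (k + e), Fin.append w u (finAddFlip r) = Fin.append u w r := fun r => by
    refine Fin.addCases (fun l => ?_) (fun l => ?_) r
    · simp
    · simp
  have h2 : (fun i => Fin.append w u (ε i)) = fun i => Fin.append u w (Fin.cast h.symm i) :=
    funext fun i => this _
  rw [h2]
  rfl

/-- Products over the pairs of `Fin (e + 1)`. -/
theorem prod_pairs_succ {M : Type*} [CommMonoid M] (e : ℕ) (g : Fin (e + 1) → Fin (e + 1) → M) :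
    ∏ p ∈ Finset.univ.filter (fun p : Fin (e + 1) × Fin (e + 1) => p.1 < p.2), g p.1 p.2 =
      (∏ p ∈ Finset.univ.filter (fun p : Fin e × Fin e => p.1 < p.2),
          g p.1.castSucc p.2.castSucc) * ∏ i : Fin e, g i.castSucc (Fin.last e) := by
  rw [Finset.prod_filter, Finset.prod_filter, Fintype.prod_prod_type, Fintype.prod_prod_type,
    Fin.prod_univ_castSucc, ← Finset.prod_mul_distrib]
  have hlast : ∏ q : Fin (e + 1), (if Fin.last e < q then g (Fin.last e) q else 1) = 1 :=
    Finset.prod_eq_one fun q _ => if_neg (not_lt.mpr q.le_last)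
  rw [hlast, mul_one]
  refine Finset.prod_congr rfl fun i _ => ?_
  rw [Fin.prod_univ_castSucc, if_pos (Fin.castSucc_lt_last i)]
  simp only [Fin.castSucc_lt_castSucc_iff]

end FLTAgent.MW.Loc
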