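import Fermat.Agent.MW.LocalSec
import Fermat.Agent.FF.PlacesMain

/-!
# The local ring of a point

A point `φ : reg →ₐ[K] Ω` has a local ring `B` (all of `F`, or the ring of a place) with an
integral extension `θ` of `φ` (`PLoc`, `exists_ploc`).  Dividing by a largest coordinate of level
`m` lands in `B`, so `nrm_pvec_mul`: the size at level `c·m` is the `c`-th power of that at level
`m`; and a point at distance `< 1` has the same base coordinate and the same `B`, congruent to `θ`
(`exists_near`, as the functions of level `m` separate places and generate `F`).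
-/

set_option autoImplicit false
set_option linter.unusedSectionVars false

noncomputable section

open AlgebraicCurve

namespace FLTAgent.MW.Loc

variable {K F : Type*} [Field K] [Field F] [Algebra K F] [IsAlgClosed K] [CharZero K]
  [FF.IsFF K F] {Ω : Type*} [Field Ω] [Algebra K Ω] (T : Frame K F)

section RR

/-- In large degree some element has the largest allowed pole at a given place. -/
theorem exists_exact (D : Divisor K F) (hD : 2 * (genusFF K F : ℤ) ≤ Divisor.degree D)
    (P : Place K F) : ∃ f ∈ riemannRochSpace D, f ≠ 0 ∧ P.ord f = -D P := by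
  classical
  have hdeg : Divisor.degree (D - Finsupp.single P 1) = Divisor.degree D - 1 := by
    rw [map_sub, FF.degree_single_one]
  have h1 := FF.ell_eq_of_large (D := D) (by omega)
  have h2 := FF.ell_eq_of_large (D := D - Finsupp.single P 1) (by omega)
  have hlt : ¬ riemannRochSpace D ≤ riemannRochSpace (D - Finsupp.single P 1) := fun h => by
    have := Submodule.finrank_mono h
    rw [show Module.finrank K (riemannRochSpace D) = FF.ell D from rfl,
      show Module.finrank K (riemannRochSpace (D - Finsupp.single P 1)) =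
        FF.ell (D - Finsupp.single P 1) from rfl] at this
    omega
  obtain ⟨f, hf, hf'⟩ := SetLike.not_le_iff_exists.mp hlt
  have hf0 : f ≠ 0 := fun h => hf' (h ▸ Submodule.zero_mem _)
  refine ⟨f, hf, hf0, le_antisymm ?_ (FF.ord_of_mem_riemannRochSpace hf hf0 P)⟩
  by_contra hlt'
  refine hf' (mem_riemannRochSpace_iff.mpr fun v => Or.inr ?_)
  rcases eq_or_ne v P with rfl | hv
  · rw [Finsupp.sub_apply, Finsupp.single_eq_same]; omega
  · rw [Finsupp.sub_apply, Finsupp.single_eq_of_ne hv, sub_zero]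
    exact FF.ord_of_mem_riemannRochSpace hf hf0 v

theorem exists_exact_sub (P P' : Place K F) :
    ∃ f ∈ T.V T.m, f ≠ 0 ∧ -(Finsupp.single T.O (T.m : ℤ) P) + 1 ≤ P.ord f ∧
      P'.ord f = -(Finsupp.single T.O (T.m : ℤ) - Finsupp.single P (1 : ℤ)) P' := by
  classical
  set D := Finsupp.single T.O (T.m : ℤ) - Finsupp.single P (1 : ℤ) with hD
  have hm := T.hm
  have hdeg : Divisor.degree D = (T.m : ℤ) - 1 := by
    rw [hD, map_sub, FF.degree_single_one, Divisor.degree_single, FF.deg_eq_one T.O]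
    simp
  obtain ⟨f, hf, hf0, hord⟩ := exists_exact D (by omega) P'
  refine ⟨f, ?_, hf0, ?_, hord⟩
  · refine FF.riemannRochSpace_mono (fun v => ?_) hf
    rw [hD, Finsupp.sub_apply]
    rcases eq_or_ne v P with rfl | hv
    · simp
    · simp [Finsupp.single_eq_of_ne hv]
  · have := FF.ord_of_mem_riemannRochSpace hf hf0 P
    rw [hD, Finsupp.sub_apply, Finsupp.single_eq_same] at this
    omega

theorem exists_pole_exact (L : ℕ) (hL : 2 * genusFF K F ≤ L) :
    ∃ f ∈ T.V L, f ≠ 0 ∧ T.O.ord f = -(L : ℤ) := by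
  obtain ⟨f, hf, hf0, hord⟩ := exists_exact (Finsupp.single T.O (L : ℤ))
    (by rw [Divisor.degree_single, FF.deg_eq_one T.O]; simp only [Nat.cast_one, mul_one]; omega) T.O
  exact ⟨f, hf, hf0, by simpa using hord⟩

theorem poleDivisor_eq {L : ℕ} {f : F} (hf : f ∈ T.V L) (hf0 : f ≠ 0)
    (hord : T.O.ord f = -(L : ℤ)) :
    (FF.poleDivisor f : Divisor K F) = Finsupp.single T.O (L : ℤ) := by
  ext v
  rw [FF.poleDivisor_apply]
  rcases eq_or_ne v T.O with rfl | hv
  · rw [Finsupp.single_eq_same, hord]; omega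
  · have := FF.ord_of_mem_riemannRochSpace hf hf0 v
    rw [Finsupp.single_eq_of_ne hv] at this ⊢
    omega

theorem transcendental_of_ord_ne_zero {f : F} (P : Place K F) (h : P.ord f ≠ 0) :
    Transcendental K f := fun halg => by
  obtain ⟨c, rfl⟩ := FF.mem_range_of_not_transcendental' (not_not_intro halg)
  exact h (FF.ord_algebraMap P c)

/-- A field containing functions with exact poles of orders `m` and `m - 1` is everything. -/
theorem eq_top_of_mem (E : IntermediateField K F) {u w : F} (hu : u ∈ T.V T.m) (hu0 : u ≠ 0)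
    (hou : T.O.ord u = -(T.m : ℤ)) (hw : w ∈ T.V (T.m - 1)) (hw0 : w ≠ 0)
    (how : T.O.ord w = -((T.m - 1 : ℕ) : ℤ)) (huE : u ∈ E) (hwE : w ∈ E) : E = ⊤ := by
  have hm := T.hm
  have key : ∀ {L : ℕ} {f : F}, 0 < L → f ∈ T.V L → f ≠ 0 → T.O.ord f = -(L : ℤ) → f ∈ E →
      Module.finrank E F ∣ L := by
    intro L f hL hf hf0 hord hfE
    have htr := transcendental_of_ord_ne_zero T.O (f := f) (by omega)
    have := FF.isSeparable_adjoin_of_charZero' htr
    have hdeg := FF.degree_poleDivisor (K := K) htr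
    rw [poleDivisor_eq T hf hf0 hord, Divisor.degree_single, FF.deg_eq_one T.O] at hdeg
    have hle : IntermediateField.adjoin K ({f} : Set F) ≤ E :=
      IntermediateField.adjoin_simple_le_iff.mpr hfE
    have := IntermediateField.relfinrank_mul_finrank_top hle
    refine Dvd.intro_left _ (this.trans ?_)
    simpa using hdeg.symm
  have h1 : Module.finrank E F = 1 := by
    have ha := key (by omega) hu hu0 hou huE
    have hb := key (by omega) hw hw0 how hwE
    have := Nat.dvd_sub ha hb
    rw [show T.m - (T.m - 1) = 1 by omega] at this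
    exact Nat.dvd_one.mp this
  exact IntermediateField.finrank_eq_one_iff_eq_top.mp h1

/-- Every function is a quotient of functions regular away from the base place. -/
theorem exists_mul_mem_reg (z : F) : ∃ g : F, g ∈ T.reg ∧ g ≠ 0 ∧ z * g ∈ T.reg := by
  classical
  set D : Divisor K F := (FF.poleDivisor z : Divisor K F)
  set n : ℕ := (2 * (genusFF K F : ℤ) + Divisor.degree D).toNat
  have hdeg : Divisor.degree (Finsupp.single T.O (n : ℤ) - D) = (n : ℤ) - Divisor.degree D := by
    rw [map_sub, Divisor.degree_single, FF.deg_eq_one T.O]; simp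
  have hn : 2 * (genusFF K F : ℤ) + Divisor.degree D ≤ n := Int.self_le_toNat _
  obtain ⟨g, hg, hg0, -⟩ := exists_exact (Finsupp.single T.O (n : ℤ) - D) (by omega) T.O
  have hb : ∀ P : Place K F, P ≠ T.O → max 0 (-P.ord z) ≤ P.ord g := fun P hP => by
    have := FF.ord_of_mem_riemannRochSpace hg hg0 P
    rw [Finsupp.sub_apply, Finsupp.single_eq_of_ne hP, FF.poleDivisor_apply] at this
    omega
  refine ⟨g, fun P hP => ?_, hg0, fun P hP => ?_⟩
  · exact (FF.mem_iff_ord_nonneg P hg0).mpr (le_trans (le_max_left _ _) (hb P hP))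
  · rcases eq_or_ne z 0 with rfl | hz
    · rw [zero_mul]; exact zero_mem _
    · rw [FF.mem_iff_ord_nonneg P (mul_ne_zero hz hg0), P.ord_mul hz hg0]
      have := hb P hP
      omega

end RR

/-- The ring of a place as a subalgebra. -/
def placeAlg (P : Place K F) : Subalgebra K F :=
  { P.toValuationSubring.toSubring.toSubsemiring with algebraMap_mem' := P.algebraMap_mem' }

theorem mem_placeAlg (P : Place K F) (z : F) : z ∈ placeAlg P ↔ z ∈ P.toValuationSubring := Iff.rfl

/-- Evaluation on the ring of a place. -/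
def placeEv (P : Place K F) : placeAlg P →ₐ[K] K :=
  AlgHom.mk'
    { toFun := fun z => evalAt P (z : F)
      map_one' := evalAt_algebraMap_one P
      map_mul' := fun a b => evalAt_mul P a.2 b.2
      map_zero' := evalAt_zero P
      map_add' := fun a b => evalAt_add P a.2 b.2 }
    fun c a => evalAt_smul P c a.2

variable (V : ValuationSubring Ω)

/-- A local ring of a point. -/
structure PLoc (φ : T.reg →ₐ[K] Ω) where
  B : Subalgebra K F
  θ : B →ₐ[K] Ω
  le_one : ∀ b, V.valuation (θ b) ≤ 1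
  rel : ∀ (f g : T.reg) (b : B), (f : F) = g * b → φ f = φ g * θ b
  cases : B = ⊤ ∨ ∃ P : Place K F, (∀ z, z ∈ B ↔ z ∈ P.toValuationSubring) ∧
    ∀ b : B, 0 < P.ord (b : F) → V.valuation (θ b) < 1

theorem exists_eval_of_not_injective {φ : T.reg →ₐ[K] Ω} (hinj : ¬ Function.Injective φ) :
    ∃ (P : Place K F) (hP : P ≠ T.O), ∀ f, φ f = algebraMap K Ω (T.evHom P hP f) := by
  classical
  obtain ⟨f0, hf0, hne0⟩ : ∃ f0 : T.reg, φ f0 = 0 ∧ f0 ≠ 0 := by
    rw [injective_iff_map_eq_zero] at hinj
    push Not at hinj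
    exact hinj
  have hne : (f0 : F) ≠ 0 := fun h => hne0 (Subtype.ext h)
  have hconst : ∀ f, φ f ∈ (algebraMap K Ω).range := by
    intro f
    by_cases htr : Transcendental K (f : F)
    · have halg := FF.isAlgebraic_adjoin_of_transcendental (K := K) htr
      have halg' := IntermediateField.isAlgebraic_adjoin_iff_top.mp halg
      obtain ⟨p, hp0, hp⟩ := halg'.isAlgebraic (f0 : F)
      obtain ⟨q, hq, hq0⟩ := Polynomial.exists_eq_pow_rootMultiplicity_mul_and_not_dvd p hp0 0
      rw [map_zero, sub_zero] at hq hq0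
      rw [hq, map_mul, map_pow, Polynomial.aeval_X, mul_eq_zero, pow_eq_zero_iff'] at hp
      replace hp := hp.resolve_left (fun h => hne h.1)
      rw [Polynomial.X_dvd_iff] at hq0
      have hmem : ∀ a : Algebra.adjoin K ({(f : F)} : Set F), (a : F) ∈ T.reg := fun a =>
        Algebra.adjoin_le (Set.singleton_subset_iff.mpr f.2) a.2
      obtain ⟨P0, hP0⟩ : ∃ P0 : Polynomial K,
          Polynomial.aeval (f : F) P0 = ((q.coeff 0 : Algebra.adjoin K ({(f : F)} : Set F)) : F) := by
        exact (Algebra.adjoin_singleton_eq_range_aeval K (f : F)).le (q.coeff 0).2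
      have hw : Polynomial.aeval (f0 : F) q.divX ∈ T.reg := by
        rw [Polynomial.aeval_eq_sum_range]
        refine sum_mem fun k _ => ?_
        rw [Algebra.smul_def]
        exact mul_mem (hmem _) (pow_mem f0.2 k)
      have heq : Polynomial.aeval f P0 = f0 * (-⟨_, hw⟩ : T.reg) := by
        refine Subtype.ext ?_
        rw [Polynomial.aeval_subalgebra_coe, hP0]
        have h := congrArg (Polynomial.aeval (f0 : F)) (Polynomial.X_mul_divX_add q)
        rw [map_add, map_mul, Polynomial.aeval_X, Polynomial.aeval_C, hp] at h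
        have h2 : (algebraMap (Algebra.adjoin K ({(f : F)} : Set F)) F) (q.coeff 0) =
            ((q.coeff 0 : Algebra.adjoin K ({(f : F)} : Set F)) : F) := rfl
        rw [h2] at h
        change ((q.coeff 0 : Algebra.adjoin K ({(f : F)} : Set F)) : F) =
          (f0 : F) * -(Polynomial.aeval (f0 : F) q.divX)
        linear_combination h
      have hroot : Polynomial.aeval (φ f) P0 = 0 := by
        rw [Polynomial.aeval_algHom_apply, heq, map_mul, hf0, zero_mul]
      have hP00 : P0 ≠ 0 := fun h => hq0 (Subtype.ext (by rw [← hP0, h, map_zero]; rfl))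
      exact FF.mem_range_of_not_transcendental'
        (not_not_intro ⟨P0, hP00, hroot⟩)
    · obtain ⟨c, hc⟩ := FF.mem_range_of_not_transcendental' htr
      exact ⟨c, by rw [← φ.commutes c]; exact congrArg φ (Subtype.ext hc)⟩
  choose ε hε using hconst
  let R : Subring F := T.reg.toSubring
  let I : Ideal R := RingHom.ker (φ.toRingHom : R →+* Ω)
  have hI : I ≠ ⊤ := fun h => by
    have h1 : (1 : R) ∈ I := h ▸ Submodule.mem_top
    rw [RingHom.mem_ker, map_one] at h1
    exact one_ne_zero h1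
  obtain ⟨A, hRA, hIA⟩ := Ideal.image_subset_nonunits_valuationSubring I hI
  have hker : ∀ g : T.reg, φ g = 0 → A.valuation (g : F) < 1 := fun g hg =>
    A.mem_nonunits_iff.mp (hIA ⟨g, hg, rfl⟩)
  have hA : A ≠ ⊤ := fun h => by
    have := hker f0 hf0
    subst h
    have hinv : ((f0 : F))⁻¹ ∈ (⊤ : ValuationSubring F) := ValuationSubring.mem_top _
    rw [← ValuationSubring.valuation_le_one_iff, map_inv₀,
      inv_le_one₀ (zero_lt_iff.mpr ((Valuation.ne_zero_iff _).mpr hne))] at hinv
    exact not_lt.mpr hinv this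
  obtain ⟨P, hP⟩ := FF.exists_place_eq A (fun c => hRA (T.reg.algebraMap_mem c)) hA
  have hregP : ∀ g : T.reg, (g : F) ∈ P.toValuationSubring := fun g => hP ▸ hRA g.2
  have hPO : P ≠ T.O := by
    rintro rfl
    have hm := T.hm
    obtain ⟨u, hu, hu0, hord⟩ := exists_pole_exact T T.m (by omega)
    have := hregP ⟨u, T.V_le_reg _ hu⟩
    rw [FF.mem_iff_ord_nonneg _ hu0, hord] at this
    omega
  refine ⟨P, hPO, fun f => ?_⟩
  rw [← hε f]
  congr 1
  refine (evalAt_of_val_lt P (hregP f) ?_).symm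
  have h := hker (f - algebraMap K T.reg (ε f)) (by rw [map_sub, φ.commutes, hε, sub_self])
  have hmem : (f : F) - algebraMap K F (ε f) ∈ A.nonunits := A.mem_nonunits_iff.mpr h
  by_contra hge
  push Not at hge
  rcases eq_or_ne ((f : F) - algebraMap K F (ε f)) 0 with h0 | h0
  · rw [h0, map_zero] at hge; exact not_lt.mpr hge zero_lt_one
  have hinv : ((f : F) - algebraMap K F (ε f))⁻¹ ∈ A := by
    rw [← hP, FF.mem_iff_val_le_one, map_inv₀]
    exact inv_le_one_of_one_le₀ hge
  rw [← ValuationSubring.valuation_le_one_iff, map_inv₀,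
    inv_le_one₀ (zero_lt_iff.mpr ((Valuation.ne_zero_iff _).mpr h0))] at hinv
  exact not_lt.mpr hinv h

variable (hV : ∀ c : K, algebraMap K Ω c ∈ V)

include hV

/-- Every point has a local ring. -/
theorem exists_ploc (φ : T.reg →ₐ[K] Ω) : Nonempty (PLoc T V φ) := by
  classical
  by_cases hinj : Function.Injective φ
  · have : FaithfulSMul T.reg F := (faithfulSMul_iff_algebraMap_injective _ _).mpr Subtype.val_injective
    have : IsFractionRing T.reg F := IsFractionRing.of_field T.reg F fun z => by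
      obtain ⟨g, hg, hg0, hzg⟩ := exists_mul_mem_reg T z
      exact ⟨⟨_, hzg⟩, ⟨g, hg⟩, (mul_div_cancel_right₀ z hg0).symm⟩
    let Φ : F →+* Ω := IsFractionRing.lift (g := φ.toRingHom) hinj
    have hΦ : ∀ f : T.reg, Φ f = φ f := IsFractionRing.lift_algebraMap hinj
    have hΦK : ∀ c : K, Φ (algebraMap K F c) = algebraMap K Ω c := fun c => by
      rw [← φ.commutes c, ← hΦ]; rfl
    let B : Subalgebra K F :=
      { carrier := {z | Φ z ∈ V}
        mul_mem' := fun {a b} ha hb => by simpa using mul_mem ha hb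
        add_mem' := fun {a b} ha hb => by simpa using add_mem ha hb
        algebraMap_mem' := fun c => by simpa [hΦK] using hV c }
    refine ⟨⟨B, AlgHom.mk (Φ.comp B.val.toRingHom) hΦK,
      fun b => (V.valuation_le_one_iff _).mpr b.2, fun f g b h => ?_, ?_⟩⟩
    · rw [← hΦ, ← hΦ, h, map_mul]; rfl
    · by_cases hA : V.comap Φ = ⊤
      · left
        rw [Algebra.eq_top_iff]
        intro z
        have : z ∈ V.comap Φ := hA ▸ ValuationSubring.mem_top z
        exact this
      · right
        obtain ⟨P, hP⟩ := FF.exists_place_eq (V.comap Φ) (fun c => by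
          show Φ _ ∈ V; rw [hΦK]; exact hV c) hA
        refine ⟨P, fun z => by rw [hP]; rfl, fun b hb => ?_⟩
        by_contra hlt
        push Not at hlt
        have hb0 : (b : F) ≠ 0 := fun h => by simp [h] at hb
        have hinv : (b : F)⁻¹ ∈ P.toValuationSubring := by
          rw [hP]
          show Φ _ ∈ V
          rw [map_inv₀, ← V.valuation_le_one_iff, map_inv₀]
          exact inv_le_one_of_one_le₀ hlt
        rw [FF.mem_iff_ord_nonneg P (inv_ne_zero hb0), P.ord_inv] at hinv
        omega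
  · obtain ⟨P, hP, hφ⟩ := exists_eval_of_not_injective T hinj
    refine ⟨⟨placeAlg P, (Algebra.ofId K Ω).comp (placeEv P), fun b => val_const_le V hV _,
      fun f g b h => ?_, Or.inr ⟨P, fun z => Iff.rfl, fun b hb => ?_⟩⟩⟩
    · rw [hφ, hφ]
      show algebraMap K Ω (evalAt P (f : F)) =
        algebraMap K Ω (evalAt P (g : F)) * algebraMap K Ω (evalAt P (b : F))
      rw [h, evalAt_mul P (g.2 P hP) b.2, map_mul]
    · have hb0 : (b : F) ≠ 0 := fun h => by simp [h] at hb
      show V.valuation (algebraMap K Ω (evalAt P (b : F))) < 1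
      rw [(evalAt_eq_zero_iff P b.2 hb0).mpr hb, map_zero, map_zero]
      exact zero_lt_one

variable {T V}

theorem PLoc.val_top {φ : T.reg →ₐ[K] Ω} (L : PLoc T V φ) (h : L.B = ⊤) {b : L.B}
    (hb : (b : F) ≠ 0) : V.valuation (L.θ b) = 1 := by
  have hmem : (b : F)⁻¹ ∈ L.B := (Algebra.eq_top_iff.mp h) _
  have h1 : L.θ b * L.θ ⟨_, hmem⟩ = 1 := by
    rw [← map_mul, ← map_one L.θ]
    exact congrArg L.θ (Subtype.ext (mul_inv_cancel₀ hb))
  have h2 := congrArg V.valuation h1
  rw [map_mul, map_one] at h2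
  exact le_antisymm (L.le_one b) (h2 ▸ mul_le_of_le_one_right' (L.le_one _))

theorem PLoc.val_unit {φ : T.reg →ₐ[K] Ω} (L : PLoc T V φ) {P : Place K F}
    (hP : ∀ z, z ∈ L.B ↔ z ∈ P.toValuationSubring) {b : L.B}
    (hb : (b : F) ≠ 0) (h0 : P.ord (b : F) = 0) : V.valuation (L.θ b) = 1 := by
  have hmem : (b : F)⁻¹ ∈ L.B := by
    rw [hP, FF.mem_iff_ord_nonneg P (inv_ne_zero hb), P.ord_inv]; omega
  have h1 : L.θ b * L.θ ⟨_, hmem⟩ = 1 := by
    rw [← map_mul, ← map_one L.θ]
    exact congrArg L.θ (Subtype.ext (mul_inv_cancel₀ hb))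
  have h2 := congrArg V.valuation h1
  rw [map_mul, map_one] at h2
  exact le_antisymm (L.le_one b) (h2 ▸ mul_le_of_le_one_right' (L.le_one _))

/-- An index of a largest coordinate at level `m`. -/
def IsMax (V : ValuationSubring Ω) (φ : T.reg →ₐ[K] Ω) (x : Fin (T.dim T.m)) : Prop :=
  V.valuation (T.pvec T.m φ x) = nrm V (T.pvec T.m φ)

theorem exists_isMax (φ : T.reg →ₐ[K] Ω) : ∃ x, IsMax V φ x := by
  have : Nonempty (Fin (T.dim T.m)) := by
    by_contra h
    rw [not_nonempty_iff] at h
    exact nrm_pvec_ne_zero T V hV T.m φ ((nrm_eq_zero_iff V).mpr (Subsingleton.elim _ _))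
  exact exists_eq_nrm V _

theorem basis_ne_zero (x : Fin (T.dim T.m)) : (T.basis T.m x : F) ≠ 0 := fun h =>
  (T.basis T.m).ne_zero x (Subtype.ext h)

theorem PLoc.ord_base {φ : T.reg →ₐ[K] Ω} (L : PLoc T V φ) {x : Fin (T.dim T.m)}
    (hx : IsMax V φ x) {P : Place K F} (hP : ∀ z, z ∈ L.B ↔ z ∈ P.toValuationSubring)
    (hlt : ∀ b : L.B, 0 < P.ord (b : F) → V.valuation (L.θ b) < 1) :
    P.ord (T.basis T.m x : F) = -(Finsupp.single T.O (T.m : ℤ) P) := by
  have hm := T.hm
  obtain ⟨f, hf, hf0, hord⟩ := exists_exact (Finsupp.single T.O (T.m : ℤ))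
    (by rw [Divisor.degree_single, FF.deg_eq_one T.O]; simp only [Nat.cast_one, mul_one]; omega) P
  have hge := FF.ord_of_mem_riemannRochSpace (T.basis T.m x).2 (basis_ne_zero hV x) P
  by_contra hne
  have hpos : 0 < P.ord ((T.basis T.m x : F) / f) := by
    rw [FF.ord_div P (basis_ne_zero hV x) hf0]
    omega
  have hmem : (T.basis T.m x : F) / f ∈ L.B := by
    rw [hP, FF.mem_iff_ord_nonneg P (div_ne_zero (basis_ne_zero hV x) hf0)]
    omega
  have hrel := L.rel (toReg T T.m (T.basis T.m x)) (toReg T T.m ⟨f, hf⟩) ⟨_, hmem⟩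
    (mul_div_cancel₀ _ hf0).symm
  have h1 : V.valuation (φ (toReg T T.m ⟨f, hf⟩)) ≤ nrm V (T.pvec T.m φ) :=
    val_toReg_le T V hV T.m ⟨f, hf⟩ φ
  have h2 : nrm V (T.pvec T.m φ) = V.valuation (φ (toReg T T.m ⟨f, hf⟩) * L.θ ⟨_, hmem⟩) := by
    rw [← hrel]; exact hx.symm
  rw [map_mul] at h2
  have hN := nrm_pvec_ne_zero T V hV T.m φ
  refine lt_irrefl (nrm V (T.pvec T.m φ)) ?_
  calc nrm V (T.pvec T.m φ) = _ := h2
    _ ≤ nrm V (T.pvec T.m φ) * V.valuation (L.θ ⟨_, hmem⟩) := mul_le_mul_left h1 _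
    _ < nrm V (T.pvec T.m φ) * 1 :=
      mul_lt_mul_of_pos_left (hlt ⟨_, hmem⟩ hpos) (zero_lt_iff.mpr hN)
    _ = _ := mul_one _

/-- Functions of level `c m` divided by the `c`-th power of a largest one lie in the local ring. -/
theorem PLoc.exists_div {φ : T.reg →ₐ[K] Ω} (L : PLoc T V φ) {x : Fin (T.dim T.m)}
    (hx : IsMax V φ x) (c : ℕ) (f : T.V (c * T.m)) :
    ∃ g : L.B, (f : F) = (T.basis T.m x : F) ^ c * g := by
  have hb := basis_ne_zero hV x
  have hmem : (f : F) / (T.basis T.m x : F) ^ c ∈ L.B := by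
    rcases L.cases with h | ⟨P, hP, hlt⟩
    · rw [h]; exact Algebra.mem_top
    · rcases eq_or_ne (f : F) 0 with h0 | h0
      · rw [h0, zero_div]; exact zero_mem _
      rw [hP, FF.mem_iff_ord_nonneg P (div_ne_zero h0 (pow_ne_zero _ hb)),
        FF.ord_div P h0 (pow_ne_zero _ hb), FF.ord_pow, L.ord_base hV hx hP hlt]
      have := FF.ord_of_mem_riemannRochSpace f.2 h0 P
      rcases eq_or_ne P T.O with h | h
      · subst h; rw [Finsupp.single_eq_same] at this ⊢; push_cast at this; linarith
      · rw [Finsupp.single_eq_of_ne h] at this ⊢; linarith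
  exact ⟨⟨_, hmem⟩, (mul_div_cancel₀ _ (pow_ne_zero _ hb)).symm⟩

theorem PLoc.rel_pow {φ : T.reg →ₐ[K] Ω} (L : PLoc T V φ) {x : Fin (T.dim T.m)} (c : ℕ)
    (f : T.V (c * T.m)) (g : L.B) (h : (f : F) = (T.basis T.m x : F) ^ c * g) :
    φ (toReg T _ f) = T.pvec T.m φ x ^ c * L.θ g := by
  rw [L.rel (toReg T _ f) (toReg T T.m (T.basis T.m x) ^ c) g h, map_pow]
  rfl

/-- The size at level `c m` is the power of the size at level `m`. -/
theorem nrm_pvec_mul (c : ℕ) (φ : T.reg →ₐ[K] Ω) :
    nrm V (T.pvec (c * T.m) φ) = nrm V (T.pvec T.m φ) ^ c := by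
  obtain ⟨L⟩ := exists_ploc T V hV φ
  obtain ⟨x, hx⟩ := exists_isMax (V := V) hV φ
  refine le_antisymm (nrm_le V fun y => ?_) ?_
  · obtain ⟨g, hg⟩ := L.exists_div hV hx c (T.basis (c * T.m) y)
    show V.valuation (φ (toReg T _ _)) ≤ _
    rw [L.rel_pow hV c _ g hg, map_mul, map_pow, hx]
    exact mul_le_of_le_one_right' (L.le_one g)
  · have hmem : (T.basis T.m x : F) ^ c ∈ T.V (c * T.m) := by
      have := FF.pow_mem_riemannRochSpace (T.basis T.m x).2 c
      rwa [Finsupp.smul_single, nsmul_eq_mul, ← Nat.cast_mul] at this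
    have h := val_toReg_le T V hV (c * T.m) ⟨_, hmem⟩ φ
    rw [show toReg T (c * T.m) ⟨_, hmem⟩ = toReg T T.m (T.basis T.m x) ^ c from rfl, map_pow,
      map_pow] at h
    rw [← hx]
    exact h

/-- A point close to another has values on the same local ring, congruent to those of the
other. -/
theorem exists_near {φ ψ : T.reg →ₐ[K] Ω} (L : PLoc T V φ) {x : Fin (T.dim T.m)}
    (hx : IsMax V φ x)
    (hw : nrm V (wedge (T.pvec T.m φ) (T.pvec T.m ψ)) <
      nrm V (T.pvec T.m φ) * nrm V (T.pvec T.m ψ)) :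
    IsMax V ψ x ∧ ∃ θ' : L.B →ₐ[K] Ω, (∀ b, V.valuation (θ' b - L.θ b) < 1) ∧
      ∀ (f g : T.reg) (b : L.B), (f : F) = g * b → ψ f = ψ g * θ' b := by
  classical
  have hNφ := nrm_pvec_ne_zero T V hV T.m φ
  have hNψ := nrm_pvec_ne_zero T V hV T.m ψ
  -- the base is shared
  have hxψ : IsMax V ψ x := by
    obtain ⟨x', hx'⟩ := exists_isMax (V := V) hV ψ
    refine le_antisymm (le_nrm V _ x) ?_
    by_contra hlt
    push Not at hlt
    refine not_le.mpr hw ?_
    have h1 : V.valuation (T.pvec T.m φ x' * T.pvec T.m ψ x) <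
        V.valuation (T.pvec T.m φ x * T.pvec T.m ψ x') := by
      rw [map_mul, map_mul, hx, hx']
      exact (mul_le_mul_left (le_nrm V _ x') _).trans_lt
        (mul_lt_mul_of_pos_left hlt (zero_lt_iff.mpr hNφ))
    refine le_trans ?_ (le_nrm V _ (x, x'))
    show _ ≤ V.valuation (T.pvec T.m φ x * T.pvec T.m ψ x' - T.pvec T.m φ x' * T.pvec T.m ψ x)
    rw [Valuation.map_sub_eq_of_lt_left _ h1, map_mul, hx, hx']
  obtain ⟨L'⟩ := exists_ploc T V hV ψ
  refine ⟨hxψ, ?_⟩
  -- agreement on the normalised functions of level `m`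
  have agree : ∀ (f : T.V T.m) (g : L.B) (g' : L'.B), (f : F) = (T.basis T.m x : F) * g →
      (f : F) = (T.basis T.m x : F) * g' → V.valuation (L'.θ g' - L.θ g) < 1 := by
    intro f g g' hg hg'
    have h1 : φ (toReg T _ f) = T.pvec T.m φ x * L.θ g :=
      L.rel _ (toReg T T.m (T.basis T.m x)) g hg
    have h2 : ψ (toReg T _ f) = T.pvec T.m ψ x * L'.θ g' :=
      L'.rel _ (toReg T T.m (T.basis T.m x)) g' hg'
    have h3 : V.valuation (φ (toReg T _ f) * T.pvec T.m ψ x - T.pvec T.m φ x * ψ (toReg T _ f)) <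
        nrm V (T.pvec T.m φ) * nrm V (T.pvec T.m ψ) := by
      rw [← peval_coef T T.m f φ, ← peval_coef T T.m f ψ]
      simp only [Frame.peval, Finset.sum_mul, Finset.mul_sum, ← Finset.sum_sub_distrib]
      refine lt_of_le_of_lt (Valuation.map_sum_le _ fun y _ => ?_) hw
      rw [show coef T Ω T.m f y * T.pvec T.m φ y * T.pvec T.m ψ x -
          T.pvec T.m φ x * (coef T Ω T.m f y * T.pvec T.m ψ y) =
          coef T Ω T.m f y * wedge (T.pvec T.m φ) (T.pvec T.m ψ) (y, x) by
        simp only [wedge]; ring, map_mul]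
      exact (mul_le_mul' ((le_nrm V _ y).trans (nrm_coef_le T V hV T.m f)) (le_nrm V _ _)).trans_eq
        (one_mul _)
    rw [h1, h2, show T.pvec T.m φ x * L.θ g * T.pvec T.m ψ x -
        T.pvec T.m φ x * (T.pvec T.m ψ x * L'.θ g') =
        (T.pvec T.m φ x * T.pvec T.m ψ x) * -(L'.θ g' - L.θ g) by ring, map_mul, map_mul,
      Valuation.map_neg, hx, hxψ] at h3
    exact lt_of_mul_lt_mul_left' (h3.trans_eq (mul_one _).symm)
  have div : ∀ f : T.V T.m, (∃ g : L.B, (f : F) = (T.basis T.m x : F) * g) ∧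
      ∃ g' : L'.B, (f : F) = (T.basis T.m x : F) * g' := fun f => by
    have key : ∀ {χ : T.reg →ₐ[K] Ω} (M : PLoc T V χ), IsMax V χ x →
        ∃ g : M.B, (f : F) = (T.basis T.m x : F) * g := fun M hM => by
      obtain ⟨g, hg⟩ := M.exists_div hV hM 1 ⟨f, by rw [one_mul]; exact f.2⟩
      exact ⟨g, by rw [pow_one] at hg; exact hg⟩
    exact ⟨key L hx, key L' hxψ⟩
  -- a contradiction from a residually generic point and a residually special one
  have mixed : ∀ {χ χ' : T.reg →ₐ[K] Ω} (M : PLoc T V χ) (M' : PLoc T V χ'), M.B = ⊤ →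
      IsMax V χ x → IsMax V χ' x → (∀ (f : T.V T.m) (g : M.B) (g' : M'.B),
        (f : F) = (T.basis T.m x : F) * g → (f : F) = (T.basis T.m x : F) * g' →
        V.valuation (M'.θ g' - M.θ g) < 1) →
      ∀ P : Place K F, (∀ z, z ∈ M'.B ↔ z ∈ P.toValuationSubring) →
        (∀ b : M'.B, 0 < P.ord (b : F) → V.valuation (M'.θ b) < 1) → False := by
    intro χ χ' M M' hM hmax hmax' hag P hP hlt
    obtain ⟨f, hf, hf0, hge, -⟩ := exists_exact_sub T P P
    obtain ⟨g, hg⟩ := M.exists_div hV hmax 1 ⟨f, by rw [one_mul]; exact hf⟩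
    obtain ⟨g', hg'⟩ := M'.exists_div hV hmax' 1 ⟨f, by rw [one_mul]; exact hf⟩
    rw [pow_one] at hg hg'
    have h1 := hag ⟨f, hf⟩ g g' hg hg'
    have hg0 : (g : F) ≠ 0 := fun h => hf0 (by simpa [h] using hg)
    have hg0' : (g' : F) ≠ 0 := fun h => hf0 (by simpa [h] using hg')
    have h2 := M.val_top hV hM hg0
    have h3 : V.valuation (M'.θ g') < 1 := hlt g' (by
      have h : P.ord f = P.ord ((T.basis T.m x : F) * g') := congrArg P.ord hg'
      rw [P.ord_mul (basis_ne_zero hV x) hg0', M'.ord_base hV hmax' hP hlt] at h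
      omega)
    rw [Valuation.map_sub_eq_of_lt_right _ (h3.trans_eq h2.symm), h2] at h1
    exact lt_irrefl _ h1
  rcases L.cases with h | ⟨P, hP, hlt⟩ <;> rcases L'.cases with h' | ⟨P', hP', hlt'⟩
  · -- both generic
    have hm : ∀ z : F, z ∈ L.B := fun z => (Algebra.eq_top_iff.mp h) _
    have hm' : ∀ z : F, z ∈ L'.B := fun z => (Algebra.eq_top_iff.mp h') _
    let D : F → Ω := fun z => L'.θ ⟨z, hm' z⟩ - L.θ ⟨z, hm z⟩
    have hval : ∀ z : F, z ≠ 0 → V.valuation (L.θ ⟨z, hm z⟩) = 1 ∧
        V.valuation (L'.θ ⟨z, hm' z⟩) = 1 := fun z hz => ⟨L.val_top hV h hz, L'.val_top hV h' hz⟩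
    have dmul : ∀ a b : F, D (a * b) = L'.θ ⟨a, hm' a⟩ * D b + D a * L.θ ⟨b, hm b⟩ := fun a b => by
      show L'.θ ⟨a * b, hm' _⟩ - L.θ ⟨a * b, hm _⟩ = _
      rw [show (⟨a * b, hm' _⟩ : L'.B) = ⟨a, hm' a⟩ * ⟨b, hm' b⟩ from rfl,
        show (⟨a * b, hm _⟩ : L.B) = ⟨a, hm a⟩ * ⟨b, hm b⟩ from rfl, map_mul, map_mul]
      simp only [D]
      ring
    let E : IntermediateField K F :=
      { carrier := {z | V.valuation (D z) < 1}
        mul_mem' := fun {a b} ha hb => by
          simp only [Set.mem_ofPred_eq] at ha hb ⊢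
          rw [dmul]
          refine (Valuation.map_add _ _ _).trans_lt (max_lt ?_ ?_) <;> rw [map_mul]
          · exact (mul_le_of_le_one_left' (L'.le_one _)).trans_lt hb
          · exact (mul_le_of_le_one_right' (L.le_one _)).trans_lt ha
        add_mem' := fun {a b} ha hb => by
          simp only [Set.mem_ofPred_eq] at ha hb ⊢
          have : D (a + b) = D a + D b := by
            simp only [D]
            rw [show (⟨a + b, hm' _⟩ : L'.B) = ⟨a, hm' a⟩ + ⟨b, hm' b⟩ from rfl,
              show (⟨a + b, hm _⟩ : L.B) = ⟨a, hm a⟩ + ⟨b, hm b⟩ from rfl, map_add, map_add]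
            ring
          rw [this]
          exact (Valuation.map_add _ _ _).trans_lt (max_lt ha hb)
        algebraMap_mem' := fun c => by
          simp only [Set.mem_ofPred_eq]
          have : D (algebraMap K F c) = 0 := by
            simp only [D]
            rw [show (⟨algebraMap K F c, hm' _⟩ : L'.B) = algebraMap K L'.B c from rfl,
              show (⟨algebraMap K F c, hm _⟩ : L.B) = algebraMap K L.B c from rfl,
              AlgHom.commutes, AlgHom.commutes, sub_self]
          rw [this, map_zero]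
          exact zero_lt_one
        inv_mem' := fun a ha => by
          simp only [Set.mem_ofPred_eq] at ha ⊢
          rcases eq_or_ne a 0 with rfl | ha0
          · rwa [inv_zero]
          have h0 : D (a⁻¹ * a) = 0 := by
            rw [inv_mul_cancel₀ ha0]
            simp only [D]
            rw [show (⟨(1 : F), hm' _⟩ : L'.B) = 1 from rfl,
              show (⟨(1 : F), hm _⟩ : L.B) = 1 from rfl, map_one, map_one, sub_self]
          rw [dmul, add_eq_zero_iff_eq_neg] at h0
          have h1 := congrArg V.valuation h0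
          rw [Valuation.map_neg, map_mul, map_mul, (hval a ha0).1, mul_one,
            (hval _ (inv_ne_zero ha0)).2, one_mul] at h1
          rw [← h1]
          exact ha }
    have hgen : ∀ f : T.V T.m, (f : F) / (T.basis T.m x : F) ∈ E := fun f => by
      show V.valuation (D _) < 1
      exact agree f ⟨_, hm _⟩ ⟨_, hm' _⟩ (mul_div_cancel₀ _ (basis_ne_zero hV x)).symm
        (mul_div_cancel₀ _ (basis_ne_zero hV x)).symm
    obtain ⟨c1, hc1⟩ := exists_basis_sum_eq_one T T.m
    have hb : (T.basis T.m x : F) ∈ E := by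
      have := hgen c1
      rw [show ((c1 : T.V T.m) : F) = 1 from congrArg Subtype.val hc1, one_div] at this
      simpa using inv_mem this
    have hVE : ∀ f ∈ T.V T.m, f ∈ E := fun f hf => by
      have := mul_mem (hgen ⟨f, hf⟩) hb
      rwa [div_mul_cancel₀ _ (basis_ne_zero hV x)] at this
    have hm2 := T.hm
    obtain ⟨u, hu, hu0, hou⟩ := exists_pole_exact T T.m (by omega)
    obtain ⟨w, hw', hw0, how⟩ := exists_pole_exact T (T.m - 1) (by omega)
    have hE := eq_top_of_mem T E hu hu0 hou hw' hw0 how (hVE u hu)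
      (hVE w (FF.riemannRochSpace_mono (Finsupp.single_mono (by omega)) hw'))
    refine ⟨L'.θ.comp (Subalgebra.inclusion (fun z _ => hm' z)), fun b => ?_, fun f g b hfg => ?_⟩
    · have : (b : F) ∈ E := hE ▸ IntermediateField.mem_top
      exact this
    · exact L'.rel f g ⟨b, hm' b⟩ hfg
  · exact (mixed L L' h hx hxψ agree P' hP' hlt').elim
  · exact (mixed L' L h' hxψ hx (fun f g g' hg hg' => by
      rw [Valuation.map_sub_swap]; exact agree f g' g hg' hg) P hP hlt).elim
  · -- both special
    have hPP : P = P' := by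
      by_contra hne
      obtain ⟨f, hf, hf0, hge, hord⟩ := exists_exact_sub T P P'
      obtain ⟨⟨g, hg⟩, g', hg'⟩ := div ⟨f, hf⟩
      have h1 := agree ⟨f, hf⟩ g g' hg hg'
      have hg0 : (g : F) ≠ 0 := fun h => hf0 (by simpa [h] using hg)
      have hg0' : (g' : F) ≠ 0 := fun h => hf0 (by simpa [h] using hg')
      have h3 : V.valuation (L.θ g) < 1 := hlt g (by
        have h : P.ord f = P.ord ((T.basis T.m x : F) * g) := congrArg P.ord hg
        rw [P.ord_mul (basis_ne_zero hV x) hg0, L.ord_base hV hx hP hlt] at h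
        omega)
      have h2 : V.valuation (L'.θ g') = 1 := L'.val_unit hV hP' hg0' (by
        have h : P'.ord f = P'.ord ((T.basis T.m x : F) * g') := congrArg P'.ord hg'
        rw [P'.ord_mul (basis_ne_zero hV x) hg0', L'.ord_base hV hxψ hP' hlt', hord,
          Finsupp.sub_apply, Finsupp.single_eq_of_ne (Ne.symm hne), sub_zero] at h
        omega)
      rw [Valuation.map_sub_eq_of_lt_left _ (h3.trans_eq h2.symm), h2] at h1
      exact lt_irrefl _ h1
    subst hPP
    have hle : L.B ≤ L'.B := fun z hz => (hP' z).mpr ((hP z).mp hz)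
    refine ⟨L'.θ.comp (Subalgebra.inclusion hle), fun b => ?_, fun f g b hfg => ?_⟩
    · have hbP := (hP _).mp b.2
      set e := evalAt P (b : F)
      rcases evalAt_spec P hbP with h0 | h0
      · have hb : b = algebraMap K L.B e := Subtype.ext h0
        rw [hb, AlgHom.commutes, AlgHom.commutes, sub_self, map_zero]
        exact zero_lt_one
      · set d : L.B := b - algebraMap K L.B e
        have hd : (d : F) = (b : F) - algebraMap K F e := rfl
        have h1 : V.valuation (L.θ d) < 1 := hlt d (hd ▸ h0)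
        have h2 : V.valuation (L'.θ (Subalgebra.inclusion hle d)) < 1 :=
          hlt' _ (by rw [Subalgebra.coe_inclusion, hd]; exact h0)
        rw [AlgHom.comp_apply, show L'.θ (Subalgebra.inclusion hle b) - L.θ b =
          L'.θ (Subalgebra.inclusion hle d) - L.θ d by
            simp only [d, map_sub, AlgHom.commutes]; ring]
        exact (Valuation.map_sub _ _ _).trans_lt (max_lt h2 h1)
    · exact L'.rel f g (Subalgebra.inclusion hle b) hfg

end FLTAgent.MW.Loc
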