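import Fermat.Agent.MW.Config
import Fermat.Agent.MW.LocalNrm
import Fermat.Agent.MW.LocalDefs

/-!
# Integral forms on a pool of constant points

A coordinate vector is a function with coefficients in a valued field trivial on the constants.
More than `L` constant points recover its size (`nrm_values`, through a left inverse over `K` of
the evaluation matrix), all but `L` of them attain it (`card_lt_nrm`), so sizes multiply
(`exists_mul`, `nrm_values_mul`).
-/

set_option autoImplicit false
set_option linter.unusedSectionVars false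

noncomputable section

open AlgebraicCurve

namespace FLTAgent.MW

variable {K F : Type*} [Field K] [Field F] [Algebra K F] [IsAlgClosed K] [CharZero K]
  [FF.IsFF K F] {Ω : Type*} [Field Ω] [Algebra K Ω] (T : Frame K F)

namespace Loc

/-- An element of a Riemann-Roch space as a function regular away from the base place. -/
def toReg (L : ℕ) (f : T.V L) : T.reg := ⟨(f : F), T.V_le_reg L f.2⟩

theorem toReg_sum_smul (L : ℕ) (c : Fin (T.dim L) → K) :
    toReg T L (∑ x, c x • T.basis L x) = ∑ x, c x • toReg T L (T.basis L x) :=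
  Subtype.ext (by simp [toReg])

/-- The coordinates of an element of a Riemann-Roch space. -/
def coef (Ω : Type*) [Field Ω] [Algebra K Ω] (L : ℕ) (f : T.V L) : Fin (T.dim L) → Ω :=
  fun x => algebraMap K Ω ((T.basis L).repr f x)

theorem peval_coef (L : ℕ) (f : T.V L) (φ : T.reg →ₐ[K] Ω) :
    T.peval L (coef T Ω L f) φ = φ (toReg T L f) := by
  conv_rhs => rw [← (T.basis L).sum_repr f, toReg_sum_smul]
  simp only [map_sum, map_smul]
  refine Finset.sum_congr rfl fun x _ => ?_
  rw [Algebra.smul_def]
  rfl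

theorem peval_smul (L : ℕ) (c : Ω) (a : Fin (T.dim L) → Ω) (φ : T.reg →ₐ[K] Ω) :
    T.peval L (c • a) φ = c * T.peval L a φ := by
  simp [Frame.peval, Finset.mul_sum, mul_assoc]

theorem pvec_cpt (L : ℕ) (P : Place K F) (hP : P ≠ T.O) (x : Fin (T.dim L)) :
    T.pvec L (T.cpt Ω P hP) x = algebraMap K Ω (T.vec L P x) := rfl

theorem exists_basis_sum_eq_one (L : ℕ) :
    ∃ c : T.V L, ((toReg T L c : T.reg) = 1) := by
  refine ⟨⟨1, fun v => ?_⟩, Subtype.ext rfl⟩
  rw [map_one, ← WithZero.exp_zero]
  refine WithZero.exp_le_exp.mpr ?_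
  rcases eq_or_ne v T.O with h | h
  · simp [h]
  · simp [Finsupp.single_eq_of_ne h]

variable (V : ValuationSubring Ω)

theorem val_peval_le (L : ℕ) (a : Fin (T.dim L) → Ω) (φ : T.reg →ₐ[K] Ω) :
    V.valuation (T.peval L a φ) ≤ nrm V a * nrm V (T.pvec L φ) :=
  val_dot_le V a _

variable (hV : ∀ c : K, algebraMap K Ω c ∈ V)

include hV

theorem val_const_le (c : K) : V.valuation (algebraMap K Ω c) ≤ 1 :=
  (V.valuation_le_one_iff _).mpr (hV c)

theorem val_const {c : K} (hc : c ≠ 0) : V.valuation (algebraMap K Ω c) = 1 := by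
  refine le_antisymm (val_const_le V hV c) ?_
  have h := val_const_le V hV c⁻¹
  rw [map_inv₀, map_inv₀] at h
  exact (inv_le_one₀ (zero_lt_iff.mpr ((Valuation.ne_zero_iff _).mpr (by simpa using hc)))).mp h

theorem nrm_coef_le (L : ℕ) (f : T.V L) : nrm V (coef T Ω L f) ≤ 1 :=
  nrm_le V fun _ => val_const_le V hV _

theorem val_toReg_le (L : ℕ) (f : T.V L) (φ : T.reg →ₐ[K] Ω) :
    V.valuation (φ (toReg T L f)) ≤ nrm V (T.pvec L φ) := by
  rw [← peval_coef T L f φ]
  exact (val_peval_le T V L _ φ).trans (mul_le_of_le_one_left' (nrm_coef_le T V hV L f))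

theorem one_le_nrm_pvec (L : ℕ) (φ : T.reg →ₐ[K] Ω) : 1 ≤ nrm V (T.pvec L φ) := by
  obtain ⟨c, hc⟩ := exists_basis_sum_eq_one T L
  have := val_toReg_le T V hV L c φ
  rwa [hc, map_one, map_one] at this

theorem nrm_pvec_ne_zero (L : ℕ) (φ : T.reg →ₐ[K] Ω) : nrm V (T.pvec L φ) ≠ 0 :=
  (zero_lt_one.trans_le (one_le_nrm_pvec T V hV L φ)).ne'

theorem nrm_pvec_cpt (L : ℕ) (P : Place K F) (hP : P ≠ T.O) :
    nrm V (T.pvec L (T.cpt Ω P hP)) = 1 :=
  le_antisymm (nrm_le V fun x => by rw [pvec_cpt]; exact val_const_le V hV _)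
    (one_le_nrm_pvec T V hV L _)

section Pool

variable (L : ℕ) {ι : Type*} [Fintype ι] (P : ι → Place K F) (hP : Function.Injective P)
  (hO : ∀ i, P i ≠ T.O)

include hP in
/-- Values at many places bound the coordinates. -/
theorem nrm_le_of_values (hcard : L < Fintype.card ι) (a : Fin (T.dim L) → Ω) {b : V.ValueGroup}
    (h : ∀ i, V.valuation (T.peval L a (T.cpt Ω (P i) (hO i))) ≤ b) : nrm V a ≤ b := by
  classical
  let Ev : (Fin (T.dim L) → K) →ₗ[K] (ι → K) :=
    Matrix.toLin' (Matrix.of fun i x => T.vec L (P i) x)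
  have hker : LinearMap.ker Ev = ⊥ := by
    refine LinearMap.ker_eq_bot'.mpr fun c hc => ?_
    set f : T.V L := ∑ x, c x • T.basis L x
    have hf : ∀ i, evalAt (P i) (f : F) = 0 := fun i => by
      have h1 : T.evHom (P i) (hO i) (toReg T L f) = Ev c i := by
        rw [toReg_sum_smul, map_sum]
        simp only [map_smul, Ev, Matrix.toLin'_apply, Matrix.mulVec, dotProduct, Matrix.of_apply,
          smul_eq_mul]
        exact Finset.sum_congr rfl fun x _ => mul_comm _ _
      rw [hc] at h1
      exact h1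
    have hf0 : f = 0 :=
      Subtype.ext (eq_zero_of_evalAt_eq_zero T L P hP hO hcard f.2 hf)
    funext x
    exact Fintype.linearIndependent_iff.mp (T.basis L).linearIndependent c hf0 x
  obtain ⟨G, hG⟩ := LinearMap.exists_leftInverse_of_injective Ev hker
  have hM : LinearMap.toMatrix' G * (Matrix.of fun i x => T.vec L (P i) x) = 1 := by
    have := congrArg LinearMap.toMatrix' hG
    rwa [LinearMap.toMatrix'_comp, LinearMap.toMatrix'_toLin', LinearMap.toMatrix'_id] at this
  refine nrm_le V fun x => ?_
  have hax : a x = ∑ i, algebraMap K Ω (LinearMap.toMatrix' G x i) *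
      T.peval L a (T.cpt Ω (P i) (hO i)) := by
    simp only [Frame.peval, pvec_cpt, Finset.mul_sum]
    rw [Finset.sum_comm]
    rw [Finset.sum_congr rfl (g := fun y =>
      a y * algebraMap K Ω ((1 : Matrix (Fin (T.dim L)) (Fin (T.dim L)) K) x y))]
    · simp [Matrix.one_apply, apply_ite (algebraMap K Ω)]
    · intro y _
      rw [← hM, Matrix.mul_apply, map_sum, Finset.mul_sum]
      refine Finset.sum_congr rfl fun i _ => ?_
      rw [Matrix.of_apply, map_mul]
      ring
  rw [hax]
  refine Valuation.map_sum_le _ fun i _ => ?_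
  rw [map_mul]
  exact (mul_le_mul' (val_const_le V hV _) (h i)).trans_eq (one_mul _)

theorem nrm_values_le (a : Fin (T.dim L) → Ω) :
    nrm V (fun i => T.peval L a (T.cpt Ω (P i) (hO i))) ≤ nrm V a :=
  nrm_le V fun i => (val_peval_le T V L a _).trans_eq
    (by rw [nrm_pvec_cpt T V hV, mul_one])

include hP in
/-- The size on a big pool is the size of the coordinates. -/
theorem nrm_values (hcard : L < Fintype.card ι) (a : Fin (T.dim L) → Ω) :
    nrm V (fun i => T.peval L a (T.cpt Ω (P i) (hO i))) = nrm V a :=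
  le_antisymm (nrm_values_le T V hV L P hO a)
    (nrm_le_of_values T V hV L P hP hO hcard a fun i => le_nrm V _ i)

include hP in
open scoped Classical in
/-- The size is attained except at few places. -/
theorem card_lt_nrm (a : Fin (T.dim L) → Ω) :
    (Finset.univ.filter fun i =>
      V.valuation (T.peval L a (T.cpt Ω (P i) (hO i))) < nrm V a).card ≤ L := by
  by_contra h
  push Not at h
  set S := Finset.univ.filter fun i =>
    V.valuation (T.peval L a (T.cpt Ω (P i) (hO i))) < nrm V a with hS
  have hne : S.Nonempty := Finset.card_pos.mp (by omega)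
  obtain ⟨j, hj, hmax⟩ := Finset.exists_max_image S
    (fun i => V.valuation (T.peval L a (T.cpt Ω (P i) (hO i)))) hne
  have hle := nrm_le_of_values T V hV L (fun i : S => P i) (hP.comp Subtype.val_injective)
    (fun i => hO i) (by simpa using h) a (fun i => hmax i i.2)
  exact not_lt.mpr hle (Finset.mem_filter.mp hj).2

end Pool

/-- A product of integral forms is an integral form. -/
theorem exists_mul (L L' : ℕ) (a : Fin (T.dim L) → Ω) (b : Fin (T.dim L') → Ω) :
    ∃ c : Fin (T.dim (L + L')) → Ω, nrm V c ≤ nrm V a * nrm V b ∧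
      ∀ φ : T.reg →ₐ[K] Ω, T.peval (L + L') c φ = T.peval L a φ * T.peval L' b φ := by
  have hmem : ∀ x y, ((T.basis L x : F) * (T.basis L' y : F)) ∈ T.V (L + L') := fun x y => by
    have := FF.mul_mem_riemannRochSpace (T.basis L x).2 (T.basis L' y).2
    rwa [← Finsupp.single_add, ← Nat.cast_add] at this
  refine ⟨fun z => ∑ x, ∑ y, a x * b y * coef T Ω (L + L') ⟨_, hmem x y⟩ z, nrm_le V fun z => ?_,
    fun φ => ?_⟩
  · refine Valuation.map_sum_le _ fun x _ => Valuation.map_sum_le _ fun y _ => ?_
    rw [map_mul, map_mul]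
    exact (mul_le_of_le_one_right' (val_const_le V hV _)).trans
      (mul_le_mul' (le_nrm V a x) (le_nrm V b y))
  · simp only [Frame.peval, Finset.sum_mul]
    rw [Finset.sum_comm]
    refine Finset.sum_congr rfl fun x _ => ?_
    rw [Finset.sum_comm, Finset.mul_sum]
    refine Finset.sum_congr rfl fun y _ => ?_
    simp only [mul_assoc, ← Finset.mul_sum]
    have h := peval_coef T (L + L') ⟨_, hmem x y⟩ φ
    simp only [Frame.peval] at h
    rw [h, show toReg T (L + L') ⟨_, hmem x y⟩ =
      toReg T L (T.basis L x) * toReg T L' (T.basis L' y) from rfl, map_mul]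
    simp only [Frame.pvec, toReg]
    ring

/-- The size on a pool is multiplicative. -/
theorem nrm_values_mul (L L' : ℕ) {ι : Type*} [Fintype ι] (P : ι → Place K F)
    (hP : Function.Injective P) (hO : ∀ i, P i ≠ T.O) (hcard : L + L' < Fintype.card ι)
    (a : Fin (T.dim L) → Ω) (b : Fin (T.dim L') → Ω) :
    nrm V (fun i => T.peval L a (T.cpt Ω (P i) (hO i)) *
        T.peval L' b (T.cpt Ω (P i) (hO i))) = nrm V a * nrm V b := by
  classical
  refine le_antisymm (nrm_le V fun i => ?_) ?_
  · rw [map_mul]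
    exact mul_le_mul' ((le_nrm V _ i).trans (nrm_values_le T V hV L P hO a))
      ((le_nrm V _ i).trans (nrm_values_le T V hV L' P hO b))
  · have h1 := card_lt_nrm T V hV L P hP hO a
    have h2 := card_lt_nrm T V hV L' P hP hO b
    obtain ⟨i, -, hi⟩ := Finset.exists_mem_notMem_of_card_lt_card
      (t := Finset.univ)
      (s := (Finset.univ.filter fun i =>
          V.valuation (T.peval L a (T.cpt Ω (P i) (hO i))) < nrm V a) ∪
        Finset.univ.filter fun i =>
          V.valuation (T.peval L' b (T.cpt Ω (P i) (hO i))) < nrm V b)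
      ((Finset.card_union_le _ _).trans_lt (by rw [Finset.card_univ]; omega))
    simp only [Finset.mem_union, Finset.mem_filter, Finset.mem_univ, true_and, not_or,
      not_lt] at hi
    refine le_trans ?_ (le_nrm V _ i)
    rw [map_mul]
    exact mul_le_mul' hi.1 hi.2

end Loc

end FLTAgent.MW
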