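import Fermat.Agent.MW.Rel
import Mathlib.GroupTheory.Descent

/-!
# Heights on `Pic⁰` and descent

`Data.hgt` is the height of the coordinates of a class; the relations of `MW.Rel` give the
parallelogram law up to a bounded error (`Data.exists_parallelogram`).  With finiteness of fixed
classes of bounded height this yields `fg_of_finiteIndex`: a group of fixed classes whose quotient
by `2` is finite is finitely generated.
-/

set_option autoImplicit false
set_option linter.unusedSectionVars false

noncomputable section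

open AlgebraicCurve

namespace FLTAgent.MW

local notation "Qb" => AlgebraicClosure ℚ
local notation "Γℚ" => (AlgebraicClosure ℚ ≃ₐ[ℚ] AlgebraicClosure ℚ)

variable {F : Type*} [Field F] [Algebra Qb F] [FF.IsFF Qb F] {T : Data Qb F}

theorem sum_append_eq {M : Type*} [AddCommMonoid M] {a b : ℕ} {α : Type*} (u : Fin a → α)
    (v : Fin b → α) (φ : α → M) :
    ∑ i, φ (Fin.append u v i) = ∑ i, φ (u i) + ∑ i, φ (v i) := by
  rw [Fin.sum_univ_add]
  simp [Fin.append_left, Fin.append_right]

theorem append_injective {a b : ℕ} {α : Type*} {u : Fin a → α} {v : Fin b → α}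
    (hu : Function.Injective u) (hv : Function.Injective v) (h : ∀ i j, u i ≠ v j) :
    Function.Injective (Fin.append u v) := by
  intro i j
  induction i using Fin.addCases <;> induction j using Fin.addCases <;>
    simp only [Fin.append_left, Fin.append_right] <;> intro he
  · rw [hu he]
  · exact absurd he (h _ _)
  · exact absurd he.symm (h _ _)
  · rw [hv he]

namespace Cfg

variable {e : ℕ} {x y : Pic0 Qb F}

theorem injective_E (c : Cfg T e x) : Function.Injective c.E := fun a b h =>
  Fin.castAdd_injective _ _ (c.inj (by rwa [Fin.append_left, Fin.append_left]))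

theorem injective_E' (c : Cfg T e x) : Function.Injective c.E' := fun a b h =>
  Fin.natAdd_injective _ _ (c.inj (by rwa [Fin.append_right, Fin.append_right]))

theorem E_ne (c : Cfg T e x) (i j : Fin e) : c.E i ≠ c.E' j := fun h => by
  have h1 : Fin.append c.E c.E' (Fin.castAdd e i) = Fin.append c.E c.E' (Fin.natAdd e j) := by
    rwa [Fin.append_left, Fin.append_right]
  have h2 := congrArg Fin.val (c.inj h1)
  simp only [Fin.val_castAdd, Fin.val_natAdd] at h2
  omega

theorem cls_append_eq_zero (c : Cfg T e x) : T.toFrame.cls (Fin.append c.E c.E') = 0 :=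
  (QuotientAddGroup.eq_zero_iff _).mpr ⟨c.f, c.f_ne, fun v => by
    show T.toFrame.pdiv (e + e) (Fin.append c.E c.E') v = _
    rw [← c.f_div, FF.divisorOf_apply]⟩

theorem cls_E' (c : Cfg T e x) : T.toFrame.cls c.E' = -x := by
  have h := c.cls_append_eq_zero
  rw [Frame.cls_append, c.cls_eq] at h
  exact eq_neg_of_add_eq_zero_right h

/-- Transport along an equality of classes. -/
def copy (c : Cfg T e x) (h : x = y) : Cfg T e y where
  __ := c
  cls_eq := c.cls_eq.trans h

theorem E_copy (c : Cfg T e x) (h : x = y) : (c.copy h).E = c.E := rfl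

/-- The opposite configuration. -/
def swap (c : Cfg T e x) : Cfg T e (-x) where
  E := c.E'
  E' := c.E
  inj := append_injective c.injective_E' c.injective_E fun i j h => c.E_ne j i h.symm
  ne_O i := by
    induction i using Fin.addCases with
    | left i => rw [Fin.append_left, ← Fin.append_right c.E c.E' i]; exact c.ne_O _
    | right i => rw [Fin.append_right, ← Fin.append_left c.E c.E' i]; exact c.ne_O _
  ne_pool i := by
    induction i using Fin.addCases with
    | left i => rw [Fin.append_left, ← Fin.append_right c.E c.E' i]; exact c.ne_pool _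
    | right i => rw [Fin.append_right, ← Fin.append_left c.E c.E' i]; exact c.ne_pool _
  f := c.f
  f_mem := c.f_mem
  f_ne := c.f_ne
  f_div := by
    rw [c.f_div, Frame.pdiv, Frame.pdiv, sum_append_eq _ _ fun P => Finsupp.single P (1 : ℤ),
      sum_append_eq _ _ fun P => Finsupp.single P (1 : ℤ), add_comm]
  cls_eq := c.cls_E'

/-- The sum of two disjoint configurations. -/
def add (c : Cfg T e x) (d : Cfg T e y)
    (h : ∀ i j, Fin.append c.E c.E' i ≠ Fin.append d.E d.E' j) : Cfg T (e + e) (x + y) where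
  E := Fin.append c.E d.E
  E' := Fin.append c.E' d.E'
  inj := by
    have hEE := fun i j => h (Fin.castAdd e i) (Fin.castAdd e j)
    have hEE' := fun i j => h (Fin.castAdd e i) (Fin.natAdd e j)
    have hE'E := fun i j => h (Fin.natAdd e i) (Fin.castAdd e j)
    have hE'E' := fun i j => h (Fin.natAdd e i) (Fin.natAdd e j)
    simp only [Fin.append_left, Fin.append_right] at hEE hEE' hE'E hE'E'
    refine append_injective (append_injective c.injective_E d.injective_E hEE)
      (append_injective c.injective_E' d.injective_E' hE'E') fun i j => ?_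
    induction i using Fin.addCases <;> induction j using Fin.addCases <;>
      simp only [Fin.append_left, Fin.append_right]
    · exact c.E_ne _ _
    · exact hEE' _ _
    · exact fun he => hE'E _ _ he.symm
    · exact d.E_ne _ _
  ne_O i := by
    induction i using Fin.addCases with
    | left i =>
      rw [Fin.append_left]
      induction i using Fin.addCases with
      | left i => rw [Fin.append_left, ← Fin.append_left c.E c.E' i]; exact c.ne_O _
      | right i => rw [Fin.append_right, ← Fin.append_left d.E d.E' i]; exact d.ne_O _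
    | right i =>
      rw [Fin.append_right]
      induction i using Fin.addCases with
      | left i => rw [Fin.append_left, ← Fin.append_right c.E c.E' i]; exact c.ne_O _
      | right i => rw [Fin.append_right, ← Fin.append_right d.E d.E' i]; exact d.ne_O _
  ne_pool i := by
    induction i using Fin.addCases with
    | left i =>
      rw [Fin.append_left]
      induction i using Fin.addCases with
      | left i => rw [Fin.append_left, ← Fin.append_left c.E c.E' i]; exact c.ne_pool _
      | right i => rw [Fin.append_right, ← Fin.append_left d.E d.E' i]; exact d.ne_pool _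
    | right i =>
      rw [Fin.append_right]
      induction i using Fin.addCases with
      | left i => rw [Fin.append_left, ← Fin.append_right c.E c.E' i]; exact c.ne_pool _
      | right i => rw [Fin.append_right, ← Fin.append_right d.E d.E' i]; exact d.ne_pool _
  f := c.f * d.f
  f_mem := by
    rw [Frame.V, Nat.cast_add (e + e), Finsupp.single_add]
    exact FF.mul_mem_riemannRochSpace c.f_mem d.f_mem
  f_ne := mul_ne_zero c.f_ne d.f_ne
  f_div := by
    have h1 : FF.divisorOf (c.f * d.f) = FF.divisorOf c.f + (FF.divisorOf d.f : Divisor Qb F) :=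
      Finsupp.ext fun v => by
        rw [FF.divisorOf_apply, Finsupp.add_apply, FF.divisorOf_apply, FF.divisorOf_apply,
          v.ord_mul c.f_ne d.f_ne]
    rw [h1, c.f_div, d.f_div]
    simp only [Frame.pdiv, sum_append_eq _ _ fun P => Finsupp.single P (1 : ℤ), Nat.cast_add,
      Finsupp.single_add]
    abel
  cls_eq := by rw [Frame.cls_append, c.cls_eq, d.cls_eq]

end Cfg

variable (T)

/-- Every class has a small configuration avoiding a finite set. -/
theorem Data.exists_cfg (x : Pic0 Qb F) (S : Finset (Place Qb F)) :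
    ∃ c : Cfg T T.m x, ∀ i, Fin.append c.E c.E' i ∉ S := by
  classical
  set S₁ := S ∪ Finset.univ.image T.pool with hS₁
  obtain ⟨E, hE, hES, hEx⟩ := exists_simple T.toFrame x S₁
  obtain ⟨E', hE', hE'S, hE'x⟩ := exists_simple T.toFrame (-x) (S₁ ∪ Finset.univ.image E)
  have hz : T.toFrame.cls (Fin.append E E') = 0 := by
    rw [Frame.cls_append, hEx, hE'x, add_neg_cancel]
  obtain ⟨f, hf, hf0, hdiv⟩ := exists_fun_of_cls_add_eq_zero T.toFrame _ hz
  have hS : ∀ i, Fin.append E E' i ∉ S₁ ∧ Fin.append E E' i ≠ T.O := fun i => by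
    induction i using Fin.addCases with
    | left i => rw [Fin.append_left]; exact hES i
    | right i =>
      rw [Fin.append_right]
      exact ⟨fun h => (hE'S i).1 (Finset.mem_union_left _ h), (hE'S i).2⟩
  exact ⟨⟨E, E', append_injective hE hE' fun i j h => (hE'S j).1 (Finset.mem_union_right _
      (Finset.mem_image.mpr ⟨i, Finset.mem_univ i, h⟩)), fun i => (hS i).2,
    fun i j h => (hS i).1 (Finset.mem_union_right _ (Finset.mem_image.mpr
      ⟨j, Finset.mem_univ j, h.symm⟩)), f, hf, hf0, hdiv, hEx⟩,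
    fun i h => (hS i).1 (Finset.mem_union_left _ h)⟩

/-- The fixed configuration of the zero class. -/
def Data.base : Cfg T T.m (0 : Pic0 Qb F) := (T.exists_cfg 0 ∅).choose

/-- A small configuration avoiding the fixed one. -/
def Data.rep (x : Pic0 Qb F) : Cfg T T.m x :=
  open scoped Classical in
  (T.exists_cfg x (Finset.univ.image (Fin.append T.base.E T.base.E'))).choose

theorem Data.rep_ne (x : Pic0 Qb F) (i j : Fin (T.m + T.m)) :
    Fin.append (T.rep x).E (T.rep x).E' i ≠ Fin.append T.base.E T.base.E' j := fun h => by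
  classical
  exact (T.exists_cfg x (Finset.univ.image (Fin.append T.base.E T.base.E'))).choose_spec i
    (Finset.mem_image.mpr ⟨j, Finset.mem_univ j, h.symm⟩)

/-- The height of a class. -/
def Data.hgt (x : Pic0 Qb F) : ℝ :=
  ht (T.coords (((T.rep x).add T.base (T.rep_ne x)).copy (add_zero x)))

theorem Data.hgt_eq {x : Pic0 Qb F} (c : Cfg T (T.m + T.m) x) : T.hgt x = ht (T.coords c) := by
  obtain ⟨a, ha, he⟩ :=
    T.exists_smul_coords c (((T.rep x).add T.base (T.rep_ne x)).copy (add_zero x))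
  rw [Data.hgt, he, ht_smul a ha]

theorem Data.hgt_nonneg (x : Pic0 Qb F) : 0 ≤ T.hgt x := ht_nonneg _

theorem Data.cross_append_left {a b d : ℕ} (E : Fin a → Place Qb F) (E' : Fin b → Place Qb F)
    (G : Fin d → Place Qb F) :
    T.cross (Fin.append E E') G = T.cross E G + T.cross E' G :=
  sum_append_eq E E' fun P => ∑ i', T.dlt P (G i')

theorem Data.cross_append_right {a b d : ℕ} (E : Fin a → Place Qb F) (G : Fin b → Place Qb F)
    (G' : Fin d → Place Qb F) :
    T.cross E (Fin.append G G') = T.cross E G + T.cross E G' := by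
  rw [Data.cross, Data.cross, Data.cross, ← Finset.sum_add_distrib]
  exact Finset.sum_congr rfl fun i _ => sum_append_eq G G' fun P => T.dlt (E i) P

theorem Data.cross_comm {a b : ℕ} (E : Fin a → Place Qb F) (G : Fin b → Place Qb F) :
    T.cross E G = T.cross G E := by
  rw [Data.cross, Data.cross, Finset.sum_comm]
  exact Finset.sum_congr rfl fun i _ => Finset.sum_congr rfl fun j _ => T.dlt_comm _ _

/-- The sum of the heights of the places. -/
def Data.hsum {e : ℕ} (E : Fin e → Place Qb F) : ℝ := ∑ i, T.hv (E i)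

theorem Data.exists_eval_bound' (j n : ℕ) (hj : 0 < j) (hj4 : j ≤ 4) (hn : n = j * T.m) :
    ∃ C : ℝ, ∀ (Z : Fin n → Place Qb F) (f : F), Function.Injective Z → (∀ i, Z i ≠ T.O) →
      f ∈ T.toFrame.V n → f ≠ 0 → FF.divisorOf f = T.toFrame.pdiv n Z →
      ∀ {a : ℕ} (G : Fin a → Place Qb F), (∀ i, G i ≠ T.O) → (∀ i k, Z i ≠ G k) →
        |T.cross Z G - ((a : ℝ) * ht (T.fvals f) + (j : ℝ) * T.hsum G)| ≤ (a : ℝ) * C := by
  subst hn
  obtain ⟨C, hC⟩ := T.exists_eval_bound j hj hj4
  refine ⟨C, fun Z f hZ hO hf hf0 hdiv a G hGO hne => ?_⟩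
  have e1 : T.cross Z G - ((a : ℝ) * ht (T.fvals f) + (j : ℝ) * T.hsum G) =
      ∑ k, (∑ i, T.dlt (Z i) (G k) - (ht (T.fvals f) + (j : ℝ) * T.hv (G k))) := by
    rw [Finset.sum_sub_distrib, Finset.sum_add_distrib, ← Finset.mul_sum, Finset.sum_const,
      Finset.card_univ, Fintype.card_fin, nsmul_eq_mul, Finset.sum_comm]
    rfl
  rw [e1]
  refine (Finset.abs_sum_le_sum_abs _ _).trans ?_
  refine (Finset.sum_le_sum fun k _ => hC Z f (G k) hZ hO hf hf0 hdiv (hGO k) fun i => hne i k).trans
    (le_of_eq ?_)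
  simp

/-- The wedge height of a disjoint union. -/
theorem Data.exists_append_bound :
    ∃ C : ℝ, ∀ E E' : Fin T.m → Place Qb F, Function.Injective (Fin.append E E') →
      (∀ i, Fin.append E E' i ≠ T.O) →
      |T.hp (Fin.append E E') - (T.hp E + T.hp E' - T.cross E E')| ≤ C := by
  have hm := T.hm
  have hM : 4 * T.m ≤ T.M := Nat.le_mul_of_pos_right _ (by omega)
  obtain ⟨C₁, h1⟩ := T.exists_plucker_bound T.m (by omega) (by omega)
  obtain ⟨C₂, h2⟩ := T.exists_plucker_bound (T.m + T.m) (by omega) (by omega)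
  refine ⟨C₂ + C₁ + C₁, fun E E' hinj hO => ?_⟩
  have hEi : Function.Injective E := fun a b h =>
    Fin.castAdd_injective _ _ (hinj (by rwa [Fin.append_left, Fin.append_left]))
  have hE'i : Function.Injective E' := fun a b h =>
    Fin.natAdd_injective _ _ (hinj (by rwa [Fin.append_right, Fin.append_right]))
  have hEO : ∀ i, E i ≠ T.O := fun i => Fin.append_left E E' i ▸ hO _
  have hE'O : ∀ i, E' i ≠ T.O := fun i => Fin.append_right E E' i ▸ hO _
  have hA := abs_le.mp (h2 _ hinj hO)
  have hB := abs_le.mp (h1 E hEi hEO)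
  have hD := abs_le.mp (h1 E' hE'i hE'O)
  rw [sum_append_eq E E' T.hv, mul_add, T.cross_append_left, T.cross_append_right,
    T.cross_append_right, T.cross_comm E' E] at hA
  rw [abs_le]
  constructor <;> linarith [hA.1, hA.2, hB.1, hB.2, hD.1, hD.2]

/-- The height of the sum of two small configurations. -/
theorem Data.exists_add_bound :
    ∃ C : ℝ, ∀ (x y : Pic0 Qb F) (c : Cfg T T.m x) (d : Cfg T T.m y)
      (h : ∀ i j, Fin.append c.E c.E' i ≠ Fin.append d.E d.E' j),
      |T.hgt (x + y) - (T.hp c.E + T.hp d.E + T.hp c.E' + T.hp d.E' - T.cross c.E d.E -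
        T.cross c.E' d.E' - (T.kk : ℝ) * (ht (T.fvals c.f) + ht (T.fvals d.f)))| ≤ C := by
  obtain ⟨C₁, h1⟩ := T.coords_bound.2
  obtain ⟨C₂, h2⟩ := T.exists_mul_bound
  obtain ⟨C₃, h3⟩ := T.exists_append_bound
  refine ⟨C₁ + (T.kk : ℝ) * C₂ + C₃ + C₃, fun x y c d h => ?_⟩
  set a := c.add d h with ha
  have hA := abs_le.mp (h1 _ a)
  have hB := abs_le.mp (h2 c.f d.f c.f_mem d.f_mem c.f_ne d.f_ne)
  have hD := abs_le.mp (h3 c.E d.E a.injective_E fun i => by
    have := a.ne_O (Fin.castAdd _ i)
    rwa [Fin.append_left] at this)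
  have hD' := abs_le.mp (h3 c.E' d.E' a.injective_E' fun i => by
    have := a.ne_O (Fin.natAdd _ i)
    rwa [Fin.append_right] at this)
  change -C₁ ≤ ht (T.coords a) + (T.kk : ℝ) * ht (T.fvals (c.f * d.f)) -
      (T.hp (Fin.append c.E d.E) + T.hp (Fin.append c.E' d.E')) ∧
    ht (T.coords a) + (T.kk : ℝ) * ht (T.fvals (c.f * d.f)) -
      (T.hp (Fin.append c.E d.E) + T.hp (Fin.append c.E' d.E')) ≤ C₁ at hA
  rw [T.hgt_eq a, abs_le]
  have hk : (0 : ℝ) ≤ T.kk := Nat.cast_nonneg _
  have hB1 := mul_le_mul_of_nonneg_left hB.1 hk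
  have hB2 := mul_le_mul_of_nonneg_left hB.2 hk
  constructor <;> linarith [hA.1, hA.2, hD.1, hD.2, hD'.1, hD'.2]

/-- The sum of the heights of the zeros of a function. -/
theorem Data.exists_hsum_bound :
    ∃ C : ℝ, ∀ (x : Pic0 Qb F) (c : Cfg T T.m x),
      (∀ i j, Fin.append c.E c.E' i ≠ Fin.append T.base.E T.base.E' j) →
      |T.hsum (Fin.append c.E c.E') - (T.m : ℝ) * ht (T.fvals c.f)| ≤ C := by
  have hm := T.hm
  obtain ⟨g, hg, hg0, hgdiv⟩ := exists_fun_of_cls_add_eq_zero T.toFrame _ T.base.cls_eq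
  obtain ⟨C₁, h1⟩ := T.exists_eval_bound' 1 T.m one_pos (by norm_num) (one_mul _).symm
  obtain ⟨C₂, h2⟩ := T.exists_eval_bound' 2 (T.m + T.m) two_pos (by norm_num) (two_mul _).symm
  refine ⟨((T.m + T.m : ℕ) : ℝ) * C₁ + (T.m : ℝ) * C₂ +
    |((T.m + T.m : ℕ) : ℝ) * ht (T.fvals g)| + |2 * T.hsum T.base.E|, fun x c h => ?_⟩
  have hG : ∀ i, T.base.E i ≠ T.O := fun i =>
    Fin.append_left T.base.E T.base.E' i ▸ T.base.ne_O _
  have hne : ∀ k i, Fin.append c.E c.E' k ≠ T.base.E i := fun k i =>
    Fin.append_left T.base.E T.base.E' i ▸ h k _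
  have hA := abs_le.mp (h1 T.base.E g T.base.injective_E hG hg hg0 hgdiv
    (Fin.append c.E c.E') c.ne_O fun i k e => hne k i e.symm)
  have hB := abs_le.mp (h2 (Fin.append c.E c.E') c.f c.inj c.ne_O c.f_mem c.f_ne c.f_div
    T.base.E hG hne)
  rw [T.cross_comm T.base.E] at hA
  simp only [Nat.cast_one, one_mul, Nat.cast_ofNat] at hA hB
  rw [abs_le]
  constructor <;> linarith [hA.1, hA.2, hB.1, hB.2, le_abs_self (((T.m + T.m : ℕ) : ℝ) * ht (T.fvals g)),
    neg_abs_le (((T.m + T.m : ℕ) : ℝ) * ht (T.fvals g)), le_abs_self (2 * T.hsum T.base.E),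
    neg_abs_le (2 * T.hsum T.base.E)]

/-- The height in terms of a small configuration. -/
theorem Data.exists_hgt_bound :
    ∃ C : ℝ, ∀ (x : Pic0 Qb F) (c : Cfg T T.m x),
      (∀ i j, Fin.append c.E c.E' i ≠ Fin.append T.base.E T.base.E' j) →
      |T.hgt x - (T.hp c.E + T.hp c.E' - ((T.kk : ℝ) + T.m) * ht (T.fvals c.f))| ≤ C := by
  have hm := T.hm
  obtain ⟨g, hg, hg0, hgdiv⟩ := exists_fun_of_cls_add_eq_zero T.toFrame _ T.base.cls_eq
  obtain ⟨g', hg', hg'0, hg'div⟩ := exists_fun_of_cls_add_eq_zero T.toFrame _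
    (T.base.cls_E'.trans neg_zero)
  obtain ⟨C₁, h1⟩ := T.exists_eval_bound' 1 T.m one_pos (by norm_num) (one_mul _).symm
  obtain ⟨C₂, h2⟩ := T.exists_add_bound
  obtain ⟨C₃, h3⟩ := T.exists_hsum_bound
  set K₀ := T.hp T.base.E + T.hp T.base.E' - (T.m : ℝ) * (ht (T.fvals g) + ht (T.fvals g')) -
    (T.kk : ℝ) * ht (T.fvals T.base.f) with hK₀
  refine ⟨C₂ + (T.m : ℝ) * C₁ + (T.m : ℝ) * C₁ + C₃ + |K₀|, fun x c h => ?_⟩
  have hEO : ∀ i, c.E i ≠ T.O := fun i => Fin.append_left c.E c.E' i ▸ c.ne_O _
  have hE'O : ∀ i, c.E' i ≠ T.O := fun i => Fin.append_right c.E c.E' i ▸ c.ne_O _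
  have hGO : ∀ i, T.base.E i ≠ T.O := fun i =>
    Fin.append_left T.base.E T.base.E' i ▸ T.base.ne_O _
  have hG'O : ∀ i, T.base.E' i ≠ T.O := fun i =>
    Fin.append_right T.base.E T.base.E' i ▸ T.base.ne_O _
  have hA := abs_le.mp (h1 T.base.E g T.base.injective_E hGO hg hg0 hgdiv c.E hEO fun i k e => by
    have := h (Fin.castAdd _ k) (Fin.castAdd _ i)
    rw [Fin.append_left, Fin.append_left] at this
    exact this e.symm)
  have hA' := abs_le.mp (h1 T.base.E' g' T.base.injective_E' hG'O hg' hg'0 hg'div c.E' hE'O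
    fun i k e => by
      have := h (Fin.natAdd _ k) (Fin.natAdd _ i)
      rw [Fin.append_right, Fin.append_right] at this
      exact this e.symm)
  have hB := abs_le.mp (h2 x 0 c T.base h)
  rw [add_zero] at hB
  have hD := abs_le.mp (h3 x c h)
  rw [show T.hsum (Fin.append c.E c.E') = T.hsum c.E + T.hsum c.E' from
    sum_append_eq c.E c.E' T.hv] at hD
  rw [T.cross_comm T.base.E] at hA
  rw [T.cross_comm T.base.E'] at hA'
  simp only [Nat.cast_one, one_mul] at hA hA'
  rw [abs_le]
  constructor <;> linarith [hA.1, hA.2, hA'.1, hA'.2, hB.1, hB.2, hD.1, hD.2,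
    le_abs_self K₀, neg_abs_le K₀]

/-- The parallelogram law up to a bounded error. -/
theorem Data.exists_parallelogram :
    ∃ C : ℝ, ∀ x y : Pic0 Qb F,
      |T.hgt (x + y) + T.hgt (x - y) - 2 * (T.hgt x + T.hgt y)| ≤ C := by
  classical
  have hm := T.hm
  obtain ⟨C₁, h1⟩ := T.exists_add_bound
  obtain ⟨C₂, h2⟩ := T.exists_eval_bound' 2 (T.m + T.m) two_pos (by norm_num) (two_mul _).symm
  obtain ⟨C₃, h3⟩ := T.exists_hsum_bound
  obtain ⟨C₄, h4⟩ := T.exists_hgt_bound
  refine ⟨C₁ + C₁ + ((T.m + T.m : ℕ) : ℝ) * C₂ + 2 * C₃ + 4 * C₄, fun x y => ?_⟩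
  obtain ⟨d, hd⟩ := T.exists_cfg y (Finset.univ.image (Fin.append (T.rep x).E (T.rep x).E') ∪
    Finset.univ.image (Fin.append T.base.E T.base.E'))
  set c := T.rep x
  have hcd : ∀ i j, Fin.append c.E c.E' i ≠ Fin.append d.E d.E' j := fun i j e =>
    hd j (Finset.mem_union_left _ (Finset.mem_image.mpr ⟨i, Finset.mem_univ i, e⟩))
  have hdb : ∀ i j, Fin.append d.E d.E' i ≠ Fin.append T.base.E T.base.E' j := fun i j e =>
    hd i (Finset.mem_union_right _ (Finset.mem_image.mpr ⟨j, Finset.mem_univ j, e.symm⟩))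
  have hcs : ∀ i j, Fin.append c.E c.E' i ≠ Fin.append d.swap.E d.swap.E' j := fun i j => by
    induction j using Fin.addCases with
    | left j =>
      rw [Fin.append_left, show d.swap.E = d.E' from rfl, ← Fin.append_right d.E d.E' j]
      exact hcd i _
    | right j =>
      rw [Fin.append_right, show d.swap.E' = d.E from rfl, ← Fin.append_left d.E d.E' j]
      exact hcd i _
  have hA := abs_le.mp (h1 x y c d hcd)
  have hA' := abs_le.mp (h1 x (-y) c d.swap hcs)
  rw [show d.swap.E = d.E' from rfl, show d.swap.E' = d.E from rfl,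
    show d.swap.f = d.f from rfl, ← sub_eq_add_neg] at hA'
  have hB := abs_le.mp (h2 (Fin.append c.E c.E') c.f c.inj c.ne_O c.f_mem c.f_ne c.f_div
    (Fin.append d.E d.E') d.ne_O hcd)
  rw [T.cross_append_left, T.cross_append_right, T.cross_append_right] at hB
  have hD := abs_le.mp (h3 y d hdb)
  have hE := abs_le.mp (h4 x c (T.rep_ne x))
  have hE' := abs_le.mp (h4 y d hdb)
  push_cast at hB
  push_cast
  rw [abs_le]
  constructor <;> linarith [hA.1, hA.2, hA'.1, hA'.2, hB.1, hB.2, hD.1, hD.2, hE.1, hE.2, hE'.1,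
    hE'.2]

/-- A group of fixed classes with finite quotient by `2` is finitely generated. -/
theorem fg_of_finiteIndex {ρ : Γℚ →* SemilinearAut Qb F} (hρ : IsGalAction T ρ)
    (G : AddSubgroup (Pic0 Qb F)) (hG : ∀ x ∈ G, ∀ σ : Γℚ, ρ σ • x = x)
    (h2 : (nsmulAddMonoidHom (α := ↥G) 2).range.FiniteIndex) : AddGroup.FG ↥G := by
  obtain ⟨C, hC⟩ := T.exists_parallelogram
  have : Northcott (fun x : ↥G => T.hgt (x : Pic0 Qb F)) := ⟨fun B => by
    refine ((finite_setOf_ht_coords_le T hρ B).preimage
      Subtype.val_injective.injOn).subset fun x hx => ?_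
    refine ⟨fun σ => hG _ x.2 σ, ?_⟩
    refine ⟨((T.rep x).add T.base (T.rep_ne x)).copy (add_zero _), hx, ?_⟩
    exact T.coords_bound.1 _ _⟩
  refine AddCommGroup.fg_of_descent' (h := fun x : ↥G => T.hgt (x : Pic0 Qb F)) (C := C) h2
    (fun x => T.hgt_nonneg _) fun x y => ?_
  simpa using hC x y

end FLTAgent.MW
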