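import Fermat.Agent.MW.KummerFinite
import Fermat.Agent.Mazur.Eis.Level
import Fermat.Agent.Torsion.Divisible

/-!
# Weak Mordell–Weil for `J₀(N)`, `N` prime

A half `w` of a rational point gives a cocycle `σ ↦ σ w - w` with values in `J[2]`, trivial on
inertia away from `2 N`; on the field of `J[2]` its coordinates are quadratic characters unramified
outside `2 N`, of which there are finitely many.
-/

set_option autoImplicit false
set_option linter.style.haveILetI false

noncomputable section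

open ModularCurve Matrix

namespace FLTAgent.MW

open FLTAgent.Mazur.Eis FLTAgent.TW FLTAgent.Reps

local notation "Qb" => AlgebraicClosure ℚ
local notation "Γℚ" => (AlgebraicClosure ℚ ≃ₐ[ℚ] AlgebraicClosure ℚ)

/-- The rational points of `J₀(N)`. -/
abbrev jRat (N : ℕ) : AddSubgroup (JZero N) := FixedPoints.addSubgroup Γℚ (JZero N)

theorem mem_jRat {N : ℕ} {x : JZero N} : x ∈ jRat N ↔ ∀ σ : Γℚ, σ • x = x := Iff.rfl

variable (N : ℕ) [NeZero N]

/-- **Weak Mordell–Weil**: `J₀(N)(ℚ) / 2` is finite, `N` prime. -/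
theorem finite_quotient_two_nsmul (hN : N.Prime) :
    Finite (↥(jRat N) ⧸ (nsmulAddMonoidHom 2 : ↥(jRat N) →+ ↥(jRat N)).range) := by
  classical
  haveI : Fact N.Prime := ⟨hN⟩
  haveI : Fact (Nat.Prime 2) := ⟨Nat.prime_two⟩
  obtain ⟨D⟩ := nonempty_torsData N 2
  obtain ⟨L₀, hL₀, hfix₀⟩ := D.G.continuous_level 1
  set U : Subgroup Γℚ := (galMod D 1).toHomUnits.ker
  have hmemU : ∀ σ, σ ∈ U ↔ galMod D 1 σ = 1 := fun σ => by
    rw [MonoidHom.mem_ker, Units.ext_iff]; rfl
  have hUopen : IsOpen (U : Set Γℚ) := Subgroup.isOpen_mono (H₁ := L₀.fixingSubgroup)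
    (fun σ hσ => (hmemU σ).mpr
      (hfix₀ σ ((IntermediateField.mem_fixingSubgroup_iff _ _).mp hσ))) L₀.fixingSubgroup_isOpen
  haveI := GalCommon.isGalois_Qbar
  set F := IntermediateField.fixedField U
  have hF : F.fixingSubgroup = U :=
    InfiniteGalois.fixingSubgroup_fixedField ⟨U, U.isClosed_of_isOpen hUopen⟩
  haveI : FiniteDimensional ℚ F :=
    (InfiniteGalois.isOpen_iff_finite _).1 (by rwa [hF])
  set T : Finset ℕ := {2, N}
  have hplace : ∀ A : Place, ¬ A.Over T → ¬ A.char ∣ N ∧ A.char ≠ 2 := fun A hA => by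
    rw [A.over_iff, Finset.mem_insert, Finset.mem_singleton, not_or] at hA
    exact ⟨fun h => hA.2 ((Nat.prime_dvd_prime_iff_eq A.prime_char hN).1 h), hA.1⟩
  have hT : ∀ A : Place, ¬ A.Over T → ∀ σ ∈ A.1.inertiaSubgroupIn ℚ, σ ∈ F.fixingSubgroup :=
    fun A hA σ hσ => by
      rw [hF, hmemU]
      show (PadicInt.toZModPow 1).mapMatrix (D.G.M σ) = 1
      rw [D.G.inertia_trivial _ A.prime_char (hplace A hA).1 (hplace A hA).2 A.1 A.liesOver_char σ hσ,
        map_one]
  have hS := finite_characters F T hT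
  haveI := hS.to_subtype
  -- a half of every rational point
  choose half hhalf using fun z : ↥(jRat N) => Torsion.exists_nsmul_eq_JZero 2 (z : JZero N)
  let R : ↥(jRat N) → Root D 1 := fun z => ⟨half z, fun σ => by
    rw [pow_one, hhalf]; exact mem_jRat.mp z.2 σ⟩
  let e : ZMod (2 ^ 1) ≃+ ZMod 2 := (ZMod.ringEquivCongr (pow_one 2)).toAddEquiv
  have hker : ∀ (z : ↥(jRat N)) (σ τ : Γℚ), σ ∈ F.fixingSubgroup →
      (R z).c (σ * τ) = (R z).c σ + (R z).c τ := fun z σ τ hσ => by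
    rw [(R z).c_mul, (hmemU σ).mp (hF ▸ hσ), Matrix.one_mulVec, add_comm]
  let chi : ↥(jRat N) → Fin D.G.r → F.fixingSubgroup →* Multiplicative (ZMod 2) := fun z i =>
    { toFun := fun σ => Multiplicative.ofAdd (e ((R z).c σ i))
      map_one' := by
        rw [OneMemClass.coe_one, (R z).c_one, Pi.zero_apply, map_zero, ofAdd_zero]
      map_mul' := fun σ τ => by
        rw [Subgroup.coe_mul, hker z σ τ σ.2, Pi.add_apply, map_add, ofAdd_add] }
  have hchi : ∀ (z : ↥(jRat N)) (i : Fin D.G.r) (σ : F.fixingSubgroup),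
      (R z).c σ = 0 → chi z i σ = 1 := fun z i σ h => by
    show Multiplicative.ofAdd (e ((R z).c σ i)) = 1
    rw [h, Pi.zero_apply, map_zero, ofAdd_zero]
  have hmem : ∀ (z : ↥(jRat N)) (i : Fin D.G.r), chi z i ∈ {c : F.fixingSubgroup →*
      Multiplicative (ZMod 2) | (∃ L : IntermediateField ℚ Qb, FiniteDimensional ℚ L ∧
        ∀ σ : F.fixingSubgroup, (σ : Γℚ) ∈ L.fixingSubgroup → c σ = 1) ∧
      ∀ A : Place, ¬ A.Over T → ∀ σ : F.fixingSubgroup,
        (σ : Γℚ) ∈ A.1.inertiaSubgroupIn ℚ → c σ = 1} := by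
    intro z i
    obtain ⟨L, hL, hLfix⟩ := exists_fix_class N (half z)
    refine ⟨⟨L, hL, fun σ hσ => hchi z i σ ?_⟩, fun A hA σ hσ => hchi z i σ ?_⟩
    · refine D.e_injective 1 ?_
      rw [(R z).e_c, map_zero, sub_eq_zero]
      exact hLfix σ ((IntermediateField.mem_fixingSubgroup_iff _ _).mp hσ)
    · have h := congrArg Prod.fst ((R z).act_eq_of_inertia A.prime_char (hplace A hA).1 (hplace A hA).2
        A.liesOver_char hσ (0, 1))
      simpa [Root.act_apply] using h
  haveI hfi : Finite (Γℚ ⧸ F.fixingSubgroup) := by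
    rw [hF]
    exact Subgroup.quotient_finite_of_isOpen U hUopen
  let data : ↥(jRat N) → (Fin D.G.r → _) × (Γℚ ⧸ F.fixingSubgroup → Fin D.G.r → ZMod (2 ^ 1)) :=
    fun z => (fun i => (⟨chi z i, hmem z i⟩ : {c : F.fixingSubgroup →*
      Multiplicative (ZMod 2) | (∃ L : IntermediateField ℚ Qb, FiniteDimensional ℚ L ∧
        ∀ σ : F.fixingSubgroup, (σ : Γℚ) ∈ L.fixingSubgroup → c σ = 1) ∧
      ∀ A : Place, ¬ A.Over T → ∀ σ : F.fixingSubgroup,
        (σ : Γℚ) ∈ A.1.inertiaSubgroupIn ℚ → c σ = 1}), fun q => (R z).c q.out)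
  refine Finite.of_injective (fun q => data q.out) fun q q' h => ?_
  set z : ↥(jRat N) := q.out
  set z' : ↥(jRat N) := q'.out
  have h1 : ∀ τ ∈ F.fixingSubgroup, (R z).c τ = (R z').c τ := fun τ hτ => funext fun i => by
    have := DFunLike.congr_fun (congrArg Subtype.val (congrFun (congrArg Prod.fst h) i)) ⟨τ, hτ⟩
    exact e.injective (Multiplicative.ofAdd.injective this)
  have hc : ∀ σ, (R z).c σ = (R z').c σ := by
    intro σ
    set ρ : Γℚ := (QuotientGroup.mk σ : Γℚ ⧸ F.fixingSubgroup).out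
    obtain ⟨τ, hτ, hσ⟩ : ∃ τ ∈ F.fixingSubgroup, σ = ρ * τ :=
      ⟨ρ⁻¹ * σ, QuotientGroup.eq.mp (QuotientGroup.out_eq' _), (mul_inv_cancel_left _ _).symm⟩
    rw [hσ, (R z).c_mul, (R z').c_mul, h1 τ hτ]
    congr 1
    exact congrFun (congrArg Prod.snd h) _
  have hw : half z - half z' ∈ jRat N := mem_jRat.mpr fun σ => by
    have h2 := congrArg (D.e 1) (hc σ)
    rw [(R z).e_c, (R z').e_c] at h2
    rw [smul_sub, ← sub_eq_zero]
    calc σ • half z - σ • half z' - (half z - half z')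
        = (σ • half z - half z) - (σ • half z' - half z') := by abel
      _ = 0 := sub_eq_zero.mpr h2
  rw [← q.out_eq', ← q'.out_eq', QuotientAddGroup.eq]
  refine ⟨⟨half z' - half z, by simpa using neg_mem hw⟩, Subtype.ext ?_⟩
  show 2 • (half z' - half z) = -(z : JZero N) + (z' : JZero N)
  rw [nsmul_sub, hhalf, hhalf]
  abel

/-- Weak Mordell–Weil as a finite index. -/
theorem finite_fixed_quot_two (hN : N.Prime) :
    (nsmulAddMonoidHom (α := ↥(jRat N)) 2).range.FiniteIndex :=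
  haveI := finite_quotient_two_nsmul N hN
  AddSubgroup.finiteIndex_of_finite_quotient

end FLTAgent.MW
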