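import Fermat.Agent.MW.Main
import Fermat.Agent.MW.Weak
import Fermat.Agent.Mazur.Cusps

/-!
# Mordell-Weil for `J₀(N)`, `N` prime

`fg_jRat`: the rational points of `J₀(N)` are finitely generated, from `fg_of_finiteIndex` with a
rational cusp as base place (the Galois action on Laurent series has open stabilisers,
`exists_fixed_laurentBaseChange`) and weak Mordell-Weil (`finite_fixed_quot_two`).
-/

set_option autoImplicit false

noncomputable section

open AlgebraicCurve ModularCurve

namespace FLTAgent.MW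

local notation "Qb" => AlgebraicClosure ℚ
local notation "Γℚ" => (AlgebraicClosure ℚ ≃ₐ[ℚ] AlgebraicClosure ℚ)

/-- Every Laurent series in the base change is fixed by an open subgroup. -/
theorem exists_fixed_laurentBaseChange (F₀ : IntermediateField ℚ (LaurentSeries ℚ))
    {x : LaurentSeries Qb} (hx : x ∈ laurentBaseChange Qb F₀) :
    ∃ L : IntermediateField ℚ Qb, FiniteDimensional ℚ L ∧
      ∀ σ ∈ L.fixingSubgroup, coeffMap (σ : Qb →+* Qb) x = x := by
  induction hx using IntermediateField.adjoin_induction with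
  | mem a ha =>
    obtain ⟨y, -, rfl⟩ := ha
    exact ⟨⊥, inferInstance, fun σ _ => coeffMap_coeffEmb σ y⟩
  | algebraMap c =>
    refine ⟨IntermediateField.adjoin ℚ {c},
      IntermediateField.adjoin.finiteDimensional (Algebra.IsIntegral.isIntegral c), fun σ hσ => ?_⟩
    rw [coeffMap_algebraMap]
    exact congrArg _ ((IntermediateField.mem_fixingSubgroup_iff _ _).mp hσ c
      (IntermediateField.mem_adjoin_simple_self ℚ c))
  | add a b _ _ ha hb =>
    obtain ⟨L, hL, h⟩ := ha
    obtain ⟨L', hL', h'⟩ := hb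
    refine ⟨L ⊔ L', inferInstance, fun σ hσ => ?_⟩
    rw [map_add, h σ (IntermediateField.fixingSubgroup_le le_sup_left hσ),
      h' σ (IntermediateField.fixingSubgroup_le le_sup_right hσ)]
  | inv a _ ha =>
    obtain ⟨L, hL, h⟩ := ha
    exact ⟨L, hL, fun σ hσ => by rw [map_inv₀, h σ hσ]⟩
  | mul a b _ _ ha hb =>
    obtain ⟨L, hL, h⟩ := ha
    obtain ⟨L', hL', h'⟩ := hb
    refine ⟨L ⊔ L', inferInstance, fun σ hσ => ?_⟩
    rw [map_mul, h σ (IntermediateField.fixingSubgroup_le le_sup_left hσ),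
      h' σ (IntermediateField.fixingSubgroup_le le_sup_right hσ)]

/-- **Mordell-Weil** for `J₀(N)`, `N` prime. -/
theorem fg_jRat (N : ℕ) [NeZero N] (hN : N.Prime) : AddGroup.FG ↥(jRat N) := by
  have : Fact N.Prime := ⟨hN⟩
  obtain ⟨_, cInf, -, -, hcusp⟩ := Mazur.exists_cusps N
  obtain ⟨T, hTO, -⟩ := exists_data cInf ∅
  refine fg_of_finiteIndex (T := T) (ρ := arithmeticGalois (modularFunctionFieldFull N))
    ⟨fun σ => rfl, fun f => ?_, fun σ => ?_⟩ (jRat N)
    (fun x hx σ => (galois_smul_pic0_def _ σ x).symm.trans (hx σ)) (finite_fixed_quot_two N hN)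
  · obtain ⟨L, hL, h⟩ := exists_fixed_laurentBaseChange (modularFunctionFieldFull N) f.2
    refine ⟨L, hL, fun σ hσ => Subtype.ext ?_⟩
    rw [coe_arithmeticGalois_smul]
    exact h σ hσ
  · rw [hTO]
    exact (hcusp σ).2

end FLTAgent.MW
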