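import Fermat.Agent.MW.Config

/-!
# Determinants of evaluation vectors through vanishing functions

`Frame.detAppend_vec`: the determinant of the evaluation vectors at `k` variable and `e` fixed
places is a constant times the determinant of the values at the variable ones of `k` independent
functions vanishing at the fixed ones; `exists_detAppend_update` records linearity in a row.
-/

set_option autoImplicit false
set_option linter.unusedSectionVars false

noncomputable section

open AlgebraicCurve

namespace FLTAgent.MW

variable {K F : Type*} [Field K] [Field F] [Algebra K F] [IsAlgClosed K] [CharZero K]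
  [FF.IsFF K F] (T : Frame K F)

/-- Evaluation at a place other than `O`, linearly on functions with poles at `O` only. -/
def Frame.evV (L : ℕ) (P : Place K F) (hP : P ≠ T.O) : T.V L →ₗ[K] K where
  toFun s := evalAt P (s : F)
  map_add' s t := evalAt_add P (T.V_le_reg L s.2 P hP) (T.V_le_reg L t.2 P hP)
  map_smul' c s := evalAt_smul P c (T.V_le_reg L s.2 P hP)

theorem Frame.evalAt_sum_smul {L : ℕ} {P : Place K F} (hP : P ≠ T.O) {ι : Type*} [Fintype ι]
    (c : ι → K) (s : ι → T.V L) :
    evalAt P ((∑ i, c i • s i : T.V L) : F) = ∑ i, c i * evalAt P (s i : F) := by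
  have h := map_sum (T.evV L P hP) (fun i => c i • s i) Finset.univ
  exact h.trans (Finset.sum_congr rfl fun i _ => (map_smul (T.evV L P hP) (c i) (s i)).trans
    (smul_eq_mul ..))

theorem Frame.dim_add_genus {L : ℕ} (h : 2 * genusFF K F ≤ L + 1) :
    T.dim L + genusFF K F = L + 1 := by
  have hd : Divisor.degree (Finsupp.single T.O (L : ℤ) : Divisor K F) = L := by
    rw [Divisor.degree_single, FF.deg_eq_one, Nat.cast_one, mul_one]
  have h1 := FF.ell_eq_of_large (D := (Finsupp.single T.O (L : ℤ) : Divisor K F)) (by omega)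
  rw [hd] at h1
  change (T.dim L : ℤ) = _ at h1
  omega

/-- Evaluations at few distinct places are independent functionals: dual sections. -/
theorem Frame.exists_sections {L e : ℕ} (he : e + 2 * genusFF K F ≤ L) {E : Fin e → Place K F}
    (hE : Function.Injective E) (hO : ∀ i, E i ≠ T.O) :
    ∃ t : Fin e → T.V L, ∀ i j, evalAt (E j) (t i : F) = if i = j then 1 else 0 := by
  classical
  obtain ⟨J, hJ⟩ := Function.ne_iff.mp (plucker_vec_ne_zero T he hE hO)
  set A : Matrix (Fin e) (Fin e) K := Matrix.of fun i j => T.vec L (E i) (J j) with hA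
  have hdet : IsUnit A.det := isUnit_iff_ne_zero.mpr hJ
  refine ⟨fun i => ∑ l, A⁻¹ l i • T.basis L (J l), fun i j => ?_⟩
  rw [T.evalAt_sum_smul (hO j)]
  calc ∑ l, A⁻¹ l i * evalAt (E j) (T.basis L (J l) : F) = ∑ l, A j l * A⁻¹ l i :=
        Finset.sum_congr rfl fun l _ => mul_comm _ _
    _ = (A * A⁻¹) j i := (Matrix.mul_apply ..).symm
    _ = if i = j then 1 else 0 := by
        rw [Matrix.mul_nonsing_inv A hdet, Matrix.one_apply]
        simp [eq_comm]

/-- As many independent vectors in the kernel of a surjection as the dimensions allow. -/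
private theorem exists_independent_in_ker {R V : Type*} [Field R] [AddCommGroup V] [Module R V]
    [FiniteDimensional R V] {k e : ℕ} (Φ : V →ₗ[R] (Fin e → R)) (hΦ : Function.Surjective Φ)
    (hk : k + e = Module.finrank R V) :
    ∃ s : Fin k → V, LinearIndependent R s ∧ ∀ b, Φ (s b) = 0 := by
  have h1 := LinearMap.finrank_range_add_finrank_ker Φ
  rw [LinearMap.range_eq_top.mpr hΦ, finrank_top, Module.finrank_fin_fun] at h1
  have b := Module.finBasisOfFinrankEq R (LinearMap.ker Φ) (n := k) (by omega)
  have hb := b.linearIndependent.map' (LinearMap.ker Φ).subtype (Submodule.ker_subtype _)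
  exact ⟨_, hb, fun i => LinearMap.mem_ker.mp (b i).2⟩

/-- Independent functions vanishing at few places, as many as possible. -/
theorem Frame.exists_vanishing {L k e : ℕ} (hk : k + e = T.dim L)
    (he : e + 2 * genusFF K F ≤ L) {E : Fin e → Place K F}
    (hE : Function.Injective E) (hO : ∀ i, E i ≠ T.O) :
    ∃ s : Fin k → T.V L, LinearIndependent K s ∧ ∀ b j, evalAt (E j) (s b : F) = 0 := by
  classical
  obtain ⟨t, ht⟩ := T.exists_sections he hE hO
  let Φ : T.V L →ₗ[K] (Fin e → K) := LinearMap.pi fun j => T.evV L (E j) (hO j)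
  have hsurj : Function.Surjective Φ := fun y => by
    refine ⟨∑ i, y i • t i, funext fun j => ?_⟩
    show evalAt (E j) _ = y j
    rw [T.evalAt_sum_smul (hO j)]
    simp [ht]
  have : FiniteDimensional K (T.V L) := FF.finiteDimensional_riemannRochSpace _
  obtain ⟨s, hs, hs0⟩ := exists_independent_in_ker Φ hsurj (k := k) hk
  exact ⟨s, hs, fun b j => congrFun (hs0 b) j⟩

/-- The determinant at points of a pool and at few fixed places is, up to a constant, the
determinant of the values of functions vanishing at the fixed places. -/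
theorem Frame.detAppend_vec {L k e : ℕ} (hk : k + e = T.dim L) (he : e + 2 * genusFF K F ≤ L)
    {E : Fin e → Place K F} (hE : Function.Injective E) (hO : ∀ i, E i ≠ T.O)
    {s : Fin k → T.V L} (hs : LinearIndependent K s) (hs0 : ∀ b j, evalAt (E j) (s b : F) = 0) :
    ∃ a : K, a ≠ 0 ∧ ∀ u : Fin k → Place K F, (∀ i, u i ≠ T.O) →
      detAppend hk (fun i => T.vec L (u i)) (fun i => T.vec L (E i)) =
        a * (Matrix.of fun i b => evalAt (u i) (s b : F)).det := by
  classical
  obtain ⟨t, ht⟩ := T.exists_sections he hE hO
  set σ : Fin k ⊕ Fin e ≃ Fin (T.dim L) := finSumFinEquiv.trans (finCongr hk) with hσ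
  set B : Fin (T.dim L) → T.V L := fun a => Sum.elim s t (σ.symm a) with hB
  have hBi : ∀ x, B (σ x) = Sum.elim s t x := fun x => by simp [hB]
  have hli : LinearIndependent K (Sum.elim s t) := by
    rw [Fintype.linearIndependent_iff]
    intro c hc
    rw [Fintype.sum_sum_type] at hc
    simp only [Sum.elim_inl, Sum.elim_inr] at hc
    have hr : ∀ j, c (Sum.inr j) = 0 := fun j => by
      have h := congrArg (T.evV L (E j) (hO j)) hc
      rw [map_add, map_zero, map_sum, map_sum] at h
      simp only [map_smul, smul_eq_mul] at h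
      change (∑ i, c (Sum.inl i) * evalAt (E j) (s i : F)) +
        ∑ i, c (Sum.inr i) * evalAt (E j) (t i : F) = 0 at h
      simpa [hs0, ht] using h
    simp only [hr, zero_smul, Finset.sum_const_zero, add_zero] at hc
    rintro (i | j)
    · exact Fintype.linearIndependent_iff.mp hs _ hc i
    · exact hr j
  have hBli : LinearIndependent K B := hli.comp _ σ.symm.injective
  set P : Matrix (Fin (T.dim L)) (Fin (T.dim L)) K := (T.basis L).toMatrix B
  have hP : P.det ≠ 0 := by
    have h := (T.basis L).is_basis_iff_det (v := B)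
    rw [Module.Basis.det_apply] at h
    refine (h.mp ⟨hBli, ?_⟩).ne_zero
    exact hBli.span_eq_top_of_card_eq_finrank' (Fintype.card_fin _)
  refine ⟨P.det⁻¹, inv_ne_zero hP, fun u hu => ?_⟩
  set pt : Fin (T.dim L) → Place K F := fun i => Sum.elim u E (σ.symm i) with hpt
  have hptO : ∀ i, pt i ≠ T.O := fun i => by
    simp only [hpt]
    rcases σ.symm i with a | a
    · exact hu a
    · exact hO a
  set R : Matrix (Fin (T.dim L)) (Fin (T.dim L)) K := Matrix.of fun i => T.vec L (pt i)
  have hR : detAppend hk (fun i => T.vec L (u i)) (fun i => T.vec L (E i)) = R.det := by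
    refine congrArg Matrix.det (congrArg Matrix.of (funext fun i => ?_))
    obtain ⟨x, rfl⟩ := σ.surjective i
    rcases x with a | a <;> simp [hpt, hσ]
  have hRP : R * P = Matrix.of fun i j => evalAt (pt i) (B j : F) := by
    refine Matrix.ext fun i j => ?_
    rw [Matrix.mul_apply, Matrix.of_apply]
    conv_rhs => rw [← (T.basis L).sum_repr (B j), T.evalAt_sum_smul (hptO i)]
    exact Finset.sum_congr rfl fun a _ => mul_comm _ _
  have hblock : (R * P).det = (Matrix.of fun i b => evalAt (u i) (s b : F)).det := by
    have e1 : R * P = Matrix.reindex σ σ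
        (Matrix.fromBlocks (Matrix.of fun i b => evalAt (u i) (s b : F))
          (Matrix.of fun i b => evalAt (u i) (t b : F)) 0 1) := by
      rw [hRP]
      refine Matrix.ext fun i j => ?_
      obtain ⟨x, rfl⟩ := σ.surjective i
      obtain ⟨y, rfl⟩ := σ.surjective j
      rw [Matrix.of_apply, Matrix.reindex_apply, Matrix.submatrix_apply, Equiv.symm_apply_apply,
        Equiv.symm_apply_apply, hBi]
      simp only [hpt, Equiv.symm_apply_apply]
      rcases x with a | a <;> rcases y with b | b
      · rfl
      · rfl
      · simp [hs0]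
      · simp [ht, Matrix.one_apply, eq_comm]
    rw [e1, Matrix.det_reindex_self, Matrix.det_fromBlocks_zero₂₁, Matrix.det_one, mul_one]
  rw [hR, ← hblock, Matrix.det_mul, mul_comm R.det, inv_mul_cancel_left₀ hP]

/-- A row varying linearly. -/
theorem exists_detAppend_update {n k e : ℕ} (hk : k + e = n) (i0 : Fin k) (u : Fin k → Fin n → K)
    (w : Fin e → Fin n → K) :
    ∃ cof : Fin n → K, ∀ x : Fin n → K,
      detAppend hk (Function.update u i0 x) w = ∑ a, cof a * x a := by
  classical
  set r0 : Fin n := Fin.cast hk (Fin.castAdd e i0)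
  set R : Matrix (Fin n) (Fin n) K := Matrix.of fun i => Fin.append u w (Fin.cast hk.symm i)
  have hup : ∀ x, detAppend hk (Function.update u i0 x) w = (R.updateRow r0 x).det := fun x => by
    refine congrArg Matrix.det (Matrix.ext fun i j => ?_)
    obtain ⟨i, rfl⟩ : ∃ i' : Fin (k + e), Fin.cast hk i' = i := ⟨Fin.cast hk.symm i, by simp⟩
    rw [Matrix.of_apply, Matrix.updateRow_apply]
    refine Fin.addCases (fun a => ?_) (fun a => ?_) i
    · by_cases h : a = i0
      · subst h; simp [r0]
      · simp [r0, R, h]
    · have : Fin.cast hk (Fin.natAdd k a) ≠ r0 := fun h => by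
        have := congrArg Fin.val h
        simp [r0] at this
        omega
      simp [R, this]
  let Lm : (Fin n → K) →ₗ[K] K :=
    { toFun := fun x => (R.updateRow r0 x).det
      map_add' := fun x y => Matrix.det_updateRow_add R r0 x y
      map_smul' := fun c x => Matrix.det_updateRow_smul R r0 c x }
  refine ⟨fun a => Lm (Pi.single a 1), fun x => ?_⟩
  rw [hup]
  show Lm x = _
  conv_lhs => rw [pi_eq_sum_univ' x, map_sum]
  exact Finset.sum_congr rfl fun a _ => by rw [map_smul, smul_eq_mul, mul_comm]

/-- A repeated row. -/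
theorem detAppend_update_eq_zero {n k e : ℕ} (hk : k + e = n) (i0 : Fin k) (u : Fin k → Fin n → K)
    (w : Fin e → Fin n → K) (j : Fin e) : detAppend hk (Function.update u i0 (w j)) w = 0 := by
  refine Matrix.det_zero_of_row_eq (i := Fin.cast hk (Fin.castAdd e i0))
    (j := Fin.cast hk (Fin.natAdd k j)) (fun h => ?_) (funext fun a => by simp)
  have := congrArg Fin.val h
  simp at this
  omega

end FLTAgent.MW
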