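import Fermat.Agent.MW.Config
import Fermat.Agent.MW.PhiLinear
import Fermat.Agent.MW.Abs
import Fermat.Prelude.Def_AlgebraicCurve_BaseChangeGalois

/-!
# The coordinates of a class

A `Cfg` represents a class and its opposite by distinct places.  The vector `Data.coords` depends
on the class only up to a scalar (`Data.exists_smul_coords`) and determines it up to finitely many
(`Data.finite_setOf_coords`); after a number field fixes the bases and the pool it commutes with
Galois, so Northcott gives `finite_setOf_ht_coords_le`: fixed classes of bounded height are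
finitely many.
-/

set_option autoImplicit false

noncomputable section

open AlgebraicCurve

namespace FLTAgent.MW

section Cfg

variable {K F : Type*} [Field K] [Field F] [Algebra K F] [IsAlgClosed K] [CharZero K]
  [FF.IsFF K F]

/-- A configuration: distinct places away from `O` and the pool, representing a class and its
opposite, and the function with these zeros. -/
structure Cfg (T : Data K F) (e : ℕ) (x : Pic0 K F) where
  E : Fin e → Place K F
  E' : Fin e → Place K F
  inj : Function.Injective (Fin.append E E')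
  ne_O : ∀ i, Fin.append E E' i ≠ T.O
  ne_pool : ∀ i j, Fin.append E E' i ≠ T.pool j
  f : F
  f_mem : f ∈ T.toFrame.V (e + e)
  f_ne : f ≠ 0
  f_div : FF.divisorOf f = T.toFrame.pdiv (e + e) (Fin.append E E')
  cls_eq : T.toFrame.cls E = x

/-- The divisor `∑ E i`. -/
def sumE {K F : Type*} [Field K] [Field F] [Algebra K F] {e : ℕ} (E : Fin e → Place K F) :
    Divisor K F :=
  ∑ i, Finsupp.single (E i) 1

theorem sumE_apply_self {e : ℕ} {E : Fin e → Place K F} (hE : Function.Injective E) (i : Fin e) :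
    sumE E (E i) = 1 := by
  rw [sumE, Finsupp.finsetSum_apply, Finset.sum_eq_single i (fun j _ hj => ?_) (by simp)]
  · exact Finsupp.single_eq_same
  · exact Finsupp.single_eq_of_ne (hE.ne hj).symm

theorem sumE_apply_of_ne {e : ℕ} {E : Fin e → Place K F} {P : Place K F} (h : ∀ i, E i ≠ P) :
    sumE E P = 0 := by
  rw [sumE, Finsupp.finsetSum_apply]
  exact Finset.sum_eq_zero fun i _ => Finsupp.single_eq_of_ne (h i).symm

theorem sumE_append {e e' : ℕ} (E : Fin e → Place K F) (E' : Fin e' → Place K F) :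
    sumE (Fin.append E E') = sumE E + sumE E' := by
  rw [sumE, Fin.sum_univ_add]
  simp [sumE]

theorem Frame.pdiv_eq (T : Frame K F) {e : ℕ} (n : ℕ) (E : Fin e → Place K F) :
    T.pdiv n E = sumE E - Finsupp.single T.O (n : ℤ) := rfl

theorem divisorOf_mul_eq {f g : F} (hf : f ≠ 0) (hg : g ≠ 0) :
    (FF.divisorOf (f * g) : Divisor K F) = FF.divisorOf f + FF.divisorOf g :=
  Finsupp.ext fun v => v.ord_mul hf hg

theorem divisorOf_inv_eq (f : F) : (FF.divisorOf f⁻¹ : Divisor K F) = -FF.divisorOf f :=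
  Finsupp.ext fun v => v.ord_inv f

/-- Functions vanishing at given places have a divisor bounded below. -/
theorem Frame.sumE_le (T : Frame K F) {L e : ℕ} {E : Fin e → Place K F} (hE : Function.Injective E)
    (hO : ∀ i, E i ≠ T.O) {s : F} (hs : s ∈ T.V L) (hs0 : ∀ i, evalAt (E i) s = 0) (hne : s ≠ 0) :
    sumE E ≤ FF.divisorOf s + Finsupp.single T.O (L : ℤ) := by
  refine Finsupp.le_def.mpr fun P => ?_
  rw [Finsupp.add_apply, FF.divisorOf_apply]
  have h := FF.ord_of_mem_riemannRochSpace hs hne P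
  by_cases hP : ∃ i, E i = P
  · obtain ⟨i, rfl⟩ := hP
    rw [sumE_apply_self hE, Finsupp.single_eq_of_ne (hO i), add_zero]
    exact (evalAt_eq_zero_iff _ (T.V_le_reg L hs _ (hO i)) hne).mp (hs0 i)
  · rw [sumE_apply_of_ne (fun i hi => hP ⟨i, hi⟩)]
    omega

/-- A function moving the zeros moves the functions vanishing there. -/
theorem Frame.mul_mem_of_divisorOf (T : Frame K F) {L e : ℕ} {E₁ E₂ : Fin e → Place K F}
    (hE₁ : Function.Injective E₁) (hO₁ : ∀ i, E₁ i ≠ T.O)
    (hE₂ : Function.Injective E₂) (hO₂ : ∀ i, E₂ i ≠ T.O)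
    {g : F} (hg : g ≠ 0) (hdiv : FF.divisorOf g = sumE E₂ - sumE E₁) (s : T.V L)
    (hs : ∀ i, evalAt (E₁ i) (s : F) = 0) :
    g * (s : F) ∈ T.V L ∧ ∀ i, evalAt (E₂ i) (g * (s : F)) = 0 := by
  rcases eq_or_ne (s : F) 0 with h0 | h0
  · rw [h0, mul_zero]
    exact ⟨zero_mem _, fun i => evalAt_zero _⟩
  have hb : sumE E₂ ≤ (FF.divisorOf (g * (s : F)) : Divisor K F) + Finsupp.single T.O (L : ℤ) := by
    rw [divisorOf_mul_eq hg h0, hdiv]
    have := T.sumE_le hE₁ hO₁ s.2 hs h0
    calc sumE E₂ = sumE E₂ - sumE E₁ + sumE E₁ := (sub_add_cancel _ _).symm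
      _ ≤ sumE E₂ - sumE E₁ + (FF.divisorOf (s : F) + Finsupp.single T.O (L : ℤ)) :=
          add_le_add le_rfl this
      _ = _ := (add_assoc _ _ _).symm
  have hnn : ∀ P, 0 ≤ sumE E₂ P := fun P => by
    rw [sumE, Finsupp.finsetSum_apply]
    exact Finset.sum_nonneg fun i _ => by
      classical
      rw [Finsupp.single_apply]; split_ifs <;> omega
  have hmem : g * (s : F) ∈ T.V L := FF.mem_riemannRochSpace_of_ord fun P => by
    have h := Finsupp.le_def.mp hb P
    have := hnn P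
    rw [Finsupp.add_apply, FF.divisorOf_apply] at h
    omega
  refine ⟨hmem, fun i => (evalAt_eq_zero_iff _ (T.V_le_reg L hmem _ (hO₂ i))
    (mul_ne_zero hg h0)).mpr ?_⟩
  have h := Finsupp.le_def.mp hb (E₂ i)
  rw [Finsupp.add_apply, FF.divisorOf_apply, sumE_apply_self hE₂,
    Finsupp.single_eq_of_ne (hO₂ i)] at h
  omega

namespace Cfg

variable {T : Data K F} {e : ℕ} {x : Pic0 K F} (c : Cfg T e x)

theorem inj_left : Function.Injective c.E := fun i j h => by
  have := @c.inj (Fin.castAdd e i) (Fin.castAdd e j) (by simpa using h)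
  exact Fin.castAdd_injective _ _ this

theorem inj_right : Function.Injective c.E' := fun i j h => by
  have := @c.inj (Fin.natAdd e i) (Fin.natAdd e j) (by rwa [Fin.append_right, Fin.append_right])
  exact Fin.natAdd_injective _ _ this

theorem ne_O_left (i : Fin e) : c.E i ≠ T.O := by simpa using c.ne_O (Fin.castAdd e i)

theorem ne_O_right (i : Fin e) : c.E' i ≠ T.O := by
  have h := c.ne_O (Fin.natAdd e i)
  rwa [Fin.append_right] at h

theorem f_regular (P : Place K F) (hP : P ≠ T.O) : c.f ∈ P.toValuationSubring :=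
  T.toFrame.V_le_reg _ c.f_mem P hP

theorem divisorOf_f :
    FF.divisorOf c.f = sumE c.E + sumE c.E' - Finsupp.single T.O ((e + e : ℕ) : ℤ) := by
  rw [c.f_div, Frame.pdiv_eq, sumE_append]

theorem ord_pool (i : Fin T.npool) :
    sumE c.E (T.pool i) = 0 ∧ sumE c.E' (T.pool i) = 0 :=
  ⟨sumE_apply_of_ne fun j => by simpa using c.ne_pool (Fin.castAdd e j) i,
    sumE_apply_of_ne fun j => by
      have h := c.ne_pool (Fin.natAdd e j) i
      rwa [Fin.append_right] at h⟩

theorem evalAt_pool_ne_zero (i : Fin T.npool) : evalAt (T.pool i) c.f ≠ 0 := fun h0 => by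
  have h1 := (evalAt_eq_zero_iff _ (c.f_regular _ (T.pool_ne i)) c.f_ne).mp h0
  have h2 := DFunLike.congr_fun c.divisorOf_f (T.pool i)
  rw [FF.divisorOf_apply, Finsupp.sub_apply, Finsupp.add_apply, (c.ord_pool i).1,
    (c.ord_pool i).2, Finsupp.single_eq_of_ne (T.pool_ne i)] at h2
  omega

end Cfg

namespace Data

variable (T : Data K F)

/-- The number of pool points in a coordinate of a class. -/
abbrev kk : ℕ := T.toFrame.dim T.M - (T.m + T.m)

theorem M_bounds : T.m + T.m + 2 * genusFF K F ≤ T.M ∧ T.m + T.m + genusFF K F ≤ T.M ∧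
    2 * genusFF K F ≤ T.M + 1 := by
  have h := T.hm
  have h4 : 4 * T.m ≤ 4 * T.m * T.m := Nat.le_mul_of_pos_right _ (by omega)
  unfold M
  omega

theorem kk_add : T.kk + (T.m + T.m) = T.toFrame.dim T.M := by
  have h := T.M_bounds
  have h2 := T.toFrame.dim_add_genus h.2.2
  unfold kk
  omega

theorem kk_pos : 0 < T.kk := by
  have h := T.M_bounds
  have h2 := T.toFrame.dim_add_genus h.2.2
  have h3 := T.hm
  unfold kk
  omega

/-- The coordinates of a configuration of size `2 m`. -/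
def coords {x : Pic0 K F} (c : Cfg T (T.m + T.m) x) : (Fin T.kk → Fin T.npool) → K :=
  T.phi T.kk_add c.E c.E' c.f

theorem coords_apply {x : Pic0 K F} (c : Cfg T (T.m + T.m) x) (I : Fin T.kk → Fin T.npool) :
    T.coords c I = detAppend T.kk_add (fun i => T.toFrame.vec T.M (T.pool (I i)))
        (fun i => T.toFrame.vec T.M (c.E i)) *
      detAppend T.kk_add (fun i => T.toFrame.vec T.M (T.pool (I i)))
        (fun i => T.toFrame.vec T.M (c.E' i)) /
      ∏ i, evalAt (T.pool (I i)) c.f := rfl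

/-- The coordinates depend on the class only up to a nonzero scalar. -/
theorem exists_smul_coords {x : Pic0 K F} (c c' : Cfg T (T.m + T.m) x) :
    ∃ a : K, a ≠ 0 ∧ T.coords c' = a • T.coords c := by
  classical
  have he := T.M_bounds.1
  obtain ⟨g, hg, hgd⟩ : ∃ g : F, g ≠ 0 ∧ FF.divisorOf g = sumE c'.E - sumE c.E := by
    have h : Pic0.mk ⟨_, T.toFrame.pdiv_mem_degZero c.E⟩ =
        Pic0.mk ⟨_, T.toFrame.pdiv_mem_degZero c'.E⟩ := c.cls_eq.trans c'.cls_eq.symm
    obtain ⟨g, hg, hgd⟩ := AddSubgroup.mem_addSubgroupOf.mp (QuotientAddGroup.eq.mp h)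
    refine ⟨g, hg, Finsupp.ext fun P => ?_⟩
    rw [FF.divisorOf_apply, ← hgd]
    show (-T.toFrame.pdiv _ c.E + T.toFrame.pdiv _ c'.E : Divisor K F) P = _
    rw [Frame.pdiv_eq, Frame.pdiv_eq,
      show -(sumE c.E - Finsupp.single T.O _) + (sumE c'.E - Finsupp.single T.O _) =
        sumE c'.E - sumE c.E by abel]
  set g' := c'.f * (c.f * g)⁻¹ with hg'def
  have hcg : c.f * g ≠ 0 := mul_ne_zero c.f_ne hg
  have hg' : g' ≠ 0 := mul_ne_zero c'.f_ne (inv_ne_zero hcg)
  have hgd' : FF.divisorOf g' = sumE c'.E' - sumE c.E' := by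
    rw [hg'def, divisorOf_mul_eq c'.f_ne (inv_ne_zero hcg), divisorOf_inv_eq,
      divisorOf_mul_eq c.f_ne hg, hgd, c.divisorOf_f, c'.divisorOf_f]
    abel
  obtain ⟨s, hs, hs0⟩ := T.toFrame.exists_vanishing T.kk_add he c.inj_left c.ne_O_left
  obtain ⟨s', hs', hs'0⟩ := T.toFrame.exists_vanishing T.kk_add he c.inj_right c.ne_O_right
  have hmv : ∀ b, _ := fun b => T.toFrame.mul_mem_of_divisorOf c.inj_left c.ne_O_left c'.inj_left
    c'.ne_O_left hg hgd (s b) (hs0 b)
  have hmv' : ∀ b, _ := fun b => T.toFrame.mul_mem_of_divisorOf c.inj_right c.ne_O_right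
    c'.inj_right c'.ne_O_right hg' hgd' (s' b) (hs'0 b)
  have hliMul : ∀ {g : F} (hg : g ≠ 0) {s : Fin T.kk → T.toFrame.V T.M}
      (_ : LinearIndependent K s) {S : Fin T.kk → T.toFrame.V T.M}
      (_ : ∀ b, (S b : F) = g * (s b : F)), LinearIndependent K S := by
    intro g hg s hs S hS
    rw [Fintype.linearIndependent_iff] at hs ⊢
    intro a ha
    refine hs a (Subtype.ext (mul_left_cancel₀ hg ?_))
    have h := congrArg Subtype.val ha
    simp only [Submodule.coe_sum, Submodule.coe_smul, hS] at h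
    rw [Submodule.coe_sum, Finset.mul_sum, Submodule.coe_zero, mul_zero]
    simpa only [Submodule.coe_smul, mul_smul_comm, Submodule.coe_zero] using h
  set S : Fin T.kk → T.toFrame.V T.M := fun b => ⟨g * (s b : F), (hmv b).1⟩
  set S' : Fin T.kk → T.toFrame.V T.M := fun b => ⟨g' * (s' b : F), (hmv' b).1⟩
  obtain ⟨a₁, ha₁, k₁⟩ := T.toFrame.detAppend_vec T.kk_add he c.inj_left c.ne_O_left hs hs0
  obtain ⟨b₁, hb₁, l₁⟩ := T.toFrame.detAppend_vec T.kk_add he c.inj_right c.ne_O_right hs' hs'0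
  obtain ⟨a₂, ha₂, k₂⟩ := T.toFrame.detAppend_vec T.kk_add he c'.inj_left c'.ne_O_left
    (hliMul hg hs (S := S) fun _ => rfl) fun b j => (hmv b).2 j
  obtain ⟨b₂, hb₂, l₂⟩ := T.toFrame.detAppend_vec T.kk_add he c'.inj_right c'.ne_O_right
    (hliMul hg' hs' (S := S') fun _ => rfl) fun b j => (hmv' b).2 j
  refine ⟨a₂ * b₂ * (a₁ * b₁)⁻¹, by positivity, funext fun I => ?_⟩
  have hord : ∀ {h : F} (D D' : Fin (T.m + T.m) → Place K F),
      h ≠ 0 → FF.divisorOf h = sumE D - sumE D' → ∀ i, sumE D (T.pool i) = 0 →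
      sumE D' (T.pool i) = 0 →
      h ∈ (T.pool i).toValuationSubring ∧ evalAt (T.pool i) h ≠ 0 := by
    intro h D D' h0 hd i h1 h2
    have h3 := DFunLike.congr_fun hd (T.pool i)
    rw [FF.divisorOf_apply, Finsupp.sub_apply, h1, h2, sub_zero] at h3
    have hm : h ∈ (T.pool i).toValuationSubring := by rw [FF.mem_iff_ord_nonneg _ h0, h3]
    exact ⟨hm, fun he => by
      have := (evalAt_eq_zero_iff _ hm h0).mp he
      omega⟩
  have hgI := fun i => hord c'.E c.E hg hgd i (c'.ord_pool i).1 (c.ord_pool i).1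
  have hgI' := fun i => hord c'.E' c.E' hg' hgd' i (c'.ord_pool i).2 (c.ord_pool i).2
  have hmul : ∀ i, evalAt (T.pool i) c'.f =
      evalAt (T.pool i) c.f * evalAt (T.pool i) g * evalAt (T.pool i) g' := fun i => by
    have hf := c.f_regular _ (T.pool_ne i)
    rw [← evalAt_mul _ hf (hgI i).1, ← evalAt_mul _ (mul_mem hf (hgI i).1) (hgI' i).1]
    congr 1
    rw [hg'def, mul_left_comm, mul_inv_cancel₀ hcg, mul_one]
  have hdet : ∀ {h : F} (hh : ∀ i, h ∈ (T.pool i).toValuationSubring)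
      (s : Fin T.kk → T.toFrame.V T.M) (S : Fin T.kk → T.toFrame.V T.M),
      (∀ b, (S b : F) = h * (s b : F)) →
      (Matrix.of fun i b => evalAt (T.pool (I i)) (S b : F)).det =
        (∏ i, evalAt (T.pool (I i)) h) *
          (Matrix.of fun i b => evalAt (T.pool (I i)) (s b : F)).det := by
    intro h hh s S hS
    rw [← Matrix.det_mul_column]
    refine congrArg Matrix.det (Matrix.ext fun i b => ?_)
    simp only [Matrix.of_apply, hS]
    exact evalAt_mul _ (hh _) (T.toFrame.V_le_reg _ (s b).2 _ (T.pool_ne _))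
  have hO : ∀ i, T.pool (I i) ≠ T.O := fun i => T.pool_ne _
  rw [Pi.smul_apply, smul_eq_mul, T.coords_apply, T.coords_apply, k₁ _ hO, l₁ _ hO, k₂ _ hO,
    l₂ _ hO, hdet (fun i => (hgI i).1) s S fun _ => rfl,
    hdet (fun i => (hgI' i).1) s' S' fun _ => rfl,
    Finset.prod_congr rfl fun i _ => hmul (I i), Finset.prod_mul_distrib, Finset.prod_mul_distrib]
  have hP₁ : ∏ i, evalAt (T.pool (I i)) g ≠ 0 := Finset.prod_ne_zero_iff.mpr fun i _ => (hgI _).2
  have hP₂ : ∏ i, evalAt (T.pool (I i)) g' ≠ 0 :=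
    Finset.prod_ne_zero_iff.mpr fun i _ => (hgI' _).2
  have hP₀ : ∏ i, evalAt (T.pool (I i)) c.f ≠ 0 :=
    Finset.prod_ne_zero_iff.mpr fun i _ => c.evalAt_pool_ne_zero _
  field_simp

/-- One place varying in a coordinate: a function with the values of the coordinates on the pool,
with known zeros. -/
theorem exists_fun_coords {x : Pic0 K F} (c : Cfg T (T.m + T.m) x) {v : (Fin T.kk → Fin T.npool) → K}
    {a : K} (ha : a ≠ 0) (hca : T.coords c = a • v) {J : Fin T.kk → Fin T.npool} (hJ : v J ≠ 0)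
    (i0 : Fin T.kk) :
    ∃ (u : F) (R : Divisor K F) (C : K), C ≠ 0 ∧ u ≠ 0 ∧
      u ∈ T.toFrame.V (T.M + T.M - (T.m + T.m + (T.m + T.m))) ∧
      (∀ i, evalAt (T.pool i) u = C * v (Function.update J i0 i)) ∧
      0 ≤ R ∧ R ≤ FF.divisorOf u +
        Finsupp.single T.O ((T.M + T.M - (T.m + T.m + (T.m + T.m)) : ℕ) : ℤ) ∧
      ∃ h, x = Pic0.mk ⟨Finsupp.single T.O ((T.M : ℤ) - ((T.m + T.m : ℕ) : ℤ)) - R, h⟩ := by
  classical
  set v₀ : Fin T.kk → Fin (T.toFrame.dim T.M) → K := fun i => T.toFrame.vec T.M (T.pool (J i))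
  have mk_section : ∀ (E : Fin (T.m + T.m) → Place K F), (∀ i, E i ≠ T.O) →
      detAppend T.kk_add v₀ (fun i => T.toFrame.vec T.M (E i)) ≠ 0 →
      ∃ s : T.toFrame.V T.M, (s : F) ≠ 0 ∧ (∀ i, evalAt (E i) (s : F) = 0) ∧
        ∀ i, evalAt (T.pool i) (s : F) = detAppend T.kk_add
          (fun l => T.toFrame.vec T.M (T.pool (Function.update J i0 i l)))
          (fun l => T.toFrame.vec T.M (E l)) := by
    intro E hEO hne
    obtain ⟨cof, hcof⟩ :=
      exists_detAppend_update T.kk_add i0 v₀ fun i => T.toFrame.vec T.M (E i)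
    have hval : ∀ (P : Place K F), P ≠ T.O →
        evalAt P ((∑ a, cof a • T.toFrame.basis T.M a : T.toFrame.V T.M) : F) =
          detAppend T.kk_add (Function.update v₀ i0 (T.toFrame.vec T.M P))
            (fun i => T.toFrame.vec T.M (E i)) := fun P hP => by
      rw [T.toFrame.evalAt_sum_smul hP, hcof]
      rfl
    have hupd : ∀ i, Function.update v₀ i0 (T.toFrame.vec T.M (T.pool i)) =
        fun l => T.toFrame.vec T.M (T.pool (Function.update J i0 i l)) := fun i =>
      funext fun l => by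
        by_cases hl : l = i0
        · subst hl; simp
        · simp [hl, v₀]
    refine ⟨∑ a, cof a • T.toFrame.basis T.M a, fun h0 => hne ?_, fun i => ?_, fun i => ?_⟩
    · have h := hval _ (T.pool_ne (J i0))
      rw [h0, evalAt_zero, hupd, Function.update_eq_self] at h
      exact h.symm
    · rw [hval _ (hEO i)]
      exact detAppend_update_eq_zero T.kk_add i0 v₀ (fun l => T.toFrame.vec T.M (E l)) i
    · rw [hval _ (T.pool_ne i), hupd]
  have hJc : T.coords c J ≠ 0 := by
    rw [hca, Pi.smul_apply, smul_eq_mul]; exact mul_ne_zero ha hJ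
  rw [T.coords_apply, div_ne_zero_iff, mul_ne_zero_iff] at hJc
  obtain ⟨s, hs, hs0, hsv⟩ := mk_section c.E c.ne_O_left hJc.1.1
  obtain ⟨t, ht, ht0, htv⟩ := mk_section c.E' c.ne_O_right hJc.1.2
  set u : F := (s : F) * (t : F) * c.f⁻¹ with hu
  set L := T.M + T.M - ((T.m + T.m) + (T.m + T.m)) with hL
  have hu0 : u ≠ 0 := mul_ne_zero (mul_ne_zero hs ht) (inv_ne_zero c.f_ne)
  set R := FF.divisorOf (s : F) + Finsupp.single T.O (T.M : ℤ) - sumE c.E with hR
  set R' := FF.divisorOf (t : F) + Finsupp.single T.O (T.M : ℤ) - sumE c.E' with hR'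
  have hR0 : 0 ≤ R := sub_nonneg.mpr (T.toFrame.sumE_le c.inj_left c.ne_O_left s.2 hs0 hs)
  have hR0' : 0 ≤ R' := sub_nonneg.mpr (T.toFrame.sumE_le c.inj_right c.ne_O_right t.2 ht0 ht)
  have hle : (T.m + T.m) + (T.m + T.m) ≤ T.M + T.M := by
    have := T.M_bounds.1
    omega
  have hdiv : FF.divisorOf u + Finsupp.single T.O (L : ℤ) = R + R' := by
    rw [hu, divisorOf_mul_eq (mul_ne_zero hs ht) (inv_ne_zero c.f_ne), divisorOf_inv_eq,
      divisorOf_mul_eq hs ht, c.divisorOf_f, hR, hR', hL, Nat.cast_sub hle, Finsupp.single_sub,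
      Nat.cast_add T.M T.M, Finsupp.single_add]
    abel
  have huV : u ∈ T.toFrame.V L := FF.mem_riemannRochSpace_of_ord fun P => by
    have h := DFunLike.congr_fun hdiv P
    rw [Finsupp.add_apply, Finsupp.add_apply, FF.divisorOf_apply] at h
    have h1 : 0 ≤ R P := Finsupp.le_def.mp hR0 P
    have h2 : 0 ≤ R' P := Finsupp.le_def.mp hR0' P
    omega
  set C : K := a * ∏ l ∈ Finset.univ.erase i0, evalAt (T.pool (J l)) c.f with hC
  refine ⟨u, R, C, mul_ne_zero ha (Finset.prod_ne_zero_iff.mpr fun l _ =>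
    c.evalAt_pool_ne_zero _), hu0, huV, fun i => ?_, hR0,
    hdiv ▸ le_add_of_nonneg_right hR0', ?_⟩
  · have hP := T.pool_ne i
    have hmul : evalAt (T.pool i) u * evalAt (T.pool i) c.f =
        evalAt (T.pool i) (s : F) * evalAt (T.pool i) (t : F) := by
      rw [← evalAt_mul _ (T.toFrame.V_le_reg _ huV _ hP) (c.f_regular _ hP),
        ← evalAt_mul _ (T.toFrame.V_le_reg _ s.2 _ hP) (T.toFrame.V_le_reg _ t.2 _ hP)]
      exact congrArg (evalAt _) (inv_mul_cancel_right₀ c.f_ne _)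
    have h := congrFun hca (Function.update J i0 i)
    rw [T.coords_apply, ← hsv, ← htv, ← hmul, Pi.smul_apply, smul_eq_mul,
      ← Finset.mul_prod_erase Finset.univ _ (Finset.mem_univ i0), Function.update_self,
      Finset.prod_congr rfl (fun l hl => by
        rw [Function.update_of_ne (Finset.ne_of_mem_erase hl)]),
      div_eq_iff (mul_ne_zero (c.evalAt_pool_ne_zero _) (Finset.prod_ne_zero_iff.mpr fun l _ =>
        c.evalAt_pool_ne_zero _))] at h
    rw [hC]
    refine mul_right_cancel₀ (c.evalAt_pool_ne_zero i) (h.trans ?_)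
    ring
  · refine ⟨?_, ?_⟩
    · have h := T.toFrame.pdiv_mem_degZero c.E
      rw [Divisor.mem_degZero, Frame.pdiv_eq, map_sub] at h
      rw [Divisor.mem_degZero, hR]
      simp only [map_sub, map_add, FF.degree_divisorOf, Divisor.degree_single, FF.deg_eq_one,
        Nat.cast_one, mul_one] at h ⊢
      linarith
    · refine c.cls_eq.symm.trans (QuotientAddGroup.eq.mpr (AddSubgroup.mem_addSubgroupOf.mpr ?_))
      refine ⟨((s : F))⁻¹, inv_ne_zero hs, fun P => ?_⟩
      rw [← FF.divisorOf_apply, divisorOf_inv_eq]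
      refine DFunLike.congr_fun (?_ : (_ : Divisor K F) = _) P
      show -T.toFrame.pdiv (T.m + T.m) c.E +
        (Finsupp.single T.O ((T.M : ℤ) - ((T.m + T.m : ℕ) : ℤ)) - R) = _
      rw [Frame.pdiv_eq, hR, Finsupp.single_sub]
      abel

/-- Finitely many classes have proportional coordinates. -/
theorem finite_setOf_coords (v : (Fin T.kk → Fin T.npool) → K) (hv : v ≠ 0) :
    {x : Pic0 K F | ∃ (c : Cfg T (T.m + T.m) x) (a : K), a ≠ 0 ∧ T.coords c = a • v}.Finite := by
  classical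
  set X := {x : Pic0 K F | ∃ (c : Cfg T (T.m + T.m) x) (a : K), a ≠ 0 ∧ T.coords c = a • v}
  obtain ⟨J, hJ⟩ := Function.ne_iff.mp hv
  set i0 : Fin T.kk := ⟨0, T.kk_pos⟩
  rcases X.eq_empty_or_nonempty with hX | ⟨x₀, c₀, a₀, ha₀, hc₀⟩
  · rw [hX]; exact Set.finite_empty
  obtain ⟨u₀, -, C₀, hC₀, hu₀, hV₀, hval₀, -⟩ := T.exists_fun_coords c₀ ha₀ hc₀ hJ i0
  set L := T.M + T.M - (T.m + T.m + (T.m + T.m))
  set Φ : Divisor K F → Pic0 K F := fun R =>
    if h : Finsupp.single T.O ((T.M : ℤ) - ((T.m + T.m : ℕ) : ℤ)) - R ∈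
        Divisor.degZero (K := K) (F := F)
    then Pic0.mk ⟨_, h⟩ else 0
  refine ((Set.finite_Icc (0 : Divisor K F)
    (FF.divisorOf u₀ + Finsupp.single T.O (L : ℤ))).image Φ).subset ?_
  rintro x ⟨c, a, ha, hc⟩
  obtain ⟨u, R, C, hC, hu, hV, hval, hR0, hRle, hmem, hx⟩ := T.exists_fun_coords c ha hc hJ i0
  set w : T.toFrame.V L := C₀ • ⟨u, hV⟩ - C • ⟨u₀, hV₀⟩ with hw
  have hw0 : (w : F) = 0 := by
    refine eq_zero_of_evalAt_eq_zero T.toFrame L T.pool T.pool_injective T.pool_ne ?_ w.2 fun i => ?_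
    · rw [Fintype.card_fin]
      show L < 4 * (4 * T.m * T.m) + 1
      have : T.M = 4 * T.m * T.m := rfl
      omega
    · show T.toFrame.evV L (T.pool i) (T.pool_ne i) w = 0
      rw [hw, map_sub, map_smul, map_smul]
      show C₀ * evalAt (T.pool i) u - C * evalAt (T.pool i) u₀ = 0
      rw [hval, hval₀]
      ring
  have hdd : FF.divisorOf u = (FF.divisorOf u₀ : Divisor K F) := by
    have h : u = algebraMap K F (C₀⁻¹ * C) * u₀ := by
      have h1 : C₀ • u = C • u₀ := sub_eq_zero.mp hw0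
      rw [← inv_smul_smul₀ hC₀ u, h1, smul_smul, Algebra.smul_def]
    rw [h, divisorOf_mul_eq (by simpa using mul_ne_zero (inv_ne_zero hC₀) hC) hu₀]
    refine Finsupp.ext fun P => ?_
    rw [Finsupp.add_apply, FF.divisorOf_apply, FF.ord_algebraMap, zero_add]
  exact ⟨R, ⟨hR0, hdd ▸ hRle⟩, (dif_pos hmem).trans hx.symm⟩

end Data

end Cfg

section Galois

local notation "Qb" => AlgebraicClosure ℚ
local notation "Γℚ" => (AlgebraicClosure ℚ ≃ₐ[ℚ] AlgebraicClosure ℚ)

variable {F : Type*} [Field F] [Algebra Qb F] [FF.IsFF Qb F]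

/-- A semilinear Galois action with open stabilisers fixing the base place. -/
structure IsGalAction (T : Data Qb F) (ρ : Γℚ →* SemilinearAut Qb F) : Prop where
  baseAut_eq : ∀ σ : Γℚ, SemilinearAut.baseAut (ρ σ) = σ.toRingEquiv
  exists_fixed : ∀ f : F, ∃ L : IntermediateField ℚ Qb, FiniteDimensional ℚ L ∧
    ∀ σ ∈ L.fixingSubgroup, ρ σ • f = f
  smul_O : ∀ σ : Γℚ, ρ σ • T.O = T.O

variable {T : Data Qb F} {ρ : Γℚ →* SemilinearAut Qb F}

theorem IsGalAction.baseAut_apply (hρ : IsGalAction T ρ) (σ : Γℚ) (a : Qb) :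
    SemilinearAut.baseAut (ρ σ) a = σ a := by
  rw [hρ.baseAut_eq]; rfl

omit [FF.IsFF Qb F] in
theorem smul_mem_valuationSubring (g : SemilinearAut Qb F) {P : Place Qb F} {f : F}
    (h : f ∈ P.toValuationSubring) : g • f ∈ (g • P).toValuationSubring :=
  ValuationSubring.smul_mem_pointwise_smul g f P.toValuationSubring h

theorem evalAt_smul_smul (g : SemilinearAut Qb F) {P : Place Qb F} {f : F}
    (h : f ∈ P.toValuationSubring) :
    evalAt (g • P) (g • f) = SemilinearAut.baseAut g (evalAt P f) := by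
  refine (evalAt_eq_iff _ (smul_mem_valuationSubring g h) _).mpr ?_
  rcases evalAt_spec P h with h1 | h1
  · refine Or.inl ?_
    conv_lhs => rw [h1, SemilinearAut.smul_algebraMap]
  · refine Or.inr ?_
    rw [← SemilinearAut.smul_algebraMap, ← smul_sub, SemilinearAut.ord_smul]
    exact h1

theorem divisorOf_smul (g : SemilinearAut Qb F) (f : F) :
    (FF.divisorOf (g • f) : Divisor Qb F) = g • FF.divisorOf f := by
  refine Finsupp.ext fun w => ?_
  rw [SemilinearAut.divisor_smul_apply, FF.divisorOf_apply, FF.divisorOf_apply,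
    ← SemilinearAut.ord_smul g (g⁻¹ • w) f, smul_inv_smul]

namespace IsGalAction

variable (hρ : IsGalAction T ρ)
include hρ

theorem smul_pdiv (σ : Γℚ) {e : ℕ} (n : ℕ) (E : Fin e → Place Qb F) :
    ρ σ • T.toFrame.pdiv n E = T.toFrame.pdiv n (fun i => ρ σ • E i) := by
  rw [Frame.pdiv_eq, Frame.pdiv_eq, sumE, sumE, smul_sub, Finset.smul_sum,
    SemilinearAut.smul_single, hρ.smul_O]
  simp

theorem smul_mem_V (σ : Γℚ) {L : ℕ} {f : F} (hf : f ∈ T.toFrame.V L) :
    ρ σ • f ∈ T.toFrame.V L := by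
  rcases eq_or_ne f 0 with rfl | h0
  · rw [smul_zero]; exact zero_mem _
  refine FF.mem_riemannRochSpace_of_ord fun w => ?_
  obtain ⟨v, rfl⟩ : ∃ v, ρ σ • v = w := ⟨(ρ σ)⁻¹ • w, smul_inv_smul _ _⟩
  rw [SemilinearAut.ord_smul]
  refine le_trans (le_of_eq ?_) (FF.ord_of_mem_riemannRochSpace hf h0 v)
  rcases eq_or_ne v T.O with rfl | hv
  · rw [hρ.smul_O, Finsupp.single_eq_same]
  · have hv' : ρ σ • v ≠ T.O := fun h => hv (MulAction.injective (ρ σ) (h.trans (hρ.smul_O σ).symm))
    rw [Finsupp.single_eq_of_ne hv, Finsupp.single_eq_of_ne hv']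

theorem smul_ne_O (σ : Γℚ) {v : Place Qb F} (hv : v ≠ T.O) : ρ σ • v ≠ T.O := fun h =>
  hv (MulAction.injective (ρ σ) (h.trans (hρ.smul_O σ).symm))

/-- Automorphisms fixing the chosen basis move evaluation vectors by their action on values. -/
theorem vec_smul (σ : Γℚ) {L : ℕ}
    (hb : ∀ a, ρ σ • (T.toFrame.basis L a : F) = (T.toFrame.basis L a : F))
    {P : Place Qb F} (hP : P ≠ T.O) :
    T.toFrame.vec L (ρ σ • P) = σ ∘ T.toFrame.vec L P := funext fun a => by
  show evalAt (ρ σ • P) (T.toFrame.basis L a : F) = _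
  conv_lhs => rw [← hb a]
  rw [evalAt_smul_smul _ (T.toFrame.V_le_reg L (T.toFrame.basis L a).2 P hP), hρ.baseAut_apply]
  rfl

/-- The conjugate of a configuration of a fixed class. -/
def smulCfg {e : ℕ} {x : Pic0 Qb F} (σ : Γℚ) (hx : ρ σ • x = x)
    (hpool : ∀ i, ρ σ • T.pool i = T.pool i) (c : Cfg T e x) : Cfg T e x where
  E i := ρ σ • c.E i
  E' i := ρ σ • c.E' i
  inj := by
    have : Fin.append (fun i => ρ σ • c.E i) (fun i => ρ σ • c.E' i) =
        fun i => ρ σ • Fin.append c.E c.E' i :=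
      funext fun i => Fin.addCases (fun j => by rw [Fin.append_left, Fin.append_left])
        (fun j => by rw [Fin.append_right, Fin.append_right]) i
    rw [this]
    exact (MulAction.injective (ρ σ)).comp c.inj
  ne_O := Fin.addCases (fun j => by rw [Fin.append_left]; exact hρ.smul_ne_O σ (c.ne_O_left j))
    (fun j => by rw [Fin.append_right]; exact hρ.smul_ne_O σ (c.ne_O_right j))
  ne_pool i j := by
    have : Fin.append (fun i => ρ σ • c.E i) (fun i => ρ σ • c.E' i) i =
        ρ σ • Fin.append c.E c.E' i :=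
      Fin.addCases (fun j => by rw [Fin.append_left, Fin.append_left])
        (fun j => by rw [Fin.append_right, Fin.append_right]) i
    rw [this, ← hpool j]
    exact (MulAction.injective (ρ σ)).ne (c.ne_pool i j)
  f := ρ σ • c.f
  f_mem := hρ.smul_mem_V σ c.f_mem
  f_ne := (smul_ne_zero_iff_ne (ρ σ)).mpr c.f_ne
  f_div := by
    rw [divisorOf_smul, c.f_div, hρ.smul_pdiv]
    congr 1
    exact funext fun i => Fin.addCases (fun j => by rw [Fin.append_left, Fin.append_left])
      (fun j => by rw [Fin.append_right, Fin.append_right]) i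
  cls_eq := by
    refine Eq.trans ?_ ((congrArg (ρ σ • ·) c.cls_eq).trans hx)
    show Pic0.mk _ = ρ σ • Pic0.mk _
    rw [SemilinearAut.pic0_smul_mk]
    refine congrArg Pic0.mk (Subtype.ext ?_)
    rw [SemilinearAut.coe_degZeroSMulHom]
    exact (hρ.smul_pdiv σ e c.E).symm

theorem coords_smulCfg {x : Pic0 Qb F} (σ : Γℚ) (hx : ρ σ • x = x)
    (hpool : ∀ i, ρ σ • T.pool i = T.pool i)
    (hb : ∀ a, ρ σ • (T.toFrame.basis T.M a : F) = (T.toFrame.basis T.M a : F))
    (c : Cfg T (T.m + T.m) x) :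
    T.coords (hρ.smulCfg σ hx hpool c) = σ ∘ T.coords c := by
  funext I
  rw [Function.comp_apply, T.coords_apply, T.coords_apply, map_div₀, map_mul, map_prod]
  have hdet : ∀ E : Fin (T.m + T.m) → Place Qb F, (∀ i, E i ≠ T.O) →
      detAppend T.kk_add (fun i => T.toFrame.vec T.M (T.pool (I i)))
        (fun i => T.toFrame.vec T.M (ρ σ • E i)) =
      σ (detAppend T.kk_add (fun i => T.toFrame.vec T.M (T.pool (I i)))
        (fun i => T.toFrame.vec T.M (E i))) := by
    intro E hE
    rw [detAppend, detAppend, AlgEquiv.map_det]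
    refine congrArg Matrix.det (Matrix.ext fun i j => ?_)
    rw [AlgEquiv.mapMatrix_apply, Matrix.map_apply, Matrix.of_apply, Matrix.of_apply]
    generalize Fin.cast T.kk_add.symm i = i'
    refine Fin.addCases (fun a => ?_) (fun a => ?_) i'
    · rw [Fin.append_left, Fin.append_left]
      conv_lhs => rw [← hpool (I a), hρ.vec_smul σ hb (T.pool_ne _)]
      rfl
    · rw [Fin.append_right, Fin.append_right, hρ.vec_smul σ hb (hE a)]
      rfl
  show detAppend _ _ (fun i => T.toFrame.vec T.M (ρ σ • c.E i)) *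
    detAppend _ _ (fun i => T.toFrame.vec T.M (ρ σ • c.E' i)) / _ = _
  rw [hdet _ c.ne_O_left, hdet _ c.ne_O_right]
  congr 1
  refine Finset.prod_congr rfl fun i _ => ?_
  conv_lhs => rw [← hpool (I i)]
  exact (evalAt_smul_smul (ρ σ) (c.f_regular _ (T.pool_ne _))).trans (hρ.baseAut_apply σ _)

/-- A number field over which the bases and the pool are defined. -/
theorem exists_field : ∃ K₀ : IntermediateField ℚ Qb, FiniteDimensional ℚ K₀ ∧
    ∀ σ ∈ K₀.fixingSubgroup, (∀ i, ρ σ • T.pool i = T.pool i) ∧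
      ∀ a, ρ σ • (T.toFrame.basis T.M a : F) = (T.toFrame.basis T.M a : F) := by
  choose L hLfin hL using hρ.exists_fixed
  let S : Set Qb := Set.range fun p : Fin T.npool × Fin (T.toFrame.dim T.m) =>
    T.toFrame.vec T.m (T.pool p.1) p.2
  set K₁ : IntermediateField ℚ Qb := IntermediateField.adjoin ℚ S
  have := isAlgebraic_qbar
  have : Finite S := (Set.finite_range _).to_subtype
  have : FiniteDimensional ℚ K₁ :=
    IntermediateField.finiteDimensional_adjoin fun x _ =>
      (Algebra.IsAlgebraic.isAlgebraic x).isIntegral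
  have := fun f => hLfin f
  set KM : IntermediateField ℚ Qb := ⨆ a, L (T.toFrame.basis T.M a : F)
  set Km : IntermediateField ℚ Qb := ⨆ a, L (T.toFrame.basis T.m a : F)
  have : FiniteDimensional ℚ KM := IntermediateField.finiteDimensional_iSup_of_finite
  have : FiniteDimensional ℚ Km := IntermediateField.finiteDimensional_iSup_of_finite
  refine ⟨K₁ ⊔ KM ⊔ Km, inferInstance, fun σ hσ => ?_⟩
  rw [IntermediateField.mem_fixingSubgroup_iff] at hσ
  have hfix : ∀ f, L f ≤ K₁ ⊔ KM ⊔ Km → ρ σ • f = f := fun f hf =>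
    hL f σ ((IntermediateField.mem_fixingSubgroup_iff _ _).mpr fun y hy => hσ y (hf hy))
  have hM : ∀ a, ρ σ • (T.toFrame.basis T.M a : F) = (T.toFrame.basis T.M a : F) := fun a =>
    hfix _ (((le_iSup (fun a => L (T.toFrame.basis T.M a : F)) a).trans le_sup_right).trans
      le_sup_left)
  have hm : ∀ a, ρ σ • (T.toFrame.basis T.m a : F) = (T.toFrame.basis T.m a : F) := fun a =>
    hfix _ ((le_iSup (fun a => L (T.toFrame.basis T.m a : F)) a).trans le_sup_right)
  refine ⟨fun i => ?_, hM⟩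
  by_contra hne
  refine wedge_vec_ne_zero T.toFrame hne (hρ.smul_ne_O σ (T.pool_ne i)) (T.pool_ne i) ?_
  have e : T.toFrame.vec T.m (ρ σ • T.pool i) = T.toFrame.vec T.m (T.pool i) := by
    rw [hρ.vec_smul σ hm (T.pool_ne i)]
    exact funext fun a => hσ _ (le_sup_left (b := Km) (le_sup_left (b := KM)
      (IntermediateField.subset_adjoin ℚ S ⟨(i, a), rfl⟩)))
  funext ab
  rw [e, wedge, Pi.zero_apply]
  exact sub_eq_zero.mpr (mul_comm _ _)

end IsGalAction

/-- The fixed classes of bounded height are finitely many. -/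
theorem finite_setOf_ht_coords_le (T : Data Qb F) {ρ : Γℚ →* SemilinearAut Qb F}
    (hρ : IsGalAction T ρ) (B : ℝ) :
    {x : Pic0 Qb F | (∀ σ : Γℚ, ρ σ • x = x) ∧
      ∃ c : Cfg T (T.m + T.m) x, ht (T.coords c) ≤ B ∧ T.coords c ≠ 0}.Finite := by
  obtain ⟨K₀, hK₀, hfix⟩ := hρ.exists_field
  have := hK₀
  refine (Set.finite_iUnion fun I0 => (finite_setOf_ht_le K₀ I0 B).biUnion fun v hv =>
    T.finite_setOf_coords v fun h0 => one_ne_zero (α := Qb) ?_).subset ?_
  · rw [← hv.1, h0]; rfl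
  rintro x ⟨hx, c, hB, hne⟩
  obtain ⟨I0, hI0⟩ := Function.ne_iff.mp hne
  rw [Pi.zero_apply] at hI0
  set w := (T.coords c I0)⁻¹ • T.coords c with hw
  have hw1 : w I0 = 1 := by rw [hw, Pi.smul_apply, smul_eq_mul, inv_mul_cancel₀ hI0]
  refine Set.mem_iUnion.mpr ⟨I0, Set.mem_iUnion₂.mpr ⟨w, ⟨hw1, fun I => ?_, ?_⟩, c,
    T.coords c I0, hI0, (smul_inv_smul₀ hI0 _).symm⟩⟩
  · have := isAlgebraic_qbar
    have := normal_qbar
    have : IsGalois ℚ Qb := ⟨⟩
    rw [← InfiniteGalois.fixedField_fixingSubgroup K₀]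
    refine (IntermediateField.mem_fixedField_iff _ _).mpr fun σ hσ => ?_
    obtain ⟨hpool, hb⟩ := hfix σ hσ
    obtain ⟨a, ha, hca⟩ := T.exists_smul_coords c (hρ.smulCfg σ (hx σ) hpool c)
    rw [hρ.coords_smulCfg σ (hx σ) hpool hb c] at hca
    have h0 := congrFun hca I0
    have h1 := congrFun hca I
    rw [Function.comp_apply, Pi.smul_apply, smul_eq_mul] at h0 h1
    rw [hw, Pi.smul_apply, smul_eq_mul, map_mul, map_inv₀, h0, h1]
    field_simp
  · rw [hw, ht_smul _ (inv_ne_zero hI0)]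
    exact hB

end Galois

end FLTAgent.MW
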