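import Fermat.Agent.MW.Abs
import Fermat.Agent.MW.Defs

/-!
# From ultrapowers to bounded height differences

`ht_bounded_of_local`: if a product relation between the sizes of vectors holds in every ultrapower
of `ℚ̄` for every valuation trivial on the constants, the same relation between heights holds up
to a bounded error.  A sequence of counterexamples gives, through the ring of bounded germs
(`boundedRing`), a valuation violating it.
-/

set_option autoImplicit false

noncomputable section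

namespace FLTAgent.MW

local notation "Qb" => AlgebraicClosure ℚ
local notation "Γℚ" => (AlgebraicClosure ℚ ≃ₐ[ℚ] AlgebraicClosure ℚ)

/-- The ultrapower of `ℚ̄`. -/
abbrev UPow : Type := Filter.Germ (Filter.hyperfilter ℕ : Filter ℕ) Qb

/-- The class of a sequence of vectors as a vector over the ultrapower. -/
def germVec {ι : Type*} (v : ℕ → ι → Qb) : ι → UPow :=
  fun i => (fun n => v n i : ℕ → Qb)

/-- The valuation ring of the germs bounded for a sequence of absolute values. -/
def boundedRing (b : ℕ → AbsoluteValue Qb ℝ) : ValuationSubring UPow where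
  carrier := {x | ∃ g : ℕ → Qb, (g : UPow) = x ∧
    ∃ C : ℝ, ∀ᶠ n in (Filter.hyperfilter ℕ : Filter ℕ), b n (g n) ≤ C}
  mul_mem' := by
    rintro _ _ ⟨g, rfl, C, hC⟩ ⟨g', rfl, C', hC'⟩
    refine ⟨g * g', rfl, C * C', (hC.and hC').mono fun n hn => ?_⟩
    rw [Pi.mul_apply, map_mul]
    exact mul_le_mul hn.1 hn.2 ((b n).nonneg _) (((b n).nonneg _).trans hn.1)
  one_mem' := ⟨1, rfl, 1, Filter.Eventually.of_forall fun n => by simp⟩
  add_mem' := by
    rintro _ _ ⟨g, rfl, C, hC⟩ ⟨g', rfl, C', hC'⟩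
    exact ⟨g + g', rfl, C + C', (hC.and hC').mono fun n hn =>
      ((b n).add_le _ _).trans (add_le_add hn.1 hn.2)⟩
  zero_mem' := ⟨0, rfl, 0, Filter.Eventually.of_forall fun n => by simp⟩
  neg_mem' := by
    rintro _ ⟨g, rfl, C, hC⟩
    exact ⟨-g, rfl, C, hC.mono fun n hn => by rwa [Pi.neg_apply, AbsoluteValue.map_neg]⟩
  mem_or_inv_mem' := fun x => by
    induction x using Filter.Germ.inductionOn with
    | h g =>
      rcases (Filter.hyperfilter ℕ).em (fun n => b n (g n) ≤ 1) with h | h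
      · exact Or.inl ⟨g, rfl, 1, h⟩
      · refine Or.inr ⟨g⁻¹, rfl, 1, h.mono fun n hn => ?_⟩
        rw [Pi.inv_apply, map_inv₀]
        exact inv_le_one_of_one_le₀ (not_le.mp hn).le

theorem mem_boundedRing {b : ℕ → AbsoluteValue Qb ℝ} {g : ℕ → Qb} :
    (g : UPow) ∈ boundedRing b ↔
      ∃ C : ℝ, ∀ᶠ n in (Filter.hyperfilter ℕ : Filter ℕ), b n (g n) ≤ C := by
  refine ⟨?_, fun h => ⟨g, rfl, h⟩⟩
  rintro ⟨g', hg', C, hC⟩
  exact ⟨C, (hC.and (Filter.Germ.coe_eq.mp hg')).mono fun n hn => hn.2 ▸ hn.1⟩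

theorem exists_eventually_max {ι : Type*} [Fintype ι] (b : ℕ → AbsoluteValue Qb ℝ)
    (v : ℕ → ι → Qb) (hv : ∀ n, v n ≠ 0) :
    ∃ i, nrm (boundedRing b) (germVec v) = (boundedRing b).valuation (germVec v i) ∧
      ∀ᶠ n in (Filter.hyperfilter ℕ : Filter ℕ),
        v n i ≠ 0 ∧ (⨆ j, b n (v n j)) = b n (v n i) := by
  have : Nonempty ι := let ⟨i, _⟩ := Function.ne_iff.mp (hv 0); ⟨i⟩
  choose f hf using fun n => exists_eq_ciSup_of_finite (f := fun j => b n (v n j))
  obtain ⟨i, -, hi⟩ := (Ultrafilter.finite_biUnion_mem_iff (f := Filter.hyperfilter ℕ)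
    (Set.finite_univ (α := ι)) (s := fun i => {n | f n = i})).mp
    (Filter.Eventually.of_forall (f := (Filter.hyperfilter ℕ : Filter ℕ))
      fun n => Set.mem_iUnion₂.mpr ⟨f n, Set.mem_univ _, rfl⟩)
  have hmax : ∀ᶠ n in (Filter.hyperfilter ℕ : Filter ℕ),
      v n i ≠ 0 ∧ (⨆ j, b n (v n j)) = b n (v n i) := by
    refine Filter.Eventually.mono hi fun n hn => ?_
    have he : (⨆ j, b n (v n j)) = b n (v n i) := by
      rw [← hf n, show f n = i from hn]
    refine ⟨fun h0 => ?_, he⟩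
    have := iSup_abs_pos (b n) (hv n)
    rw [he, h0, map_zero] at this
    exact lt_irrefl _ this
  refine ⟨i, le_antisymm (Finset.sup_le fun j _ => ?_) (Finset.le_sup
    (f := fun j => (boundedRing b).valuation (germVec v j)) (Finset.mem_univ i)), hmax⟩
  have hi0 : (boundedRing b).valuation (germVec v i) ≠ 0 := by
    rw [Ne, Valuation.zero_iff]
    intro h
    obtain ⟨n, hn⟩ := ((Filter.Germ.coe_eq.mp
      (show ((fun n => v n i : ℕ → Qb) : UPow) = ((0 : ℕ → Qb) : UPow) from h)).and hmax).exists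
    exact hn.2.1 hn.1
  rw [← div_le_one₀ (zero_lt_iff.mpr hi0), ← map_div₀, ValuationSubring.valuation_le_one_iff]
  show ((fun n => v n j / v n i : ℕ → Qb) : UPow) ∈ boundedRing b
  refine mem_boundedRing.mpr ⟨1, hmax.mono fun n hn => ?_⟩
  rw [map_div₀, div_le_one₀ ((b n).pos hn.1), ← hn.2]
  exact le_ciSup (Finite.bddAbove_range fun j => b n (v n j)) j

theorem eventually_abs_le {α β : Type*} [Fintype α] [Fintype β] {ιL : α → Type*}
    {ιR : β → Type*} [∀ a, Fintype (ιL a)] [∀ b, Fintype (ιR b)]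
    (b : ℕ → AbsoluteValue Qb ℝ) (L : ∀ a, ℕ → ιL a → Qb) (R : ∀ c, ℕ → ιR c → Qb)
    (hL : ∀ a n, L a n ≠ 0) (hR : ∀ c n, R c n ≠ 0)
    (h : ∏ a, nrm (boundedRing b) (germVec (L a)) = ∏ c, nrm (boundedRing b) (germVec (R c))) :
    ∃ C : ℝ, ∀ᶠ n in (Filter.hyperfilter ℕ : Filter ℕ),
      |∑ a, logMax (b n) (L a n) - ∑ c, logMax (b n) (R c n)| ≤ C := by
  choose i hi hmaxL using fun a => exists_eventually_max b (L a) (hL a)
  choose j hj hmaxR using fun c => exists_eventually_max b (R c) (hR c)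
  let g : ℕ → Qb := fun n => ∏ a, L a n (i a)
  let g' : ℕ → Qb := fun n => ∏ c, R c n (j c)
  have hg : ∏ a, germVec (L a) (i a) = (g : UPow) := by
    rw [show g = ∏ a, fun n => L a n (i a) from (funext fun n => by
      simp only [g, Finset.prod_apply])]
    exact (map_prod (Filter.Germ.coeRingHom (Filter.hyperfilter ℕ : Filter ℕ))
      (fun a n => L a n (i a)) Finset.univ).symm
  have hg' : ∏ c, germVec (R c) (j c) = (g' : UPow) := by
    rw [show g' = ∏ c, fun n => R c n (j c) from (funext fun n => by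
      simp only [g', Finset.prod_apply])]
    exact (map_prod (Filter.Germ.coeRingHom (Filter.hyperfilter ℕ : Filter ℕ))
      (fun c n => R c n (j c)) Finset.univ).symm
  simp only [hi, hj, ← map_prod, hg, hg'] at h
  have hsupL := Filter.eventually_all.mpr hmaxL
  have hsupR := Filter.eventually_all.mpr hmaxR
  have hne : (boundedRing b).valuation (g' : UPow) ≠ 0 := by
    rw [Ne, Valuation.zero_iff]
    intro h0
    obtain ⟨n, hn⟩ := ((Filter.Germ.coe_eq.mp
      (show (g' : UPow) = ((0 : ℕ → Qb) : UPow) from h0)).and hsupR).exists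
    exact Finset.prod_ne_zero_iff.mpr (fun c _ => (hn.2 c).1) hn.1
  have hne' : (boundedRing b).valuation (g : UPow) ≠ 0 := h ▸ hne
  obtain ⟨C₁, h₁⟩ : ∃ C : ℝ, ∀ᶠ n in (Filter.hyperfilter ℕ : Filter ℕ),
      b n (g n / g' n) ≤ C := by
    refine (mem_boundedRing (g := g / g')).mp ((ValuationSubring.valuation_le_one_iff _ _).mp ?_)
    rw [Filter.Germ.coe_div, map_div₀, h, div_self hne]
  obtain ⟨C₂, h₂⟩ : ∃ C : ℝ, ∀ᶠ n in (Filter.hyperfilter ℕ : Filter ℕ),
      b n (g' n / g n) ≤ C := by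
    refine (mem_boundedRing (g := g' / g)).mp ((ValuationSubring.valuation_le_one_iff _ _).mp ?_)
    rw [Filter.Germ.coe_div, map_div₀, h, div_self hne]
  refine ⟨max (Real.log C₁) (Real.log C₂), ((hsupL.and hsupR).and (h₁.and h₂)).mono ?_⟩
  rintro n ⟨⟨hnL, hnR⟩, hn₁, hn₂⟩
  have hgn : g n ≠ 0 := Finset.prod_ne_zero_iff.mpr fun a _ => (hnL a).1
  have hgn' : g' n ≠ 0 := Finset.prod_ne_zero_iff.mpr fun c _ => (hnR c).1
  have hSL : ∑ a, logMax (b n) (L a n) = Real.log (b n (g n)) := by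
    rw [map_prod, Real.log_prod fun a _ => (b n).ne_zero (hnL a).1]
    exact Finset.sum_congr rfl fun a _ => by rw [logMax, (hnL a).2]
  have hSR : ∑ c, logMax (b n) (R c n) = Real.log (b n (g' n)) := by
    rw [map_prod, Real.log_prod fun c _ => (b n).ne_zero (hnR c).1]
    exact Finset.sum_congr rfl fun c _ => by rw [logMax, (hnR c).2]
  have e₁ := Real.log_le_log ((b n).pos (div_ne_zero hgn hgn')) hn₁
  have e₂ := Real.log_le_log ((b n).pos (div_ne_zero hgn' hgn)) hn₂
  rw [map_div₀, Real.log_div ((b n).ne_zero hgn) ((b n).ne_zero hgn')] at e₁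
  rw [map_div₀, Real.log_div ((b n).ne_zero hgn') ((b n).ne_zero hgn)] at e₂
  rw [hSL, hSR]
  exact abs_le.mpr ⟨by linarith [le_max_right (Real.log C₁) (Real.log C₂)],
    e₁.trans (le_max_left _ _)⟩

/-- A positive power of a nonarchimedean absolute value. -/
def powAbs (a : AbsoluteValue Qb ℝ) (ha : IsNonarchimedean a) (t : ℝ) (ht : 0 < t) :
    AbsoluteValue Qb ℝ where
  toFun x := a x ^ t
  map_mul' x y := by rw [map_mul, Real.mul_rpow (a.nonneg x) (a.nonneg y)]
  nonneg' x := Real.rpow_nonneg (a.nonneg x) t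
  eq_zero' x := by rw [Real.rpow_eq_zero (a.nonneg x) ht.ne', a.eq_zero]
  add_le' x y := by
    refine (Real.rpow_le_rpow (a.nonneg _) (ha x y) ht.le).trans ?_
    rcases max_cases (a x) (a y) with ⟨h, _⟩ | ⟨h, _⟩ <;> rw [h]
    · exact le_add_of_nonneg_right (Real.rpow_nonneg (a.nonneg y) t)
    · exact le_add_of_nonneg_left (Real.rpow_nonneg (a.nonneg x) t)

theorem logMax_powAbs (a : AbsoluteValue Qb ℝ) (ha : IsNonarchimedean a) (t : ℝ) (ht : 0 < t)
    {ι : Type*} [Fintype ι] {v : ι → Qb} (hv : v ≠ 0) :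
    logMax (powAbs a ha t ht) v = t * logMax a v := by
  have : Nonempty ι := let ⟨i, _⟩ := Function.ne_iff.mp hv; ⟨i⟩
  have he : (⨆ j, powAbs a ha t ht (v j)) = (⨆ j, a (v j)) ^ t := by
    refine le_antisymm (ciSup_le fun j => Real.rpow_le_rpow (a.nonneg _)
      (le_ciSup (Finite.bddAbove_range fun j => a (v j)) j) ht.le) ?_
    obtain ⟨i, hi⟩ := exists_eq_ciSup_of_finite (f := fun j => a (v j))
    rw [← hi]
    exact le_ciSup (Finite.bddAbove_range fun j => powAbs a ha t ht (v j)) i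
  rw [logMax, logMax, he, Real.log_rpow (iSup_abs_pos a hv)]

/-- A product of heights relation holding for all limits holds up to a bounded error. -/
theorem ht_bounded_of_local {X : Type*} {α β : Type*} [Fintype α] [Fintype β] {ιL : α → Type*}
    {ιR : β → Type*} [∀ a, Fintype (ιL a)] [∀ b, Fintype (ιR b)]
    (L : ∀ a, X → ιL a → Qb) (R : ∀ b, X → ιR b → Qb)
    (hL : ∀ a x, L a x ≠ 0) (hR : ∀ b x, R b x ≠ 0)
    (h : ∀ (u : ℕ → X) (V : ValuationSubring UPow), (∀ c : Qb, (↑c : UPow) ∈ V) →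
      ∏ a, nrm V (germVec fun n => L a (u n)) = ∏ b, nrm V (germVec fun n => R b (u n))) :
    ∃ C : ℝ, ∀ x, |∑ a, ht (L a x) - ∑ b, ht (R b x)| ≤ C := by
  let D : RatPl → X → Γℚ → ℝ := fun p x σ =>
    ∑ a, logMax (absAt p σ) (L a x) - ∑ b, logMax (absAt p σ) (R b x)
  have core : ∀ (u : ℕ → X) (b : ℕ → AbsoluteValue Qb ℝ),
      (∀ c : Qb, ∃ C : ℝ, ∀ᶠ n in (Filter.hyperfilter ℕ : Filter ℕ), b n c ≤ C) →
      ¬ ∀ n : ℕ, (n : ℝ) ≤ |∑ a, logMax (b n) (L a (u n)) - ∑ c, logMax (b n) (R c (u n))| := by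
    intro u b hb hall
    obtain ⟨C, hC⟩ := eventually_abs_le b (fun a n => L a (u n)) (fun c n => R c (u n))
      (fun a n => hL a _) (fun c n => hR c _)
      (h u _ fun c => mem_boundedRing.mpr (hb c))
    obtain ⟨N, hN⟩ := exists_nat_gt C
    obtain ⟨n, hn, hn'⟩ :=
      (hC.and ((Filter.eventually_ge_atTop N).filter_mono Nat.hyperfilter_le_atTop)).exists
    exact absurd ((hall n).trans hn) (not_le.mpr (hN.trans_le (by exact_mod_cast hn')))
  have hloc : ∀ p, ∃ C : ℝ, 0 ≤ C ∧ ∀ x σ, |D p x σ| ≤ C := by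
    intro p
    by_contra hcon
    push Not at hcon
    choose u σ hu using fun n : ℕ => hcon n (Nat.cast_nonneg n)
    refine core u (fun n => absAt p (σ n)) (fun c => ?_) fun n => (hu n).le
    obtain ⟨C, hC⟩ := (finite_range_absAt p c).bddAbove
    exact ⟨C, Filter.Eventually.of_forall fun n => hC ⟨σ n, rfl⟩⟩
  have hfin : {p : Nat.Primes | ∃ x σ, D (some p) x σ ≠ 0}.Finite := by
    by_contra hinf
    let P := Set.Infinite.natEmbedding _ hinf
    choose u σ hu using fun n => (P n).2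
    let b : ℕ → AbsoluteValue Qb ℝ := fun n =>
      powAbs (absAt (some (P n).1) (σ n)) (isNonarchimedean_absAt _ _)
        (((n : ℝ) + 1) / |D (some (P n).1) (u n) (σ n)|)
        (div_pos (Nat.cast_add_one_pos n) (abs_pos.mpr (hu n)))
    refine core u b (fun c => ⟨1, ?_⟩) fun n => ?_
    · rcases eq_or_ne c 0 with rfl | hc
      · exact Filter.Eventually.of_forall fun n => by rw [map_zero]; exact zero_le_one
      have hf := ((finite_setOf_absAt_ne_one hc).preimage
        (f := fun n : ℕ => (some (P n).1 : RatPl)) (Function.Injective.injOn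
          ((Option.some_injective _).comp (Subtype.val_injective.comp P.injective))))
      refine Filter.Eventually.mono (Filter.compl_mem_hyperfilter_of_finite hf) fun n hn => ?_
      show absAt (some ((P n).1)) (σ n) c ^
        (((n : ℝ) + 1) / |D (some (P n).1) (u n) (σ n)|) ≤ (1 : ℝ)
      have h1 : absAt (some (P n).1) (σ n) c = 1 := by
        by_contra hne
        exact hn ⟨σ n, hne⟩
      rw [h1, Real.one_rpow]
    · simp only [b, fun a => logMax_powAbs (absAt (some (P n).1) (σ n)) (isNonarchimedean_absAt _ _)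
        _ (div_pos (Nat.cast_add_one_pos n) (abs_pos.mpr (hu n))) (hL a (u n)),
        fun c => logMax_powAbs (absAt (some (P n).1) (σ n)) (isNonarchimedean_absAt _ _)
        _ (div_pos (Nat.cast_add_one_pos n) (abs_pos.mpr (hu n))) (hR c (u n)),
        ← Finset.mul_sum, ← mul_sub, abs_mul]
      rw [abs_div, abs_abs, div_mul_cancel₀ _ (abs_pos.mpr (hu n)).ne']
      exact (le_add_of_nonneg_right zero_le_one).trans (le_abs_self _)
  classical
  choose C hC0 hC using hloc
  let S : Set RatPl := insert none (some '' {p : Nat.Primes | ∃ x σ, D (some p) x σ ≠ 0})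
  refine ⟨∑ᶠ p, S.indicator C p, fun x => abs_sum_ht_le (fun a => L a x) (fun b => R b x)
    (fun a => hL a x) (fun b => hR b x) _
    (((hfin.image some).insert none).subset Set.support_indicator_subset) fun p σ => ?_⟩
  by_cases hp : p ∈ S
  · rw [Set.indicator_of_mem hp]
    exact hC p x σ
  · rw [Set.indicator_of_notMem hp]
    cases p with
    | none => exact absurd (Set.mem_insert _ _) hp
    | some q =>
      refine le_of_eq (abs_eq_zero.mpr ?_)
      by_contra hne
      exact hp (Set.mem_insert_of_mem _ ⟨q, ⟨x, σ, hne⟩, rfl⟩)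

end FLTAgent.MW
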