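import Fermat.Agent.MW.Local
import Fermat.Agent.MW.Transfer
import Fermat.Agent.MW.Config
import Fermat.Agent.MW.Phi

/-!
# The height relations

Transfer of the four distance formulas of `MW.Local` by `ht_bounded_of_local`: the height of a
Plücker vector against the heights and proximities of its places (`Data.exists_plucker_bound`), of
a function against its zeros (`Data.exists_eval_bound`), of a product on the pool
(`Data.exists_mul_bound`), and of the coordinates of a class (`Data.coords_bound`, with their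
non-vanishing).
-/

set_option autoImplicit false
set_option linter.unusedSectionVars false

noncomputable section

open AlgebraicCurve

namespace FLTAgent.MW

local notation "Qb" => AlgebraicClosure ℚ

/-- The constants of the ultrapower. -/
instance upowAlgebraMW : Algebra Qb UPow :=
  ((Filter.Germ.coeRingHom _).comp (Pi.constRingHom ℕ Qb)).toAlgebra

theorem upow_algebraMap (c : Qb) : algebraMap Qb UPow c = ((fun _ => c : ℕ → Qb) : UPow) := rfl

section Germ

/-- The class of a sequence of vectors is nonzero if all the vectors are. -/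
theorem germVec_ne_zero {ι : Type*} [Finite ι] {v : ℕ → ι → Qb} (h : ∀ n, v n ≠ 0) :
    germVec v ≠ 0 := by
  intro h0
  have h1 : ∀ i, ∀ᶠ n in (Filter.hyperfilter ℕ : Filter ℕ), v n i = 0 := fun i =>
    Filter.Germ.coe_eq.mp (congrFun h0 i)
  obtain ⟨n, hn⟩ := (Filter.eventually_all.mpr h1).exists
  exact h n (funext hn)

/-- Determinants commute with taking classes. -/
theorem det_germ {n : ℕ} (M : ℕ → Matrix (Fin n) (Fin n) Qb) :
    (Matrix.of fun i j => ((fun k => M k i j : ℕ → Qb) : UPow)).det =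
      ((fun k => (M k).det : ℕ → Qb) : UPow) := by
  set A : Matrix (Fin n) (Fin n) (ℕ → Qb) := Matrix.of fun i j k => M k i j
  have h1 : A.det = fun k => (M k).det := funext fun k => by
    have h2 := RingHom.map_det (Pi.evalRingHom (fun _ => Qb) k) A
    rw [Pi.evalRingHom_apply] at h2
    rw [h2]
    rfl
  rw [← h1]
  exact (RingHom.map_det (Filter.Germ.coeRingHom _) A).symm

theorem plucker_germ {n e : ℕ} (w : ℕ → Fin e → Fin n → Qb) :
    plucker (fun i => germVec fun k => w k i) = germVec fun k => plucker (w k) := funext fun J =>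
  det_germ fun k => Matrix.of fun i j => w k i (J j)

theorem wedge_germ {n : ℕ} (u w : ℕ → Fin n → Qb) :
    wedge (germVec u) (germVec w) = germVec fun k => wedge (u k) (w k) := rfl

theorem detAppend_germ {n r e : ℕ} (h : r + e = n) (u : ℕ → Fin r → Fin n → Qb)
    (w : ℕ → Fin e → Fin n → Qb) :
    detAppend h (fun i => germVec fun k => u k i) (fun i => germVec fun k => w k i) =
      ((fun k => detAppend h (u k) (w k) : ℕ → Qb) : UPow) := by
  rw [detAppend]
  simp only [detAppend]
  refine (congrArg Matrix.det ?_).trans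
    (det_germ fun k => Matrix.of fun i => Fin.append (u k) (w k) (Fin.cast h.symm i))
  ext i j
  simp only [Matrix.of_apply]
  rcases Fin.cast h.symm i with ⟨a, ha⟩
  rcases lt_or_ge a r with hlt | hge
  · rw [show (⟨a, ha⟩ : Fin (r + e)) = Fin.castAdd e ⟨a, hlt⟩ from rfl]
    simp only [Fin.append_left]
    rfl
  · rw [show (⟨a, ha⟩ : Fin (r + e)) = Fin.natAdd r ⟨a - r, by omega⟩ from Fin.ext (by
      simp only [Fin.val_natAdd]; omega)]
    simp only [Fin.append_right]
    rfl

theorem prod_germ {ι : Type*} (s : Finset ι) (g : ℕ → ι → Qb) :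
    ∏ i ∈ s, ((fun k => g k i : ℕ → Qb) : UPow) = ((fun k => ∏ i ∈ s, g k i : ℕ → Qb) : UPow) := by
  rw [show (fun k => ∏ i ∈ s, g k i : ℕ → Qb) = ∏ i ∈ s, fun k => g k i from
    funext fun k => by rw [Finset.prod_apply]]
  exact (map_prod (Filter.Germ.coeRingHom _) _ _).symm

theorem sum_germ {ι : Type*} (s : Finset ι) (g : ℕ → ι → Qb) :
    ∑ i ∈ s, ((fun k => g k i : ℕ → Qb) : UPow) = ((fun k => ∑ i ∈ s, g k i : ℕ → Qb) : UPow) := by
  rw [show (fun k => ∑ i ∈ s, g k i : ℕ → Qb) = ∑ i ∈ s, fun k => g k i from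
    funext fun k => by rw [Finset.sum_apply]]
  exact (map_sum (Filter.Germ.coeRingHom _) _ _).symm

theorem nrm_eq_zero_iff {Ω : Type*} [Field Ω] (V : ValuationSubring Ω) {ι : Type*} [Fintype ι]
    (w : ι → Ω) : nrm V w = 0 ↔ w = 0 := by
  constructor
  · intro h
    funext i
    have h1 := (Finset.le_sup (f := fun i => V.valuation (w i)) (Finset.mem_univ i)).trans_eq h
    exact (Valuation.zero_iff _).mp (le_antisymm h1 zero_le)
  · rintro rfl
    refine le_antisymm (Finset.sup_le fun i _ => ?_) zero_le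
    simp

theorem nrm_unique {Ω : Type*} [Field Ω] (V : ValuationSubring Ω) (z : Ω) :
    nrm V (fun _ : Fin 1 => z) = V.valuation z := by
  simp [nrm]

end Germ

variable {F : Type*} [Field F] [Algebra Qb F] [FF.IsFF Qb F]

section Points

variable (T : Frame Qb F)

/-- A sequence of places as a point over the ultrapower. -/
def Frame.germPt (P : ℕ → Place Qb F) (hP : ∀ n, P n ≠ T.O) : T.reg →ₐ[Qb] UPow where
  toFun f := ((fun n => T.evHom (P n) (hP n) f : ℕ → Qb) : UPow)
  map_one' := congrArg _ (funext fun n => map_one (T.evHom (P n) (hP n)))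
  map_mul' f g := congrArg _ (funext fun n => map_mul (T.evHom (P n) (hP n)) f g)
  map_zero' := congrArg _ (funext fun n => map_zero (T.evHom (P n) (hP n)))
  map_add' f g := congrArg _ (funext fun n => map_add (T.evHom (P n) (hP n)) f g)
  commutes' c := congrArg _ (funext fun n => AlgHom.commutes (T.evHom (P n) (hP n)) c)

theorem Frame.pvec_germPt (L : ℕ) (P : ℕ → Place Qb F) (hP : ∀ n, P n ≠ T.O) :
    T.pvec L (T.germPt P hP) = germVec fun n => T.vec L (P n) := rfl

theorem Frame.pvec_cpt (L : ℕ) (P : Place Qb F) (hP : P ≠ T.O) :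
    T.pvec L (T.cpt UPow P hP) = germVec fun _ => T.vec L P := rfl

/-- The value at a place of a function given by coordinates. -/
theorem Frame.sum_repr_mul_vec (L : ℕ) (f : T.V L) (P : Place Qb F) (hP : P ≠ T.O) :
    ∑ i, (T.basis L).repr f i * T.vec L P i = evalAt P (f : F) := by
  have h1 : ∀ g : T.V L, evalAt P (g : F) = T.evHom P hP ⟨(g : F), T.V_le_reg L g.2⟩ := fun g => rfl
  let ι : T.V L →ₗ[Qb] Qb := (T.evHom P hP).toLinearMap.comp
    ((Submodule.inclusion (show T.V L ≤ Subalgebra.toSubmodule T.reg from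
      fun g hg => T.V_le_reg L hg)))
  have h2 : ∀ g : T.V L, ι g = evalAt P (g : F) := fun g => rfl
  rw [← h2]
  conv_rhs => rw [← (T.basis L).sum_repr f, map_sum]
  refine Finset.sum_congr rfl fun i _ => ?_
  rw [map_smul, smul_eq_mul, h2]
  rfl

theorem Frame.peval_germPt (L : ℕ) (f : ℕ → T.V L) (P : ℕ → Place Qb F) (hP : ∀ n, P n ≠ T.O) :
    T.peval L (germVec fun n i => (T.basis L).repr (f n) i) (T.germPt P hP) =
      ((fun n => evalAt (P n) (f n : F) : ℕ → Qb) : UPow) := by
  rw [Frame.peval, T.pvec_germPt]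
  rw [show (fun n => evalAt (P n) (f n : F) : ℕ → Qb) =
    fun n => ∑ i, (T.basis L).repr (f n) i * T.vec L (P n) i from
      funext fun n => (T.sum_repr_mul_vec L (f n) (P n) (hP n)).symm, ← sum_germ]
  rfl

theorem Frame.peval_cpt (L : ℕ) (f : ℕ → T.V L) (P : Place Qb F) (hP : P ≠ T.O) :
    T.peval L (germVec fun n i => (T.basis L).repr (f n) i) (T.cpt UPow P hP) =
      ((fun n => evalAt P (f n : F) : ℕ → Qb) : UPow) :=
  T.peval_germPt L f (fun _ => P) fun _ => hP

/-- The section of level `m` through a place attached to a pair of coordinates. -/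
def Frame.lin (P : Place Qb F) (ab : Fin (T.dim T.m) × Fin (T.dim T.m)) : T.V T.m :=
  T.vec T.m P ab.1 • T.basis T.m ab.2 - T.vec T.m P ab.2 • T.basis T.m ab.1

theorem Frame.evalAt_lin (P R : Place Qb F) (hR : R ≠ T.O)
    (ab : Fin (T.dim T.m) × Fin (T.dim T.m)) :
    evalAt R (T.lin P ab : F) = wedge (T.vec T.m P) (T.vec T.m R) ab := by
  rw [← T.sum_repr_mul_vec T.m _ R hR, Frame.lin, wedge]
  simp [Finsupp.single_apply, sub_mul, Finset.sum_sub_distrib, ite_mul, zero_mul]

theorem prod_mem_V {ι : Type*} (s : Finset ι) {d : ℕ} (g : ι → F) (hg : ∀ i ∈ s, g i ∈ T.V d) :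
    ∏ i ∈ s, g i ∈ T.V (s.card * d) := by
  classical
  induction s using Finset.induction with
  | empty =>
    rw [Finset.prod_empty, Finset.card_empty, zero_mul]
    exact FF.mem_riemannRochSpace_of_ord fun v => by simp
  | insert i s hi ih =>
    rw [Finset.prod_insert hi, Finset.card_insert_of_notMem hi]
    have h := FF.mul_mem_riemannRochSpace (hg i (Finset.mem_insert_self i s))
      (ih fun k hk => hg k (Finset.mem_insert_of_mem hk))
    rw [← Finsupp.single_add] at h
    rwa [Frame.V, show ((((s.card + 1) * d : ℕ) : ℤ)) = (d : ℤ) + ((s.card * d : ℕ) : ℤ) by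
      push_cast; ring]

/-- The products of sections through the zeros of `f` are multiples of `f`. -/
theorem Frame.exists_quotient (j : ℕ) (hj : j ≤ j * T.m) {Z : Fin (j * T.m) → Place Qb F}
    (hZ : Function.Injective Z) (hO : ∀ i, Z i ≠ T.O) {f : F} (hf : f ∈ T.V (j * T.m))
    (hf0 : f ≠ 0) (hdiv : FF.divisorOf f = T.pdiv (j * T.m) Z)
    (π : Fin (j * T.m) → Fin (T.dim T.m) × Fin (T.dim T.m)) :
    ∃ q : T.V ((j * T.m - j) * T.m), ∀ R : Place Qb F, R ≠ T.O →
      ∏ i, wedge (T.vec T.m (Z i)) (T.vec T.m R) (π i) = evalAt R f * evalAt R (q : F) := by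
  classical
  let s : F := ∏ i, (T.lin (Z i) (π i) : F)
  have hmem : ∀ i, (T.lin (Z i) (π i) : F) ∈ T.reg := fun i => T.V_le_reg _ (T.lin (Z i) (π i)).2
  have hev : ∀ R : Place Qb F, R ≠ T.O →
      evalAt R s = ∏ i, wedge (T.vec T.m (Z i)) (T.vec T.m R) (π i) := fun R hR => by
    have h1 : evalAt R s = T.evHom R hR (∏ i, ⟨_, hmem i⟩) := by
      show _ = evalAt R _
      congr 1
      simp [s]
    rw [h1, map_prod]
    exact Finset.prod_congr rfl fun i _ => T.evalAt_lin (Z i) R hR (π i)
  have hs : s ∈ T.V (j * T.m + (j * T.m - j) * T.m) := by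
    have h := prod_mem_V T Finset.univ (fun i => (T.lin (Z i) (π i) : F))
      fun i _ => (T.lin (Z i) (π i)).2
    rw [Finset.card_univ, Fintype.card_fin] at h
    rwa [← add_mul, Nat.add_sub_cancel' hj]
  have hs0 : ∀ i, evalAt (Z i) s = 0 := fun i => by
    rw [hev _ (hO i)]
    exact Finset.prod_eq_zero (Finset.mem_univ i) (by simp [wedge, mul_comm])
  obtain ⟨q, hq, he⟩ := exists_mul_eq T hZ hO hf0 hdiv hs hs0
  refine ⟨⟨q, hq⟩, fun R hR => ?_⟩
  rw [← hev R hR, he]
  exact evalAt_mul R (T.V_le_reg _ hf R hR) (T.V_le_reg _ hq R hR)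

end Points

section Bounds

variable (T : Data Qb F)

/-- The height of a place. -/
def Data.hv (P : Place Qb F) : ℝ := ht (T.toFrame.vec T.m P)

/-- The proximity of two places. -/
def Data.dlt (P Q : Place Qb F) : ℝ :=
  open scoped Classical in
  if P = Q then 2 * T.hv P
  else T.hv P + T.hv Q - ht (wedge (T.toFrame.vec T.m P) (T.toFrame.vec T.m Q))

/-- The sum of the mutual proximities. -/
def Data.cross {e e' : ℕ} (E : Fin e → Place Qb F) (E' : Fin e' → Place Qb F) : ℝ :=
  ∑ i, ∑ i', T.dlt (E i) (E' i')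

/-- The height of the wedge of the evaluation vectors. -/
def Data.hp {e : ℕ} (E : Fin e → Place Qb F) : ℝ :=
  ht (plucker fun i => T.toFrame.vec T.M (E i))

/-- The values on the pool. -/
def Data.fvals (f : F) : Fin T.npool → Qb := fun i => evalAt (T.pool i) f

theorem Data.vec_ne_zero {L : ℕ} (hL : 1 + 2 * genusFF Qb F ≤ L) {P : Place Qb F}
    (hP : P ≠ T.O) : T.toFrame.vec L P ≠ 0 := by
  intro h
  refine plucker_vec_ne_zero T.toFrame hL (E := fun _ : Fin 1 => P)
    (Function.injective_of_subsingleton _) (fun _ => hP) (funext fun J => ?_)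
  rw [plucker, Pi.zero_apply]
  exact Matrix.det_eq_zero_of_row_eq_zero 0 fun j => by simp [h]

theorem Data.fvals_ne_zero {L : ℕ} (hL : L < T.npool) {f : F} (hf : f ∈ T.toFrame.V L)
    (hf0 : f ≠ 0) : T.fvals f ≠ 0 := fun h =>
  hf0 (eq_zero_of_evalAt_eq_zero T.toFrame L T.pool T.pool_injective T.pool_ne
    (by rwa [Fintype.card_fin]) hf fun i => congrFun h i)

theorem Data.dlt_comm (P Q : Place Qb F) : T.dlt P Q = T.dlt Q P := by
  unfold Data.dlt
  rcases eq_or_ne P Q with rfl | hne
  · rfl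
  · rw [if_neg hne, if_neg hne.symm]
    have h : wedge (T.toFrame.vec T.m Q) (T.toFrame.vec T.m P) =
        (-1 : Qb) • wedge (T.toFrame.vec T.m P) (T.toFrame.vec T.m Q) := by
      funext ab
      simp [wedge]
      ring
    rw [h, ht_smul _ (by norm_num)]
    ring

theorem Data.exists_plucker_bound (e : ℕ) (he : e ≤ 4 * T.m) (he' : e + 2 * genusFF Qb F ≤ T.M) :
    ∃ C : ℝ, ∀ E : Fin e → Place Qb F, Function.Injective E → (∀ i, E i ≠ T.O) →
      |T.hp E - ((((4 * T.m : ℕ) : ℝ) + 1) * ∑ i, T.hv (E i) - T.cross E E / 2)| ≤ C := by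
  classical
  let X := {E : Fin e → Place Qb F // Function.Injective E ∧ ∀ i, E i ≠ T.O}
  let PP := {p : Fin e × Fin e // p.1 < p.2}
  let ιL : Option (PP × Bool) → Type := fun a => Option.elim a (Fin e → Fin (T.toFrame.dim T.M))
    fun _ => Fin (T.toFrame.dim T.m)
  let ιR : (Fin e × Fin (4 * T.m)) ⊕ PP → Type := Sum.elim (fun _ => Fin (T.toFrame.dim T.m))
    fun _ => Fin (T.toFrame.dim T.m) × Fin (T.toFrame.dim T.m)
  let : ∀ a, Fintype (ιL a) := fun a => by cases a <;> (dsimp only [ιL, Option.elim]; infer_instance)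
  let : ∀ b, Fintype (ιR b) := fun b => by cases b <;> (dsimp only [ιR, Sum.elim_inl, Sum.elim_inr]; infer_instance)
  have hm1 : 1 + 2 * genusFF Qb F ≤ T.m := by have := T.hm; omega
  let Lv : ∀ a, X → ιL a → Qb := fun a E => match a with
    | none => plucker fun i => T.toFrame.vec T.M (E.1 i)
    | some (p, false) => T.toFrame.vec T.m (E.1 p.1.1)
    | some (p, true) => T.toFrame.vec T.m (E.1 p.1.2)
  let Rv : ∀ b, X → ιR b → Qb := fun b E => match b with
    | Sum.inl (i, _) => T.toFrame.vec T.m (E.1 i)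
    | Sum.inr p => wedge (T.toFrame.vec T.m (E.1 p.1.1)) (T.toFrame.vec T.m (E.1 p.1.2))
  obtain ⟨C, hC⟩ := ht_bounded_of_local Lv Rv
    (by
      rintro (_ | ⟨p, _ | _⟩) ⟨E, hE, hO⟩
      · exact plucker_vec_ne_zero T.toFrame he' hE hO
      · exact T.vec_ne_zero hm1 (hO _)
      · exact T.vec_ne_zero hm1 (hO _))
    (by
      rintro (⟨i, _⟩ | p) ⟨E, hE, hO⟩
      · exact T.vec_ne_zero hm1 (hO _)
      · exact wedge_vec_ne_zero T.toFrame (fun h => p.2.ne (hE h)) (hO _) (hO _))
    (fun u V hV => by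
      let φ : Fin e → (T.toFrame.reg →ₐ[Qb] UPow) := fun i =>
        T.toFrame.germPt (fun n => (u n).1 i) fun n => (u n).2.2 i
      have h := nrm_plucker T.toFrame V (fun c => hV c) (4 * T.m) e he φ fun i j hij => by
        rw [Frame.pvec_germPt, Frame.pvec_germPt, wedge_germ]
        exact germVec_ne_zero fun n => wedge_vec_ne_zero T.toFrame (fun h => hij ((u n).2.1 h))
          ((u n).2.2 i) ((u n).2.2 j)
      simp only [φ, Frame.pvec_germPt, plucker_germ, wedge_germ] at h
      rw [Fintype.prod_option, Fintype.prod_sum_type, Fintype.prod_prod_type,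
        Fintype.prod_prod_type]
      have e1 : ∀ i k, nrm V (germVec fun n => Rv (Sum.inl (i, k)) (u n)) =
          nrm V (germVec fun n => T.toFrame.vec T.m ((u n).1 i)) := fun _ _ => rfl
      simp only [e1, Finset.prod_const, Finset.card_univ, Fintype.card_fin]
      simp only [Lv, Rv, Fintype.prod_bool]
      rw [Finset.prod_subtype (Finset.univ.filter fun p : Fin e × Fin e => p.1 < p.2)
          (p := fun p : Fin e × Fin e => p.1 < p.2) (fun p => by simp),
        Finset.prod_subtype (Finset.univ.filter fun p : Fin e × Fin e => p.1 < p.2)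
          (p := fun p : Fin e × Fin e => p.1 < p.2) (fun p => by simp)] at h
      refine Eq.trans ?_ h
      congr 1
      exact Finset.prod_congr rfl fun p _ => mul_comm _ _)
  refine ⟨C, fun E hE hO => ?_⟩
  have h := hC ⟨E, hE, hO⟩
  rw [Fintype.sum_option, Fintype.sum_sum_type, Fintype.sum_prod_type, Fintype.sum_prod_type] at h
  have e1 : ∀ i k, ht (Rv (Sum.inl (i, k)) ⟨E, hE, hO⟩) = T.hv (E i) := fun _ _ => rfl
  have e2 : ht (Lv none ⟨E, hE, hO⟩) = T.hp E := rfl
  have e3 : ∀ p, ht (Lv (some (p, false)) ⟨E, hE, hO⟩) = T.hv (E p.1.1) := fun _ => rfl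
  have e4 : ∀ p, ht (Lv (some (p, true)) ⟨E, hE, hO⟩) = T.hv (E p.1.2) := fun _ => rfl
  have e5 : ∀ p, ht (Rv (Sum.inr p) ⟨E, hE, hO⟩) =
      ht (wedge (T.toFrame.vec T.m (E p.1.1)) (T.toFrame.vec T.m (E p.1.2))) := fun _ => rfl
  simp only [e1, e2, e3, e4, e5, Finset.sum_const, Finset.card_univ, Fintype.card_fin, Fintype.sum_bool,
    nsmul_eq_mul, ← Finset.mul_sum] at h
  have key : T.cross E E = 2 * (∑ p : PP, T.dlt (E p.1.1) (E p.1.2)) +
      2 * ∑ i, T.hv (E i) := by
    have h1 : T.cross E E = ∑ p : Fin e × Fin e, T.dlt (E p.1) (E p.2) :=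
      (Fintype.sum_prod_type' (fun i i' => T.dlt (E i) (E i'))).symm
    have h2 : ∑ p : Fin e × Fin e with ¬ p.1 < p.2, T.dlt (E p.1) (E p.2) =
        (∑ p : Fin e × Fin e with p.1 < p.2, T.dlt (E p.1) (E p.2)) +
          ∑ i, T.dlt (E i) (E i) := by
      rw [← Finset.sum_filter_add_sum_filter_not
        (Finset.univ.filter fun p : Fin e × Fin e => ¬ p.1 < p.2) (fun p => p.2 < p.1)]
      congr 1
      · refine Finset.sum_nbij' Prod.swap Prod.swap ?_ ?_ (fun _ _ => rfl) (fun _ _ => rfl)
          (fun p _ => T.dlt_comm _ _) <;>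
        · intro p hp
          simp only [Finset.mem_filter, Finset.mem_univ, true_and,
            Prod.fst_swap, Prod.snd_swap] at hp ⊢
          omega
      · refine Finset.sum_nbij' (fun p => p.1) (fun i => (i, i)) ?_ ?_ ?_ (fun _ _ => rfl) ?_
        · intro p hp; simp
        · intro i _; simp
        · intro p hp
          simp only [Finset.mem_filter, Finset.mem_univ, true_and] at hp
          exact Prod.ext rfl (le_antisymm (not_lt.mp hp.2) (not_lt.mp hp.1))
        · intro p hp
          simp only [Finset.mem_filter, Finset.mem_univ, true_and] at hp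
          rw [le_antisymm (not_lt.mp hp.2) (not_lt.mp hp.1)]
    rw [h1, ← Finset.sum_filter_add_sum_filter_not Finset.univ
      (fun p : Fin e × Fin e => p.1 < p.2), h2,
      Finset.sum_subtype (Finset.univ.filter fun p : Fin e × Fin e => p.1 < p.2)
        (p := fun p : Fin e × Fin e => p.1 < p.2) (fun p => by simp)]
    simp only [Data.dlt, if_true]
    rw [← Finset.mul_sum]
    ring
  have hne : ∀ p : PP, T.dlt (E p.1.1) (E p.1.2) = T.hv (E p.1.1) + T.hv (E p.1.2) -
      ht (wedge (T.toFrame.vec T.m (E p.1.1)) (T.toFrame.vec T.m (E p.1.2))) := fun p => by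
    rw [Data.dlt, if_neg fun h => p.2.ne (hE h)]
  simp only [hne, Finset.sum_sub_distrib] at key
  rw [key]
  refine le_trans (le_of_eq ?_) h
  congr 1
  simp only [Data.hp, Data.hv, Finset.sum_add_distrib]
  push_cast
  ring

theorem Data.exists_eval_bound (j : ℕ) (hj : 0 < j) (hj4 : j ≤ 4) :
    ∃ C : ℝ, ∀ (Z : Fin (j * T.m) → Place Qb F) (f : F) (Q : Place Qb F), Function.Injective Z →
      (∀ i, Z i ≠ T.O) → f ∈ T.toFrame.V (j * T.m) → f ≠ 0 →
      FF.divisorOf f = T.toFrame.pdiv (j * T.m) Z → Q ≠ T.O → (∀ i, Z i ≠ Q) →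
      |∑ i, T.dlt (Z i) Q - (ht (T.fvals f) + (j : ℝ) * T.hv Q)| ≤ C := by
  classical
  let X := {x : (Fin (j * T.m) → Place Qb F) × F × Place Qb F //
    Function.Injective x.1 ∧ (∀ i, x.1 i ≠ T.O) ∧ x.2.1 ∈ T.toFrame.V (j * T.m) ∧ x.2.1 ≠ 0 ∧
      FF.divisorOf x.2.1 = T.toFrame.pdiv (j * T.m) x.1 ∧ x.2.2 ≠ T.O ∧ ∀ i, x.1 i ≠ x.2.2}
  let α := Option (Fin (j * T.m) × Bool)
  let ιL : α → Type := fun a => Option.elim a (Fin 1) fun _ => Fin (T.toFrame.dim T.m)
  let ιR : Option (Fin j ⊕ Fin (j * T.m)) → Type := fun b => Option.elim b (Fin T.npool)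
    (Sum.elim (fun _ => Fin (T.toFrame.dim T.m))
      fun _ => Fin (T.toFrame.dim T.m) × Fin (T.toFrame.dim T.m))
  let : ∀ a, Fintype (ιL a) := fun a => by cases a <;> (dsimp only [ιL, Option.elim]; infer_instance)
  let : ∀ b, Fintype (ιR b) := fun b => by
    rcases b with _ | _ | _ <;> (dsimp only [ιR, Option.elim, Sum.elim_inl, Sum.elim_inr]; infer_instance)
  have hm1 : 1 + 2 * genusFF Qb F ≤ T.m := by have := T.hm; omega
  let Lv : ∀ a, X → ιL a → Qb := fun a x => match a with
    | none => fun _ => evalAt x.1.2.2 x.1.2.1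
    | some (i, false) => T.toFrame.vec T.m (x.1.1 i)
    | some (_, true) => T.toFrame.vec T.m x.1.2.2
  let Rv : ∀ b, X → ιR b → Qb := fun b x => match b with
    | none => T.fvals x.1.2.1
    | some (Sum.inl _) => T.toFrame.vec T.m x.1.2.2
    | some (Sum.inr i) => wedge (T.toFrame.vec T.m (x.1.1 i)) (T.toFrame.vec T.m x.1.2.2)
  have hfQ : ∀ x : X, evalAt x.1.2.2 x.1.2.1 ≠ 0 := by
    rintro ⟨⟨Z, f, Q⟩, hZ, hZO, hf, hf0, hdiv, hQ, hne⟩ h
    simp only at h hne hdiv hf hf0 hQ
    rw [evalAt_eq_zero_iff Q (T.toFrame.V_le_reg _ hf Q hQ) hf0] at h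
    have h1 := congrArg (fun D => D Q) hdiv
    simp [Frame.pdiv, hne, Ne.symm hQ] at h1
    omega
  obtain ⟨C, hC⟩ := ht_bounded_of_local Lv Rv
    (by
      rintro (_ | ⟨i, _ | _⟩) x
      · exact fun h => hfQ x (congrFun h (0 : Fin 1))
      · exact T.vec_ne_zero hm1 (x.2.2.1 i)
      · exact T.vec_ne_zero hm1 x.2.2.2.2.2.2.1)
    (by
      rintro (_ | _ | i) x
      · exact T.fvals_ne_zero (by
          have := Nat.mul_le_mul_right T.m hj4
          have := Nat.le_mul_of_pos_right (4 * T.m) (show 0 < T.m by omega)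
          simp only [Data.npool]
          omega) x.2.2.2.1 x.2.2.2.2.1
      · exact T.vec_ne_zero hm1 x.2.2.2.2.2.2.1
      · exact wedge_vec_ne_zero T.toFrame (x.2.2.2.2.2.2.2 i) (x.2.2.1 i) x.2.2.2.2.2.2.1)
    (fun u V hV => by
      let Z : Fin (j * T.m) → (T.toFrame.reg →ₐ[Qb] UPow) := fun i =>
        T.toFrame.germPt (fun n => (u n).1.1 i) fun n => (u n).2.2.1 i
      let Q : T.toFrame.reg →ₐ[Qb] UPow :=
        T.toFrame.germPt (fun n => (u n).1.2.2) fun n => (u n).2.2.2.2.2.2.1
      let fm : ℕ → T.toFrame.V (j * T.m) := fun n => ⟨(u n).1.2.1, (u n).2.2.2.1⟩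
      let a : Fin (T.toFrame.dim (j * T.m)) → UPow :=
        germVec fun n i => (T.toFrame.basis (j * T.m)).repr (fm n) i
      have hjm : j * T.m ≤ 4 * T.m := Nat.mul_le_mul_right _ hj4
      have h := valuation_peval T.toFrame V (fun c => hV c) j (4 * T.m) hj hjm T.pool
        T.pool_injective T.pool_ne (by simp only [Fintype.card_fin]; omega) a Z
        (fun i i' hne => by
          simp only [Z, Frame.pvec_germPt, wedge_germ]
          exact germVec_ne_zero fun n => wedge_vec_ne_zero T.toFrame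
            (fun h => hne ((u n).2.1 h)) ((u n).2.2.1 i) ((u n).2.2.1 i'))
        (fun i => by
          simp only [a, Z, Frame.peval_germPt]
          exact congrArg _ (funext fun n => by
            show evalAt ((u n).1.1 i) (u n).1.2.1 = 0
            rw [evalAt_eq_zero_iff _ (T.toFrame.V_le_reg _ (u n).2.2.2.1 _ ((u n).2.2.1 i))
              (u n).2.2.2.2.1, ← FF.divisorOf_apply, (u n).2.2.2.2.2.1]
            simp [Frame.pdiv, Finsupp.single_apply,
              ((u n).2.1).eq_iff, Ne.symm ((u n).2.2.1 i)]))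
        Q (fun i => by
          simp only [Q, Z, Frame.pvec_germPt, wedge_germ]
          exact germVec_ne_zero fun n => wedge_vec_ne_zero T.toFrame
            ((u n).2.2.2.2.2.2.2 i) ((u n).2.2.1 i) (u n).2.2.2.2.2.2.1)
        (fun π => by
          choose q hq using fun n => T.toFrame.exists_quotient j
            (Nat.le_mul_of_pos_right j (by omega)) (u n).2.1 (u n).2.2.1 (u n).2.2.2.1
            (u n).2.2.2.2.1 (u n).2.2.2.2.2.1 π
          refine ⟨germVec fun n i => (T.toFrame.basis _).repr (q n) i, ?_⟩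
          have key : ∀ (R : ℕ → Place Qb F) (hR : ∀ n, R n ≠ T.O),
              ∏ i, wedge (T.toFrame.pvec T.m (Z i)) (T.toFrame.pvec T.m (T.toFrame.germPt R hR))
                (π i) = T.toFrame.peval (j * T.m) a (T.toFrame.germPt R hR) *
                  T.toFrame.peval _ (germVec fun n i => (T.toFrame.basis _).repr (q n) i)
                    (T.toFrame.germPt R hR) := fun R hR => by
            simp only [a, Z, Frame.pvec_germPt, wedge_germ, Frame.peval_germPt]
            simp only [germVec]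
            rw [prod_germ Finset.univ fun n i =>
              wedge (T.toFrame.vec T.m ((u n).1.1 i)) (T.toFrame.vec T.m (R n)) (π i)]
            exact congrArg _ (funext fun n => hq n (R n) (hR n))
          intro R hR
          rcases Set.mem_insert_iff.mp hR with rfl | ⟨i, rfl⟩
          · exact key _ _
          · exact key (fun _ => T.pool i) fun _ => T.pool_ne i)
      simp only [a, Z, Q, Frame.pvec_germPt, Frame.peval_germPt, Frame.peval_cpt,
        wedge_germ] at h
      rw [Fintype.prod_option, Fintype.prod_option, Fintype.prod_sum_type, Fintype.prod_prod_type]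
      have e1 : ∀ k, nrm V (germVec fun n => Rv (some (Sum.inl k)) (u n)) =
          nrm V (germVec fun n => T.toFrame.vec T.m (u n).1.2.2) := fun _ => rfl
      simp only [e1, Finset.prod_const, Finset.card_univ, Fintype.card_fin]
      simp only [Lv, Rv, Fintype.prod_bool]
      refine Eq.trans ?_ (h.trans (mul_assoc _ _ _))
      exact congr (congrArg (· * ·) (nrm_unique V _))
        (Finset.prod_congr rfl fun i _ => mul_comm _ _))
  refine ⟨C, fun Z f Q hZ hO hf hf0 hdiv hQ hne => ?_⟩
  have h := hC ⟨⟨Z, f, Q⟩, hZ, hO, hf, hf0, hdiv, hQ, hne⟩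
  rw [Fintype.sum_option, Fintype.sum_option, Fintype.sum_sum_type, Fintype.sum_prod_type] at h
  have e1 : ∀ k, ht (Rv (some (Sum.inl k)) ⟨⟨Z, f, Q⟩, hZ, hO, hf, hf0, hdiv, hQ, hne⟩) =
      T.hv Q := fun _ => rfl
  have e3 : ∀ i, ht (Lv (some (i, false)) ⟨⟨Z, f, Q⟩, hZ, hO, hf, hf0, hdiv, hQ, hne⟩) =
      T.hv (Z i) := fun _ => rfl
  have e4 : ∀ i, ht (Lv (some (i, true)) ⟨⟨Z, f, Q⟩, hZ, hO, hf, hf0, hdiv, hQ, hne⟩) =
      T.hv Q := fun _ => rfl
  have e5 : ∀ i, ht (Rv (some (Sum.inr i)) ⟨⟨Z, f, Q⟩, hZ, hO, hf, hf0, hdiv, hQ, hne⟩) =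
      ht (wedge (T.toFrame.vec T.m (Z i)) (T.toFrame.vec T.m Q)) := fun _ => rfl
  have e6 : ht (Rv none ⟨⟨Z, f, Q⟩, hZ, hO, hf, hf0, hdiv, hQ, hne⟩) = ht (T.fvals f) := rfl
  rw [Fintype.sum_congr _ _ fun i => Fintype.sum_bool _] at h
  simp only [e1, e3, e4, e5, e6, Finset.sum_add_distrib, Finset.sum_const, Finset.card_univ, Fintype.card_fin, nsmul_eq_mul] at h
  refine le_trans (le_of_eq ?_) h
  have h0 : ht (Lv none ⟨⟨Z, f, Q⟩, hZ, hO, hf, hf0, hdiv, hQ, hne⟩) = 0 := ht_single (ι := Fin 1) _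
  rw [h0]
  simp only [Data.dlt, if_neg (hne _), Data.hv, Finset.sum_sub_distrib,
    Finset.sum_add_distrib, Finset.sum_const, Finset.card_univ, Fintype.card_fin, nsmul_eq_mul]
  congr 1
  ring

theorem Data.exists_mul_bound :
    ∃ C : ℝ, ∀ f g : F, f ∈ T.toFrame.V (T.m + T.m) → g ∈ T.toFrame.V (T.m + T.m) → f ≠ 0 →
      g ≠ 0 → |ht (T.fvals (f * g)) - (ht (T.fvals f) + ht (T.fvals g))| ≤ C := by
  classical
  let X := {x : F × F // x.1 ∈ T.toFrame.V (T.m + T.m) ∧ x.2 ∈ T.toFrame.V (T.m + T.m) ∧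
    x.1 ≠ 0 ∧ x.2 ≠ 0}
  have hm : 1 ≤ T.m := by have := T.hm; omega
  have hnp : (T.m + T.m) + (T.m + T.m) < T.npool := by
    have := Nat.le_mul_of_pos_right (4 * T.m) hm
    simp only [Data.npool]
    omega
  obtain ⟨C, hC⟩ := ht_bounded_of_local (α := Unit) (β := Bool)
    (fun _ (x : X) => T.fvals (x.1.1 * x.1.2))
    (fun b x => T.fvals (if b then x.1.2 else x.1.1))
    (fun _ x => T.fvals_ne_zero (L := (T.m + T.m) + (T.m + T.m)) hnp (by
      rw [Frame.V, Nat.cast_add (T.m + T.m), Finsupp.single_add]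
      exact FF.mul_mem_riemannRochSpace x.2.1 x.2.2.1) (mul_ne_zero x.2.2.2.1 x.2.2.2.2))
    (fun b x => by
      cases b
      · exact T.fvals_ne_zero (L := T.m + T.m) (by omega) x.2.1 x.2.2.2.1
      · exact T.fvals_ne_zero (L := T.m + T.m) (by omega) x.2.2.1 x.2.2.2.2)
    (fun u V hV => by
      let fm : ℕ → T.toFrame.V (T.m + T.m) := fun n => ⟨(u n).1.1, (u n).2.1⟩
      let gm : ℕ → T.toFrame.V (T.m + T.m) := fun n => ⟨(u n).1.2, (u n).2.2.1⟩
      have h := nrm_peval_mul T.toFrame V (fun c => hV c) (T.m + T.m) (T.m + T.m) T.pool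
        T.pool_injective T.pool_ne (by simpa [Fintype.card_fin] using hnp)
        (germVec fun n i => (T.toFrame.basis _).repr (fm n) i)
        (germVec fun n i => (T.toFrame.basis _).repr (gm n) i)
      simp only [Frame.peval_cpt] at h
      rw [Fintype.prod_bool, Fintype.prod_unique]
      refine Eq.trans ?_ (h.trans (mul_comm _ _))
      refine congrArg (nrm V) (funext fun i => ?_)
      exact congrArg _ (funext fun n => evalAt_mul (T.pool i)
        (T.toFrame.V_le_reg _ (u n).2.1 _ (T.pool_ne i))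
        (T.toFrame.V_le_reg _ (u n).2.2.1 _ (T.pool_ne i))))
  refine ⟨C, fun f g hf hg hf0 hg0 => ?_⟩
  have h := hC ⟨⟨f, g⟩, hf, hg, hf0, hg0⟩
  rw [Fintype.sum_bool, Fintype.sum_unique] at h
  simpa [add_comm] using h

set_option maxHeartbeats 800000 in
theorem Data.coords_bound :
    (∀ (x : Pic0 Qb F) (c : Cfg T (T.m + T.m) x), T.coords c ≠ 0) ∧
    ∃ C : ℝ, ∀ (x : Pic0 Qb F) (c : Cfg T (T.m + T.m) x),
      |ht (T.coords c) + (T.kk : ℝ) * ht (T.fvals c.f) - (T.hp c.E + T.hp c.E')| ≤ C := by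
  classical
  let X := Σ x : Pic0 Qb F, Cfg T (T.m + T.m) x
  have h4m : T.m + T.m + (T.m + T.m) = 4 * T.m := by omega
  have hm : 1 ≤ T.m := by have := T.hm; omega
  have hM : 4 * T.m ≤ T.M := Nat.le_mul_of_pos_right _ hm
  have hgM : T.m + T.m + 2 * genusFF Qb F ≤ T.M := by have := T.hm; omega
  have hinj : ∀ c : X, Function.Injective c.2.E ∧ Function.Injective c.2.E' := fun c =>
    ⟨fun a b h => Fin.castAdd_injective _ _ (c.2.inj (by rwa [Fin.append_left, Fin.append_left])),
      fun a b h => Fin.natAdd_injective _ _ (c.2.inj (by rwa [Fin.append_right, Fin.append_right]))⟩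
  have hO : ∀ c : X, (∀ i, c.2.E i ≠ T.O) ∧ ∀ i, c.2.E' i ≠ T.O := fun c =>
    ⟨fun i => by simpa using c.2.ne_O (Fin.castAdd _ i),
      fun i => (Fin.append_right c.2.E c.2.E' i) ▸ c.2.ne_O (Fin.natAdd _ i)⟩
  have hnp : 4 * T.M < T.npool := by simp only [Data.npool, Data.M]; omega
  have key : ∀ (u : ℕ → X) (V : ValuationSubring UPow), (∀ c : Qb, (↑c : UPow) ∈ V) →
      nrm V (germVec fun n => T.coords (u n).2) *
          nrm V (germVec fun n => T.fvals (u n).2.f) ^ T.kk =
        nrm V (germVec fun n => plucker fun i => T.toFrame.vec T.M ((u n).2.E i)) *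
          nrm V (germVec fun n => plucker fun i => T.toFrame.vec T.M ((u n).2.E' i)) := by
    intro u V hV
    let E : Fin (T.m + T.m) → (T.toFrame.reg →ₐ[Qb] UPow) := fun i =>
      T.toFrame.germPt (fun n => (u n).2.E i) fun n => (hO (u n)).1 i
    let E' : Fin (T.m + T.m) → (T.toFrame.reg →ₐ[Qb] UPow) := fun i =>
      T.toFrame.germPt (fun n => (u n).2.E' i) fun n => (hO (u n)).2 i
    have hap : ∀ i, Fin.append E E' i = T.toFrame.germPt
        (fun n => Fin.append (u n).2.E (u n).2.E' i) fun n => (u n).2.ne_O i := fun i => by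
      induction i using Fin.addCases with
      | left i => simp only [Fin.append_left]; rfl
      | right i => simp only [Fin.append_right]; rfl
    have hf : ∀ n, (u n).2.f ∈ T.toFrame.V (4 * T.m) := fun n => h4m ▸ (u n).2.f_mem
    let a : Fin (T.toFrame.dim (4 * T.m)) → UPow :=
      germVec fun n i => (T.toFrame.basis (4 * T.m)).repr ⟨_, hf n⟩ i
    have h := nrm_phi T.toFrame V (fun c => hV c) 4 (4 * T.m) T.kk (T.m + T.m) four_pos h4m
      le_rfl T.kk_add T.pool T.pool_injective T.pool_ne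
      (by simp only [Fintype.card_fin]; exact hnp) a E E'
      (fun i i' hne => by
        rw [hap, hap, Frame.pvec_germPt, Frame.pvec_germPt, wedge_germ]
        exact germVec_ne_zero fun n => wedge_vec_ne_zero T.toFrame
          (fun h => hne ((u n).2.inj h)) ((u n).2.ne_O i) ((u n).2.ne_O i'))
      (fun i => by
        rw [hap]
        simp only [a, Frame.peval_germPt]
        exact congrArg _ (funext fun n => by
          show evalAt (Fin.append (u n).2.E (u n).2.E' i) (u n).2.f = 0
          rw [evalAt_eq_zero_iff _ (T.toFrame.V_le_reg _ (hf n) _ ((u n).2.ne_O i)) (u n).2.f_ne,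
            ← FF.divisorOf_apply, (u n).2.f_div]
          simp [Frame.pdiv, Finsupp.single_apply,
            ((u n).2.inj).eq_iff, Ne.symm ((u n).2.ne_O i)]))
      (fun i i' => by
        rw [hap, Frame.pvec_germPt, Frame.pvec_cpt, wedge_germ]
        exact germVec_ne_zero fun n => wedge_vec_ne_zero T.toFrame
          ((u n).2.ne_pool i i') ((u n).2.ne_O i) (T.pool_ne i'))
      (fun π => by
        have hZc : ∀ n, ∃ q : T.toFrame.V ((4 * T.m - 4) * T.m), ∀ R : Place Qb F, R ≠ T.O →
            ∏ i, wedge (T.toFrame.vec T.m (Fin.append (u n).2.E (u n).2.E' i))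
              (T.toFrame.vec T.m R) (π i) = evalAt R (u n).2.f * evalAt R (q : F) := fun n => by
          let σ : Fin (4 * T.m) ≃ Fin (T.m + T.m + (T.m + T.m)) := finCongr h4m.symm
          obtain ⟨q, hq⟩ := T.toFrame.exists_quotient 4 (Nat.le_mul_of_pos_right 4 hm)
            (Z := Fin.append (u n).2.E (u n).2.E' ∘ σ) ((u n).2.inj.comp σ.injective)
            (fun i => (u n).2.ne_O (σ i)) (hf n) (u n).2.f_ne
            (by
              rw [(u n).2.f_div, Frame.pdiv, Frame.pdiv]
              exact congr (congrArg (· - ·) (Equiv.sum_comp σ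
                fun i => Finsupp.single (Fin.append (u n).2.E (u n).2.E' i) (1 : ℤ)).symm)
                (congrArg (fun d : ℕ => Finsupp.single T.O (d : ℤ)) h4m))
            (π ∘ σ)
          exact ⟨q, fun R hR => (Equiv.prod_comp σ fun i => wedge (T.toFrame.vec T.m
            (Fin.append (u n).2.E (u n).2.E' i)) (T.toFrame.vec T.m R) (π i)).symm.trans (hq R hR)⟩
        choose q hq using hZc
        refine ⟨germVec fun n i => (T.toFrame.basis _).repr (q n) i, fun r => ?_⟩
        simp only [a, hap, Frame.pvec_germPt, Frame.pvec_cpt, wedge_germ, Frame.peval_cpt]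
        simp only [germVec]
        rw [prod_germ Finset.univ fun n i => wedge (T.toFrame.vec T.m
          (Fin.append (u n).2.E (u n).2.E' i)) (T.toFrame.vec T.m (T.pool r)) (π i)]
        exact congrArg _ (funext fun n => hq n (T.pool r) (T.pool_ne r)))
    simp only [a, E, E', Frame.pvec_germPt, Frame.peval_cpt, plucker_germ,
      Frame.pvec_cpt] at h
    refine Eq.trans ?_ h
    congr 1
    refine congrArg (nrm V) (funext fun I => ?_)
    rw [detAppend_germ, detAppend_germ, prod_germ Finset.univ fun n i =>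
      evalAt (T.pool (I i)) (u n).2.f]
    rfl
  have hne : ∀ (x : Pic0 Qb F) (c : Cfg T (T.m + T.m) x), T.coords c ≠ 0 := by
    intro x c h0
    have h := key (fun _ => ⟨x, c⟩) ⊤ fun c => ValuationSubring.mem_top _
    have hz : germVec (fun _ : ℕ => T.coords c) = 0 := funext fun I => by rw [h0]; rfl
    rw [show nrm (⊤ : ValuationSubring UPow) (germVec fun _ : ℕ => T.coords c) = 0 from
      (nrm_eq_zero_iff _ _).mpr hz, zero_mul] at h
    rcases mul_eq_zero.mp h.symm with h1 | h1 <;> rw [nrm_eq_zero_iff] at h1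
    · exact germVec_ne_zero (fun _ => plucker_vec_ne_zero T.toFrame hgM (hinj ⟨x, c⟩).1
        (hO ⟨x, c⟩).1) h1
    · exact germVec_ne_zero (fun _ => plucker_vec_ne_zero T.toFrame hgM (hinj ⟨x, c⟩).2
        (hO ⟨x, c⟩).2) h1
  refine ⟨hne, ?_⟩
  let ιL : Option (Fin T.kk) → Type := fun a => Option.elim a (Fin T.kk → Fin T.npool)
    fun _ => Fin T.npool
  let : ∀ a, Fintype (ιL a) := fun a => by cases a <;> (dsimp only [ιL, Option.elim]; infer_instance)
  let Lv : ∀ a, X → ιL a → Qb := fun a c => match a with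
    | none => T.coords c.2
    | some _ => T.fvals c.2.f
  obtain ⟨C, hC⟩ := ht_bounded_of_local (β := Bool) Lv
    (fun b (c : X) => plucker fun i => T.toFrame.vec T.M ((if b then c.2.E' else c.2.E) i))
    (by
      rintro (_ | _) ⟨x, c⟩
      · exact hne x c
      · exact T.fvals_ne_zero (L := T.m + T.m + (T.m + T.m)) (by omega) c.f_mem c.f_ne)
    (fun b c => by
      cases b
      · exact plucker_vec_ne_zero T.toFrame hgM (hinj c).1 (hO c).1
      · exact plucker_vec_ne_zero T.toFrame hgM (hinj c).2 (hO c).2)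
    (fun u V hV => by
      have e1 : ∀ i, nrm V (germVec fun n => Lv (some i) (u n)) =
          nrm V (germVec fun n => T.fvals (u n).2.f) := fun _ => rfl
      rw [Fintype.prod_option, Fintype.prod_bool]
      simp only [e1, Finset.prod_const, Finset.card_univ, Fintype.card_fin]
      exact (key u V hV).trans (mul_comm _ _))
  refine ⟨C, fun x c => ?_⟩
  have h := hC ⟨x, c⟩
  have e1 : ∀ i, ht (Lv (some i) ⟨x, c⟩) = ht (T.fvals c.f) := fun _ => rfl
  rw [Fintype.sum_option, Fintype.sum_bool] at h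
  simp only [e1, Finset.sum_const, Finset.card_univ, Fintype.card_fin, nsmul_eq_mul] at h
  have e2 : ht (Lv none ⟨x, c⟩) = ht (T.coords c) := rfl
  rw [e2] at h
  simp only [if_true, Bool.false_eq_true, if_false] at h
  rw [Data.hp, Data.hp, add_comm (ht (plucker fun i => T.toFrame.vec T.M (c.E i)))]
  exact h

end Bounds

end FLTAgent.MW
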